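import Fermat.Agent.Lowering.P1.UnitBound.Borel

/-!
# Permutation modules

Bounds for the homomorphisms out of the adjoint representation into a permutation module, and
the weights of the functions supported on the points fixed by the unipotent element.
-/

set_option autoImplicit false
set_option linter.unusedSectionVars false
set_option linter.style.haveILetI false

noncomputable section

namespace FLTAgent.Lowering.P1.UnitBound

open FLTAgent.Lowering.P1.Primes

variable {p : ℕ} [Fact p.Prime] {V : Type} [AddCommGroup V] [Module (ZMod p) V]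

theorem finrank_le_ker_add {V' : Type} [AddCommGroup V'] [Module (ZMod p) V']
    [FiniteDimensional (ZMod p) V] [FiniteDimensional (ZMod p) V']
    (f : V →ₗ[ZMod p] V') (N : Submodule (ZMod p) V) (T : Submodule (ZMod p) V')
    (h : ∀ v ∈ N, f v ∈ T) :
    Module.finrank (ZMod p) N ≤
      Module.finrank (ZMod p) ↥(N ⊓ LinearMap.ker f) + Module.finrank (ZMod p) T := by
  have e := LinearMap.finrank_range_add_finrank_ker (f.comp N.subtype)
  have h1 : Module.finrank (ZMod p) (LinearMap.range (f.comp N.subtype)) ≤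
      Module.finrank (ZMod p) T :=
    Submodule.finrank_mono (by rintro _ ⟨v, rfl⟩; exact h v.1 v.2)
  have h2 : Module.finrank (ZMod p) (LinearMap.ker (f.comp N.subtype)) =
      Module.finrank (ZMod p) ↥(N ⊓ LinearMap.ker f) := by
    have hker : LinearMap.ker (f.comp N.subtype) =
        Submodule.comap N.subtype (N ⊓ LinearMap.ker f) := by
      ext v
      simp
    rw [hker,
      (Submodule.comapSubtypeEquivOfLe (inf_le_left : N ⊓ LinearMap.ker f ≤ N)).finrank_eq]
  omega

theorem ker_add_le_finrank {V' : Type} [AddCommGroup V'] [Module (ZMod p) V']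
    [FiniteDimensional (ZMod p) V] [FiniteDimensional (ZMod p) V']
    (f : V →ₗ[ZMod p] V') (N : Submodule (ZMod p) V) (T : Submodule (ZMod p) V')
    (h : ∀ t ∈ T, ∃ v ∈ N, f v = t) :
    Module.finrank (ZMod p) ↥(N ⊓ LinearMap.ker f) + Module.finrank (ZMod p) T ≤
      Module.finrank (ZMod p) N := by
  have e := LinearMap.finrank_range_add_finrank_ker (f.comp N.subtype)
  have h1 : Module.finrank (ZMod p) T ≤
      Module.finrank (ZMod p) (LinearMap.range (f.comp N.subtype)) :=
    Submodule.finrank_mono (fun t ht => by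
      obtain ⟨v, hv, rfl⟩ := h t ht
      exact ⟨⟨v, hv⟩, rfl⟩)
  have h2 : Module.finrank (ZMod p) (LinearMap.ker (f.comp N.subtype)) =
      Module.finrank (ZMod p) ↥(N ⊓ LinearMap.ker f) := by
    have hker : LinearMap.ker (f.comp N.subtype) =
        Submodule.comap N.subtype (N ⊓ LinearMap.ker f) := by
      ext v
      simp
    rw [hker,
      (Submodule.comapSubtypeEquivOfLe (inf_le_left : N ⊓ LinearMap.ker f ≤ N)).finrank_eq]
  omega

variable (ρ : Representation (ZMod p) (GL (Fin 2) (ZMod p)) V)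

theorem chiInv_ne_zero (st : Tor p) : chiInv p st ≠ 0 := fun h => by
  have := chi_mul_chiInv p st
  rw [h, mul_zero] at this
  exact zero_ne_one this

theorem wt_opX_pow (k : ℕ) {v : V} (hv : v ∈ wt ρ (chiInv p)) (h : (opX ρ ^ (k + 1)) v = 0)
    (st : Tor p) :
    chiInv p st ^ k • ρ (diagHom p st) ((opX ρ ^ k) v) = chiInv p st • (opX ρ ^ k) v := by
  have e := opX_pow_diag ρ st k v
  rw [hv st, map_smul, geom_pow_apply_of_fixed ρ (by rw [← Module.End.mul_apply, ← pow_succ', h]),
    map_smul, ZMod.natCast_zmod_val] at e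
  exact e.symm

theorem sq_mem_wt {v : V} (hv : v ∈ borelVec ρ) : (opX ρ ^ 2) v ∈ wt ρ (chi p) := by
  intro st
  refine smul_right_injective V (pow_ne_zero 2 (chiInv_ne_zero st)) ?_
  show chiInv p st ^ 2 • _ = chiInv p st ^ 2 • _
  rw [wt_opX_pow ρ 2 hv.1 hv.2, smul_smul, pow_two (chiInv p st), mul_assoc,
    mul_comm (chiInv p st) (chi p st), chi_mul_chiInv, mul_one]

theorem one_mem_wt {v : V} (hv : v ∈ wt ρ (chiInv p)) (h2 : (opX ρ ^ 2) v = 0) :
    opX ρ v ∈ wt ρ 1 := by
  intro st
  refine smul_right_injective V (chiInv_ne_zero st) ?_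
  show chiInv p st • _ = chiInv p st • _
  have e := wt_opX_pow ρ 1 hv h2 st
  rw [pow_one, pow_one] at e
  rw [e, Pi.one_apply, one_smul]

/-- The filtration by `X` bounds the vectors from above. -/
theorem borelVec_le [FiniteDimensional (ZMod p) V] (T : Submodule (ZMod p) V)
    (hT : ∀ v, opX ρ v = 0 → v ∈ LinearMap.range (opX ρ) → v ∈ T) :
    Module.finrank (ZMod p) ↥(borelVec ρ) ≤
      Module.finrank (ZMod p) ↥(wt ρ (chiInv p) ⊓ LinearMap.ker (opX ρ)) +
      Module.finrank (ZMod p) ↥(wt ρ 1 ⊓ T) + Module.finrank (ZMod p) ↥(wt ρ (chi p) ⊓ T) := by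
  have h1 := finrank_le_ker_add (opX ρ ^ 2) (borelVec ρ) (wt ρ (chi p) ⊓ T) fun v hv =>
    ⟨sq_mem_wt ρ hv, hT _ (by rw [← Module.End.mul_apply, ← pow_succ', hv.2])
      ⟨opX ρ v, by rw [← Module.End.mul_apply, ← pow_two]⟩⟩
  have h2 := finrank_le_ker_add (opX ρ) (borelVec ρ ⊓ LinearMap.ker (opX ρ ^ 2)) (wt ρ 1 ⊓ T)
    fun v hv => ⟨one_mem_wt ρ hv.1.1 hv.2, hT _
      (by rw [← Module.End.mul_apply, ← pow_two]; exact hv.2) ⟨v, rfl⟩⟩
  have h3 : Module.finrank (ZMod p)
      ↥(borelVec ρ ⊓ LinearMap.ker (opX ρ ^ 2) ⊓ LinearMap.ker (opX ρ)) ≤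
      Module.finrank (ZMod p) ↥(wt ρ (chiInv p) ⊓ LinearMap.ker (opX ρ)) :=
    Submodule.finrank_mono fun v hv => ⟨hv.1.1.1, hv.2⟩
  omega

/-- The filtration by `X` bounds the vectors from below. -/
theorem le_borelVec [FiniteDimensional (ZMod p) V] (hp : 3 < p) :
    Module.finrank (ZMod p) ↥(wt ρ (chiInv p) ⊓ LinearMap.ker (opX ρ)) +
      Module.finrank (ZMod p) ↥(wt ρ 1 ⊓ LinearMap.range (opX ρ ^ (p - 1))) +
      Module.finrank (ZMod p) ↥(wt ρ (chi p) ⊓ LinearMap.range (opX ρ ^ (p - 1))) ≤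
      Module.finrank (ZMod p) ↥(borelVec ρ) := by
  have key : ∀ k : ℕ, k ≤ p - 1 → ∀ a ∈ LinearMap.range (opX ρ ^ (p - 1)),
      (∀ st : Tor p, (chi p st * chiInv p st ^ k) • ρ (diagHom p st) a = a) →
      ∃ v ∈ wt ρ (chiInv p), (opX ρ ^ (k + 1)) v = 0 ∧ (opX ρ ^ k) v = a := by
    rintro k hk _ ⟨b, rfl⟩ h
    refine exists_preimage ρ k (b := (opX ρ ^ (p - 1 - k)) b) ?_ ?_ h
    · rw [← Module.End.mul_apply, ← pow_add]
      congr 2
      omega
    · rw [← Module.End.mul_apply, ← pow_succ', Nat.sub_add_cancel (Fact.out : p.Prime).one_le,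
        opX_pow_p, LinearMap.zero_apply]
  have h1 := ker_add_le_finrank (opX ρ ^ 2) (borelVec ρ)
    (wt ρ (chi p) ⊓ LinearMap.range (opX ρ ^ (p - 1))) (by
      rintro a ⟨ha, hr⟩
      obtain ⟨v, hv, h3, h2⟩ := key 2 (by omega) a hr fun st => by
        rw [ha st, smul_smul, pow_two,
          show chi p st * (chiInv p st * chiInv p st) * chi p st =
            (chi p st * chiInv p st) * (chi p st * chiInv p st) by ring,
          chi_mul_chiInv, one_mul, one_smul]
      exact ⟨v, ⟨hv, h3⟩, h2⟩)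
  have h2 := ker_add_le_finrank (opX ρ) (borelVec ρ ⊓ LinearMap.ker (opX ρ ^ 2))
    (wt ρ 1 ⊓ LinearMap.range (opX ρ ^ (p - 1))) (by
      rintro a ⟨ha, hr⟩
      obtain ⟨v, hv, h2, h1⟩ := key 1 (by omega) a hr fun st => by
        rw [ha st, Pi.one_apply, one_smul, pow_one, chi_mul_chiInv, one_smul]
      refine ⟨v, ⟨⟨hv, ?_⟩, h2⟩, by rw [pow_one] at h1; exact h1⟩
      rw [SetLike.mem_coe, LinearMap.mem_ker, pow_succ', Module.End.mul_apply, h2, map_zero])
  have h3 : Module.finrank (ZMod p) ↥(wt ρ (chiInv p) ⊓ LinearMap.ker (opX ρ)) ≤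
      Module.finrank (ZMod p)
        ↥(borelVec ρ ⊓ LinearMap.ker (opX ρ ^ 2) ⊓ LinearMap.ker (opX ρ)) :=
    Submodule.finrank_mono fun v hv => by
      have h1 : opX ρ v = 0 := hv.2
      refine ⟨⟨⟨hv.1, ?_⟩, ?_⟩, hv.2⟩ <;>
        simp [pow_succ, h1]
  omega

/-! ### Functions on a finite set -/

section Perm

variable (p) (Z : Type) [MulAction (GL (Fin 2) (ZMod p)) Z]

/-- The permutation representation on functions. -/
def permRep : Representation (ZMod p) (GL (Fin 2) (ZMod p)) (Z → ZMod p) where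
  toFun g :=
    { toFun := fun f z => f (g⁻¹ • z)
      map_add' := fun a b => rfl
      map_smul' := fun c a => rfl }
  map_one' := LinearMap.ext fun f => funext fun z => by simp
  map_mul' g h := LinearMap.ext fun f => funext fun z => by
    show f ((g * h)⁻¹ • z) = f (h⁻¹ • g⁻¹ • z)
    rw [mul_inv_rev, mul_smul]

theorem permRep_apply (g : GL (Fin 2) (ZMod p)) (f : Z → ZMod p) (z : Z) :
    permRep p Z g f z = f (g⁻¹ • z) := rfl

/-- The functions which vanish outside the points fixed by the unipotent element. -/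
def onFix : Submodule (ZMod p) (Z → ZMod p) where
  carrier := {f | ∀ z : Z, upperU p 1 • z ≠ z → f z = 0}
  zero_mem' := fun _ _ => rfl
  add_mem' := fun {a b} ha hb z hz => by simp [ha z hz, hb z hz]
  smul_mem' := fun c a ha z hz => by simp [ha z hz]

/-- The invariant functions which vanish at those points. -/
def offFix : Submodule (ZMod p) (Z → ZMod p) where
  carrier := {f | opX (permRep p Z) f = 0 ∧ ∀ z : Z, upperU p 1 • z = z → f z = 0}
  zero_mem' := ⟨map_zero _, fun _ _ => rfl⟩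
  add_mem' := fun {a b} ha hb => ⟨by rw [map_add, ha.1, hb.1, add_zero],
    fun z hz => by simp [ha.2 z hz, hb.2 z hz]⟩
  smul_mem' := fun c a ha => ⟨by rw [map_smul, ha.1, smul_zero],
    fun z hz => by simp [ha.2 z hz]⟩

variable {p Z}

theorem opX_permRep_apply (f : Z → ZMod p) (z : Z) :
    opX (permRep p Z) f z = f ((upperU p 1)⁻¹ • z) - f z := rfl

theorem onFix_le_ker : onFix p Z ≤ LinearMap.ker (opX (permRep p Z)) := by
  intro f hf
  rw [LinearMap.mem_ker]
  refine funext fun z => ?_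
  rw [opX_permRep_apply, Pi.zero_apply, sub_eq_zero]
  by_cases h : upperU p 1 • z = z
  · congr 1
    rw [inv_smul_eq_iff, h]
  · rw [hf z h, hf _ fun e => h ?_]
    rw [smul_inv_smul] at e
    exact (eq_inv_smul_iff.1 e)

theorem finrank_borelVec_perm_le [Fintype Z] :
    Module.finrank (ZMod p) ↥(borelVec (permRep p Z)) ≤
      Module.finrank (ZMod p) ↥(wt (permRep p Z) (chiInv p) ⊓ LinearMap.ker (opX (permRep p Z))) +
      Module.finrank (ZMod p) ↥(wt (permRep p Z) 1 ⊓ offFix p Z) +
      Module.finrank (ZMod p) ↥(wt (permRep p Z) (chi p) ⊓ offFix p Z) :=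
  borelVec_le (permRep p Z) (offFix p Z) fun v hv ⟨w, hw⟩ => ⟨hv, fun z hz => by
    rw [← hw, opX_permRep_apply, sub_eq_zero]
    congr 1
    rw [inv_smul_eq_iff, hz]⟩

theorem finrank_inv_split [Fintype Z] (w : Tor p → ZMod p) :
    Module.finrank (ZMod p) ↥(wt (permRep p Z) w ⊓ offFix p Z) +
      Module.finrank (ZMod p) ↥(wt (permRep p Z) w ⊓ onFix p Z) ≤
      Module.finrank (ZMod p) ↥(wt (permRep p Z) w ⊓ LinearMap.ker (opX (permRep p Z))) := by
  have hdis : (wt (permRep p Z) w ⊓ offFix p Z) ⊓ (wt (permRep p Z) w ⊓ onFix p Z) = ⊥ := by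
    rw [eq_bot_iff]
    rintro f ⟨⟨_, _, h1⟩, ⟨_, h2⟩⟩
    rw [Submodule.mem_bot]
    funext z
    by_cases h : upperU p 1 • z = z
    · exact h1 z h
    · exact h2 z h
  have e := Submodule.finrank_sup_add_finrank_inf_eq (wt (permRep p Z) w ⊓ offFix p Z)
    (wt (permRep p Z) w ⊓ onFix p Z)
  rw [hdis, finrank_bot, add_zero] at e
  rw [← e]
  exact Submodule.finrank_mono (sup_le (fun f hf => ⟨hf.1, hf.2.1⟩)
    fun f hf => ⟨hf.1, onFix_le_ker hf.2⟩)

theorem diag_fix {st : Tor p} {z : Z} :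
    upperU p 1 • diagHom p st • z = diagHom p st • z ↔ upperU p 1 • z = z := by
  have key : ∀ (st : Tor p) (z : Z), upperU p 1 • z = z →
      upperU p 1 • diagHom p st • z = diagHom p st • z := fun st z h => by
    rw [← mul_smul, u_mul_diag, mul_smul]
    congr 1
    induction (chiInv p st).val with
    | zero => rw [pow_zero, one_smul]
    | succ n ih => rw [pow_succ, mul_smul, h, ih]
  refine ⟨fun h => ?_, key st z⟩
  have := key st⁻¹ _ h
  rwa [← mul_smul (diagHom p st⁻¹), ← map_mul, inv_mul_cancel, map_one, one_smul] at this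

/-- The weights `χ⁻¹` and `χ` occur equally often on fixed points. -/
theorem onFix_swap [Fintype Z] :
    Module.finrank (ZMod p) ↥(wt (permRep p Z) (chiInv p) ⊓ onFix p Z) ≤
      Module.finrank (ZMod p) ↥(wt (permRep p Z) (chi p) ⊓ onFix p Z) := by
  letI : MulAction (Tor p) Z := MulAction.compHom Z (diagHom p)
  let r : Z → Z := fun z => (Quotient.mk (MulAction.orbitRel (Tor p) Z) z).out
  have hr : ∀ z, ∃ τ : Tor p, diagHom p τ • r z = z := fun z => by
    have h : z ∈ MulAction.orbit (Tor p) (r z) :=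
      MulAction.orbitRel_apply.1 (Quotient.exact (Quotient.out_eq (Quotient.mk (MulAction.orbitRel (Tor p) Z) z)).symm)
    obtain ⟨τ, hτ⟩ := h
    exact ⟨τ, hτ⟩
  choose τ hτ using hr
  have hfix : ∀ z, upperU p 1 • z = z ↔ upperU p 1 • r z = r z := fun z => by
    conv_lhs => rw [← hτ z]
    exact diag_fix
  have hwt : ∀ f ∈ wt (permRep p Z) (chiInv p), ∀ (st : Tor p) (z : Z),
      f (diagHom p st • z) = chi p st * f z := fun f hf st z => by
    have h := congrFun (hf st⁻¹) z
    rw [permRep_apply, map_inv, inv_inv, Pi.smul_apply, smul_eq_mul, chiInv_eq, inv_inv] at h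
    exact h
  let F : ↥(wt (permRep p Z) (chiInv p) ⊓ onFix p Z) →ₗ[ZMod p] (Z → ZMod p) :=
    { toFun := fun f z => chiInv p (τ z) * f.1 (r z)
      map_add' := fun a b => funext fun z => mul_add _ _ _
      map_smul' := fun c a => funext fun z => mul_left_comm _ _ _ }
  have hF : ∀ f, F f ∈ wt (permRep p Z) (chi p) ⊓ onFix p Z := fun f => by
    refine ⟨fun st => funext fun z => ?_, fun z hz => ?_⟩
    · rw [permRep_apply, ← map_inv, Pi.smul_apply, smul_eq_mul]
      set z' := diagHom p st⁻¹ • z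
      show chiInv p (τ z') * f.1 (r z') = chi p st * (chiInv p (τ z) * f.1 (r z))
      have hrz : r z' = r z := by
        refine congrArg Quotient.out (Quotient.sound (MulAction.orbitRel_apply.2 ⟨st⁻¹, rfl⟩))
      have h1 := hτ z'
      rw [hrz] at h1 ⊢
      have hs : diagHom p ((τ z)⁻¹ * st * τ z') • r z = r z := by
        rw [map_mul, map_mul, mul_smul, mul_smul, h1]
        show diagHom p (τ z)⁻¹ • diagHom p st • diagHom p st⁻¹ • z = r z
        rw [← mul_smul (diagHom p st), ← map_mul, mul_inv_cancel, map_one, one_smul,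
          map_inv, inv_smul_eq_iff]
        exact (hτ z).symm
      have h2 := hwt f.1 f.2.1 ((τ z)⁻¹ * st * τ z') (r z)
      rw [hs, map_mul, map_mul, ← chiInv_eq] at h2
      calc chiInv p (τ z') * f.1 (r z)
          = chiInv p (τ z') * (chiInv p (τ z) * chi p st * chi p (τ z') * f.1 (r z)) := by
            rw [← h2]
        _ = chi p (τ z') * chiInv p (τ z') * (chi p st * (chiInv p (τ z) * f.1 (r z))) := by ring
        _ = _ := by rw [chi_mul_chiInv, one_mul]
    · show chiInv p (τ z) * f.1 (r z) = 0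
      rw [f.2.2 (r z) fun h => hz ((hfix z).2 h), mul_zero]
  refine LinearMap.finrank_le_finrank_of_injective (f := F.codRestrict _ hF) ?_
  refine (injective_iff_map_eq_zero _).2 fun f hf => Subtype.ext (funext fun z => ?_)
  have h0 : chiInv p (τ z) * f.1 (r z) = 0 := congrFun (congrArg Subtype.val hf) z
  have hfr := (mul_eq_zero.1 h0).resolve_left (chiInv_ne_zero _)
  rw [← hτ z, hwt f.1 f.2.1, hfr, mul_zero]
  rfl

/-- A function of trivial weight with non zero sum. -/
theorem onFix_sum_lt [Fintype Z] {z₀ : Z} (h₀ : upperU p 1 • z₀ = z₀) :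
    Module.finrank (ZMod p) ↥(wt (permRep p Z) 1 ⊓ onFix p Z ⊓
        LinearMap.ker (∑ z : Z, LinearMap.proj z : (Z → ZMod p) →ₗ[ZMod p] ZMod p)) + 1 ≤
      Module.finrank (ZMod p) ↥(wt (permRep p Z) 1 ⊓ onFix p Z) := by
  refine Nat.succ_le_of_lt (Submodule.finrank_lt_finrank_of_lt
    (lt_of_le_of_ne inf_le_left fun he => ?_))
  classical
  let f : Z → ZMod p := fun z => ∑ st : Tor p, if diagHom p st • z₀ = z then 1 else 0
  have hf : f ∈ wt (permRep p Z) 1 ⊓ onFix p Z := by
    refine ⟨fun st => funext fun z => ?_, fun z hz => ?_⟩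
    · rw [permRep_apply, Pi.one_apply, one_smul]
      refine Fintype.sum_equiv (Equiv.mulLeft st) _ _ fun s => ?_
      rw [Equiv.coe_mulLeft, map_mul, mul_smul]
      exact if_congr eq_inv_smul_iff rfl rfl
    · exact Finset.sum_eq_zero fun st _ => if_neg (by rintro rfl; exact hz (diag_fix.2 h₀))
  have hs := (he.ge hf).2
  rw [SetLike.mem_coe, LinearMap.mem_ker, LinearMap.sum_apply] at hs
  simp only [LinearMap.proj_apply, f] at hs
  rw [Finset.sum_comm] at hs
  simp only [Finset.sum_ite_eq, Finset.mem_univ, if_true, Finset.sum_const, Finset.card_univ,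
    nsmul_eq_mul, mul_one, card_tor] at hs
  exact one_ne_zero hs

/-- The matrices fixed by the stabiliser of a point. -/
def fixedW (z : Z) : Submodule (ZMod p) (W p) where
  carrier := {m | ∀ g : GL (Fin 2) (ZMod p), g • z = z → piW g m = m}
  zero_mem' := fun g _ => map_zero _
  add_mem' := fun {a b} ha hb g hg => by rw [map_add, ha g hg, hb g hg]
  smul_mem' := fun c a ha g hg => by rw [map_smul, ha g hg]

theorem trace_piW (g : GL (Fin 2) (ZMod p)) (m w : W p) :
    Matrix.trace ((piW g m).1 * (piW g w).1) = Matrix.trace (m.1 * w.1) := by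
  rw [piW_val, piW_val, twG_apply, twG_apply, pow_zero, map_one, one_smul, one_smul]
  set G : Matrix (Fin 2) (Fin 2) (ZMod p) :=
    ↑(Matrix.GeneralLinearGroup.map (algebraMap (ZMod p) (ZMod p)) g)
  set G' : Matrix (Fin 2) (Fin 2) (ZMod p) :=
    ↑(Matrix.GeneralLinearGroup.map (algebraMap (ZMod p) (ZMod p)) g⁻¹)
  have h : G' * G = 1 := by
    rw [← Units.val_mul, ← map_mul, inv_mul_cancel, map_one, Units.val_one]
  calc Matrix.trace (G * (m.1 * G') * (G * (w.1 * G')))
      = Matrix.trace (G * (m.1 * (G' * G) * w.1 * G')) := by simp only [Matrix.mul_assoc]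
    _ = Matrix.trace (G * (m.1 * w.1 * G')) := by rw [h, Matrix.mul_one]
    _ = Matrix.trace (m.1 * w.1 * G' * G) := Matrix.trace_mul_comm _ _
    _ = _ := by rw [Matrix.mul_assoc (m.1 * w.1), h, Matrix.mul_one]

theorem eq_zero_of_trace (hp : 3 < p) {m : W p}
    (h : ∀ w : W p, Matrix.trace (m.1 * w.1) = 0) : m = 0 := by
  have h1 := h (matW 0 0 1)
  have h2 := h (matW 0 1 0)
  have h3 := h (matW 1 0 0)
  rw [eq_matW m] at h1 h2 h3 ⊢
  simp [matW, Matrix.trace_fin_two, Matrix.mul_apply, Fin.sum_univ_two] at h1 h2 h3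
  have h3' : (m.1 0 0) = 0 := by
    have e : (2 : ZMod p) * m.1 0 0 = 0 := by linear_combination h3
    exact (mul_eq_zero.1 e).resolve_left (two_ne_zero' hp)
  refine Subtype.ext ?_
  ext i j
  fin_cases i <;> fin_cases j <;> simp [matW, h1, h2, h3']

set_option synthInstance.maxHeartbeats 200000 in
set_option maxHeartbeats 1600000 in
/-- Homomorphisms into a permutation module from invariants of stabilisers. -/
theorem sum_fixed_le [Fintype Z] (hp : 3 < p) {ι : Type} [Fintype ι] (z₀ : ι → Z)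
    (hz₀ : ∀ i j (g : GL (Fin 2) (ZMod p)), g • z₀ i = z₀ j → i = j) :
    ∑ i, Module.finrank (ZMod p) ↥(fixedW (p := p) (z₀ i)) ≤
      Module.finrank (ZMod p) ↥(eqHom piW (permRep p Z)) := by
  classical
  rw [← Module.finrank_pi_fintype]
  let val : (∀ i, ↥(fixedW (p := p) (z₀ i))) → Z → W p := fun m z =>
    if h : ∃ q : ι × GL (Fin 2) (ZMod p), q.2 • z₀ q.1 = z then
      piW h.choose.2 (m h.choose.1).1 else 0
  have hval : ∀ (m : ∀ i, ↥(fixedW (p := p) (z₀ i))) (i : ι) (g : GL (Fin 2) (ZMod p)),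
      val m (g • z₀ i) = piW g (m i).1 := fun m i g => by
    have hex : ∃ q : ι × GL (Fin 2) (ZMod p), q.2 • z₀ q.1 = g • z₀ i := ⟨(i, g), rfl⟩
    simp only [val, dif_pos hex]
    obtain ⟨q1, q2, hq⟩ : ∃ a b, hex.choose = (a, b) := ⟨_, _, rfl⟩
    have hs := hex.choose_spec
    rw [hq] at hs ⊢
    have hi : q1 = i := hz₀ q1 i (g⁻¹ * q2) (by rw [mul_smul, hs, inv_smul_smul])
    subst hi
    have h := (m q1).2 (g⁻¹ * q2) (by rw [mul_smul, hs, inv_smul_smul])
    calc piW q2 (m q1).1 = piW g (piW (g⁻¹ * q2) (m q1).1) := by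
          rw [← Module.End.mul_apply, ← map_mul, mul_inv_cancel_left]
      _ = _ := by rw [h]
  have hnone : ∀ (m : ∀ i, ↥(fixedW (p := p) (z₀ i))) (z : Z),
      (¬ ∃ q : ι × GL (Fin 2) (ZMod p), q.2 • z₀ q.1 = z) → val m z = 0 := fun m z h =>
    dif_neg h
  have hequiv : ∀ m (g : GL (Fin 2) (ZMod p)) (z : Z), val m (g • z) = piW g (val m z) :=
    fun m g z => by
      by_cases h : ∃ q : ι × GL (Fin 2) (ZMod p), q.2 • z₀ q.1 = z
      · obtain ⟨⟨i, g'⟩, rfl⟩ := h
        rw [← mul_smul, hval, hval, map_mul]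
        rfl
      · rw [hnone m z h, map_zero, hnone]
        rintro ⟨⟨i, g'⟩, hg'⟩
        exact h ⟨(i, g⁻¹ * g'), by rw [mul_smul]; simp [hg']⟩
  have hlin : ∀ (c : ZMod p) (a b : ∀ i, ↥(fixedW (p := p) (z₀ i))) (z : Z),
      val (c • a + b) z = c • val a z + val b z := fun c a b z => by
    by_cases h : ∃ q : ι × GL (Fin 2) (ZMod p), q.2 • z₀ q.1 = z
    · obtain ⟨⟨i, g'⟩, rfl⟩ := h
      simp [hval]
    · simp [hnone _ z h]
  let F : (∀ i, ↥(fixedW (p := p) (z₀ i))) →ₗ[ZMod p] ↥(eqHom piW (permRep p Z)) :=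
    { toFun := fun m => ⟨LinearMap.pi fun z =>
          (Matrix.traceLinearMap (Fin 2) (ZMod p) (ZMod p)) ∘ₗ
            LinearMap.mulLeft (ZMod p) (val m z).1 ∘ₗ (Datum.trZero (ZMod p)).subtype,
        fun g w => funext fun z => by
          show Matrix.trace ((val m z).1 * (piW g w).1) =
            Matrix.trace ((val m (g⁻¹ • z)).1 * w.1)
          rw [← trace_piW g (val m (g⁻¹ • z)) w, ← hequiv, smul_inv_smul]⟩
      map_add' := fun a b => Subtype.ext (LinearMap.ext fun w => funext fun z => by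
        show Matrix.trace ((val (a + b) z).1 * w.1) =
          Matrix.trace ((val a z).1 * w.1) + Matrix.trace ((val b z).1 * w.1)
        rw [show a + b = (1 : ZMod p) • a + b by rw [one_smul], hlin]
        simp [Matrix.add_mul])
      map_smul' := fun c a => Subtype.ext (LinearMap.ext fun w => funext fun z => by
        show Matrix.trace ((val (c • a) z).1 * w.1) = c * Matrix.trace ((val a z).1 * w.1)
        rw [show c • a = c • a + 0 by rw [add_zero], hlin]
        have h0 : val (0 : ∀ i, ↥(fixedW (p := p) (z₀ i))) z = 0 := by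
          simp only [val]
          split_ifs <;> simp
        simp [h0]) }
  refine LinearMap.finrank_le_finrank_of_injective (f := F) ?_
  refine (injective_iff_map_eq_zero F).2 fun m hm => funext fun i => Subtype.ext ?_
  refine eq_zero_of_trace hp fun w => ?_
  have h := congrFun (LinearMap.congr_fun (congrArg Subtype.val hm) w) (z₀ i)
  have e : val m (z₀ i) = (m i).1 := by
    have := hval m i 1
    rwa [one_smul, map_one] at this
  rw [← e]
  exact h

end Perm

end FLTAgent.Lowering.P1.UnitBound
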