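import Fermat.Agent.Lowering.P1.Primes.Frobenius

/-!
# The unit bound: the arithmetic input

The units outside `S` of the field cut out by the residual representation, with the action of the
image, a lattice map from the permutation module of the places, and the local symbols at the
places fixed by the unipotent group.
-/

set_option autoImplicit false

noncomputable section

open scoped Pointwise

namespace FLTAgent.Lowering.P1.UnitBound

open FLTAgent.Lowering.P1.Primes

local notation "LL" => AlgebraicClosure ℚ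
local notation "GG" => (AlgebraicClosure ℚ ≃ₐ[ℚ] AlgebraicClosure ℚ)

variable {p : ℕ} [Fact p.Prime] (D : Datum p)

/-- A lift of an element of the image. -/
def lift (g : GL (Fin 2) (ZMod p)) : GG := Function.surjInv D.surjective g

theorem rb_lift (g : GL (Fin 2) (ZMod p)) : D.rb (lift D g) = g :=
  Function.surjInv_eq D.surjective g

/-- The element lies in the field cut out by the representation. -/
def IsFixed (x : LL) : Prop := ∀ σ : GG, D.rb σ = 1 → σ x = x

variable {D} in
theorem IsFixed.apply_eq {x : LL} (hx : IsFixed D x) {σ τ : GG} (h : D.rb σ = D.rb τ) :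
    σ x = τ x := by
  have h1 := hx (τ⁻¹ * σ) (by rw [map_mul, map_inv, h, inv_mul_cancel])
  rw [AlgEquiv.mul_apply] at h1
  calc σ x = τ (τ⁻¹ (σ x)) := by rw [← AlgEquiv.mul_apply, mul_inv_cancel]; rfl
    _ = τ x := by rw [h1]

variable {D} in
theorem IsFixed.map {x : LL} (hx : IsFixed D x) (σ : GG) : IsFixed D (σ x) := fun τ hτ => by
  rw [← AlgEquiv.mul_apply]
  exact hx.apply_eq (by rw [map_mul, hτ, one_mul])

/-- The units outside `S` of the field cut out by the representation. -/
def sUnits (S : Finset ℕ) : Subgroup LLˣ where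
  carrier := {x | IsFixed D (x : LL) ∧
    ∀ l : ℕ, l.Prime → l ∉ S → ∀ V : ValuationSubring LL, V.LiesOverPrime l →
      V.valuation (x : LL) = 1}
  one_mem' := ⟨fun σ _ => by simp, fun _ _ _ _ _ => by simp⟩
  mul_mem' := fun {a b} ha hb => ⟨fun σ hσ => by simp [ha.1 σ hσ, hb.1 σ hσ],
    fun l hl hlS V hV => by simp [ha.2 l hl hlS V hV, hb.2 l hl hlS V hV]⟩
  inv_mem' := fun {a} ha => ⟨fun σ hσ => by simp [ha.1 σ hσ],
    fun l hl hlS V hV => by simp [ha.2 l hl hlS V hV]⟩

theorem valuation_apply_eq_one (σ : GG) (V : ValuationSubring LL) {x : LL}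
    (h : (σ⁻¹ • V).valuation x = 1) : V.valuation (σ x) = 1 := by
  rcases eq_or_ne x 0 with rfl | hx
  · rw [map_zero] at h
    exact absurd h zero_ne_one
  have hmem : ∀ y : LL, y ∈ σ⁻¹ • V → σ y ∈ V := fun y hy => by
    rw [ValuationSubring.mem_pointwise_smul_iff_inv_smul_mem, inv_inv] at hy
    exact hy
  refine le_antisymm ((V.valuation_le_one_iff _).2 (hmem _ (((σ⁻¹ • V).valuation_le_one_iff _).1
    h.le))) ?_
  have h2 := (V.valuation_le_one_iff _).2 (hmem _ (((σ⁻¹ • V).valuation_le_one_iff x⁻¹).1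
    (by rw [map_inv₀, h, inv_one])))
  rwa [map_inv₀, map_inv₀,
    inv_le_one₀ (zero_lt_iff.2 ((Valuation.ne_zero_iff _).2 ((map_ne_zero σ).2 hx)))] at h2

theorem map_mem_sUnits {S : Finset ℕ} {x : LLˣ} (hx : x ∈ sUnits D S) (σ : GG) :
    Units.map (σ : LL →* LL) x ∈ sUnits D S :=
  ⟨hx.1.map σ, fun l hl hlS V hV => valuation_apply_eq_one σ V
    (hx.2 l hl hlS (σ⁻¹ • V) (Places.liesOverPrime_smul V σ⁻¹ hV))⟩

/-- The units outside `S`, written additively. -/
abbrev UnitMod (S : Finset ℕ) : Type := Additive ↥(sUnits D S)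

/-- The number behind an element. -/
def val {S : Finset ℕ} (a : UnitMod D S) : LL := ((Additive.toMul a : ↥(sUnits D S)) : LLˣ)

/-- The action of the image on the units. -/
def actU (S : Finset ℕ) : GL (Fin 2) (ZMod p) →* AddMonoid.End (UnitMod D S) where
  toFun g := MonoidHom.toAdditive
    (((Units.map (lift D g : LL →* LL)).comp (sUnits D S).subtype).codRestrict (sUnits D S)
      fun x => map_mem_sUnits D x.2 _)
  map_one' := AddMonoidHom.ext fun a => Additive.toMul.injective <| Subtype.ext <| Units.ext <| by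
    show lift D 1 (val D a) = val D a
    exact (Additive.toMul a).2.1 _ (rb_lift D 1)
  map_mul' g h := AddMonoidHom.ext fun a => Additive.toMul.injective <| Subtype.ext <|
    Units.ext <| by
      show lift D (g * h) (val D a) = lift D g (lift D h (val D a))
      rw [← AlgEquiv.mul_apply]
      exact (Additive.toMul a).2.1.apply_eq (by rw [map_mul, rb_lift, rb_lift, rb_lift])

theorem val_actU {S : Finset ℕ} (σ : GG) (a : UnitMod D S) :
    val D (actU D S (D.rb σ) a) = σ (val D a) :=
  (Additive.toMul a).2.1.apply_eq (rb_lift D _)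

/-- The sum over the upper unipotent matrices. -/
def normU (S : Finset ℕ) : UnitMod D S →+ UnitMod D S :=
  ∑ i ∈ Finset.range p, (actU D S (upperU p 1 ^ i) : UnitMod D S →+ UnitMod D S)

/-- The image of a decomposition group. -/
def decImage (V : ValuationSubring LL) : Subgroup (GL (Fin 2) (ZMod p)) :=
  (V.decompositionSubgroup ℚ).map D.rb

/-- The places over `S`. -/
abbrev FinPl (S : Finset ℕ) (V : ℕ → ValuationSubring LL) : Type :=
  Σ l : ↥S, GL (Fin 2) (ZMod p) ⧸ decImage D (V l)

/-- The infinite places, for the image `cb` of a complex conjugation. -/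
abbrev InfPl (cb : GL (Fin 2) (ZMod p)) : Type :=
  GL (Fin 2) (ZMod p) ⧸ Subgroup.zpowers cb

/-- All the places in question. -/
abbrev Pl (cb : GL (Fin 2) (ZMod p)) (S : Finset ℕ) (V : ℕ → ValuationSubring LL) : Type :=
  InfPl cb ⊕ FinPl D S V

/-- The equivariant form of the unit theorem. -/
structure DirichletData (cb : GL (Fin 2) (ZMod p)) (S : Finset ℕ)
    (V : ℕ → ValuationSubring LL) where
  Φ : (Pl D cb S V → ℤ) →+ UnitMod D S
  equivariant : ∀ (g : GL (Fin 2) (ZMod p)) (f : Pl D cb S V → ℤ),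
    Φ (fun x => f (g⁻¹ • x)) = actU D S g (Φ f)
  torsion_iff : ∀ f : Pl D cb S V → ℤ,
    IsOfFinAddOrder (Φ f) ↔ ∃ a : ℤ, f = Sum.elim (fun _ => a) (fun _ => 0)
  exists_nsmul : ∀ y : UnitMod D S, ∃ n : ℕ, n ≠ 0 ∧ n • y ∈ Φ.range

/-- The local symbols of the cyclic extension cut out by the upper unipotent matrices, at the
places which it does not split. -/
structure SymbolData (S : Finset ℕ) (V : ℕ → ValuationSubring LL) where
  θ : UnitMod D S → FinPl D S V → ZMod p
  θ_add : ∀ a b : UnitMod D S, actU D S (upperU p 1) a = a → actU D S (upperU p 1) b = b →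
    ∀ π : FinPl D S V, upperU p 1 • π = π → θ (a + b) π = θ a π + θ b π
  θ_diag : ∀ (s t : (ZMod p)ˣ) (b : UnitMod D S), actU D S (upperU p 1) b = b →
    ∀ π : FinPl D S V, upperU p 1 • π = π →
      θ (actU D S (diagHom p (s, t)) b) (diagHom p (s, t) • π) =
        (s : ZMod p) * ((t⁻¹ : (ZMod p)ˣ) : ZMod p) * θ b π
  θ_sum : ∀ b : UnitMod D S, actU D S (upperU p 1) b = b →
    ∀ R : Finset (FinPl D S V), (∀ π, π ∈ R ↔ upperU p 1 • π = π) → ∑ π ∈ R, θ b π = 0
  θ_norm : ∀ b : UnitMod D S, actU D S (upperU p 1) b = b →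
    (∀ π : FinPl D S V, upperU p 1 • π = π → θ b π = 0) → b ∈ (normU D S).range

/-- What the arithmetic provides for large sets of primes. -/
def TargetArith : Prop :=
  ∀ (p : ℕ) [Fact p.Prime] (D : Datum p), ∃ cb : GL (Fin 2) (ZMod p),
    cb * cb = 1 ∧ Matrix.det (cb : Matrix (Fin 2) (Fin 2) (ZMod p)) = -1 ∧
    ∃ S₀ : Finset ℕ, D.bad ⊆ S₀ ∧ (∀ l ∈ S₀, l.Prime) ∧
      (∃ l ∈ S₀, ∀ V : ValuationSubring LL, V.LiesOverPrime l →
        ∃ g : GL (Fin 2) (ZMod p), g * upperU p 1 * g⁻¹ ∈ decImage D V) ∧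
      ∀ S : Finset ℕ, S₀ ⊆ S → (∀ l ∈ S, l.Prime) →
        AddGroup.FG (UnitMod D S) ∧
        (∀ α : LL, α ≠ 0 → IsFixed D α →
          (∀ l : ℕ, l.Prime → l ∉ S → ∀ V : ValuationSubring LL, V.LiesOverPrime l →
            ∃ m : ℤ, V.valuation α = V.valuation ((l : LL) ^ ((p : ℤ) * m))) →
          ∃ (u : UnitMod D S) (y : LL), IsFixed D y ∧ y ≠ 0 ∧ α = val D u * y ^ p) ∧
        ∀ V : ℕ → ValuationSubring LL, (∀ l ∈ S, (V l).LiesOverPrime l) →
          Nonempty (DirichletData D cb S V) ∧ Nonempty (SymbolData D S V)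

end FLTAgent.Lowering.P1.UnitBound
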