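import Fermat.Agent.Lowering.P1.Primes.Basic
import Fermat.Agent.Lowering.P1.UnitBound.Perm
import Fermat.Agent.Lowering.P1.UnitBound.Setup

/-!
# Extension of equivariant characters to cocycles

An equivariant matrix valued character of the kernel extends to the preimage of a group of order
`p`, since its value at the `p`-th power of a lift vanishes by weights. Averaging over the cosets
gives a cocycle of the whole group.
-/

set_option autoImplicit false
set_option linter.unusedSectionVars false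
set_option linter.style.haveILetI false

noncomputable section

namespace FLTAgent.Lowering.P1.UnitBound

open FLTAgent.Lowering.P1.Primes

local notation "LL" => AlgebraicClosure ℚ
local notation "GG" => (AlgebraicClosure ℚ ≃ₐ[ℚ] AlgebraicClosure ℚ)
local notation "MM" => Matrix (Fin 2) (Fin 2)

variable {p : ℕ} [Fact p.Prime] (D : Datum p)

theorem sum_twG_upperU (hp : 3 < p) (X : MM (ZMod p)) :
    ∑ a : ZMod p, twG p (ZMod p) 1 (upperU p a) X = 0 := by
  have h1 : ∑ a : ZMod p, a = 0 := by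
    simpa using FiniteField.sum_pow_lt_card_sub_one (ZMod p) 1 (by rw [ZMod.card]; omega)
  have h2 : ∑ a : ZMod p, a ^ 2 = 0 :=
    FiniteField.sum_pow_lt_card_sub_one (ZMod p) 2 (by rw [ZMod.card]; omega)
  have h0 : ((p : ℕ) : ZMod p) = 0 := CharP.cast_eq_zero _ _
  simp only [twG_upperU, Algebra.algebraMap_self_apply]
  ext i j
  rw [Matrix.sum_apply]
  fin_cases i <;> fin_cases j <;>
    simp [Finset.sum_add_distrib, Finset.sum_sub_distrib, ← Finset.sum_mul, h0, h1, h2]

theorem index_zpowers_cast :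
    (((Subgroup.zpowers (upperU p 1)).index : ℕ) : ZMod p) = 1 := by
  have hord : orderOf (upperU p 1) = p :=
    orderOf_eq_prime (upperU_one_pow_p p) fun h => one_ne_zero
      (upperU_injective p (h.trans (upperU_of_zero p).symm))
  have hmul := Subgroup.card_mul_index (Subgroup.zpowers (upperU p 1))
  rw [Nat.card_zpowers, hord, Matrix.card_GL_field, ZMod.card, Fin.prod_univ_two] at hmul
  have h1 := (Fact.out : p.Prime).one_le
  simp only [Fin.val_zero, Fin.val_one, pow_zero, pow_one] at hmul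
  have e : p ^ 2 - p = p * (p - 1) := by rw [Nat.mul_sub, pow_two, mul_one]
  rw [e, mul_left_comm] at hmul
  rw [Nat.eq_of_mul_eq_mul_left (Fact.out : p.Prime).pos hmul, Nat.cast_mul,
    Nat.cast_sub (Nat.one_le_pow _ _ (Fact.out : p.Prime).pos), Nat.cast_sub h1, Nat.cast_pow,
    CharP.cast_eq_zero, Nat.cast_one]
  ring

theorem rb_lift_pow (n : ℕ) :
    D.rb (lift D (upperU p 1) ^ n) = upperU p (n : ZMod p) := by
  rw [map_pow, rb_lift, upperU_natPow]

set_option maxHeartbeats 1600000 in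
/-- The extension. -/
theorem exists_extension (f : GG → MM (ZMod p))
    (htr : ∀ h, D.rb h = 1 → Matrix.trace (f h) = 0)
    (hmul : ∀ g h, D.rb g = 1 → D.rb h = 1 → f (g * h) = f g + f h)
    (hconj : ∀ τ h, D.rb h = 1 → f (τ * h * τ⁻¹) = D.tw (ZMod p) 1 τ (f h))
    (hlev : ∃ F : IntermediateField ℚ LL, FiniteDimensional ℚ F ∧
      ∀ s ∈ F.fixingSubgroup, D.rb s = 1 → f s = 0) :
    ∃ C ∈ D.cocycles (ZMod p) 1 (MonoidHom.id GG), ∀ h, D.rb h = 1 → C h = f h := by
  classical
  have hp := D.p_gt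
  have hpr : p.Prime := Fact.out
  set s := lift D (upperU p 1) with hs
  have hsn : ∀ n : ℕ, D.rb (s ^ n) = upperU p (n : ZMod p) := rb_lift_pow D
  have hsp : D.rb (s ^ p) = 1 := by rw [hsn, CharP.cast_eq_zero, upperU_of_zero]
  have hf1 : f 1 = 0 := by
    have := hmul 1 1 (map_one _) (map_one _)
    rw [mul_one] at this
    exact left_eq_add.1 this
  have he : f (s ^ p) = 0 := by
    set e := f (s ^ p) with hee
    have hfix : D.tw (ZMod p) 1 s e = e := by
      rw [← hconj s _ hsp]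
      congr 1
      rw [← pow_succ', pow_succ, mul_inv_cancel_right]
    rw [tw_eq, show D.rb s = upperU p 1 from rb_lift D _, twG_upperU] at hfix
    have h00 := congrFun (congrFun hfix 0) 0
    have h01 := congrFun (congrFun hfix 0) 1
    simp at h00 h01
    have htr0 := htr _ hsp
    rw [← hee, Matrix.trace_fin_two] at htr0
    have a10 : e 1 0 = 0 := by linear_combination h00
    have a00 : e 0 0 = 0 := by
      have : (2 : ZMod p) * e 0 0 = 0 := by linear_combination htr0 - h01 - a10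
      exact (mul_eq_zero.1 this).resolve_left (two_ne_zero' hp)
    have a11 : e 1 1 = 0 := by linear_combination htr0 - a00
    set d : Tor p := (Units.mk0 2 (two_ne_zero' hp), 1)
    set dd := lift D (diagHom p d)
    set h := (s ^ 2)⁻¹ * (dd * s * dd⁻¹) with hh
    have hrh : D.rb h = 1 := by
      rw [hh, map_mul, map_mul, map_mul, map_inv, map_inv, hsn, rb_lift, rb_lift,
        show diagHom p d = diagHom p (d.1, d.2) from rfl, diag_conj, mul_inv_cancel_right,
        inv_mul_eq_one]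
      congr 1
      simp [d]
    have hpow : ∀ n : ℕ, ∃ hn, D.rb hn = 1 ∧ (s ^ 2 * h) ^ n = s ^ (2 * n) * hn ∧
        f hn = ∑ i ∈ Finset.range n, twG p (ZMod p) 1 (upperU p (-2 * (i : ZMod p))) (f h) := by
      intro n
      induction n with
      | zero => exact ⟨1, map_one _, by simp, by simp [hf1]⟩
      | succ n ih =>
        obtain ⟨hn, hn1, hn2, hn3⟩ := ih
        have hc : D.rb ((s ^ 2)⁻¹ * hn * (s ^ 2)⁻¹⁻¹) = 1 := by
          simp [hn1]
        refine ⟨(s ^ 2)⁻¹ * hn * (s ^ 2)⁻¹⁻¹ * h, by rw [map_mul, hc, hrh, mul_one], ?_, ?_⟩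
        · rw [pow_succ, hn2, Nat.mul_succ, pow_add, inv_inv]
          group
        · rw [hmul _ _ hc hrh, hconj _ _ hn1, Finset.sum_range_succ', hn3, map_sum]
          congr 1
          · refine Finset.sum_congr rfl fun i _ => ?_
            rw [tw_eq, ← twG_mul, map_inv, hsn,
              show (upperU p ((2 : ℕ) : ZMod p))⁻¹ = upperU p (-2) from inv_eq_of_mul_eq_one_right
                (by rw [← upperU_add, ← upperU_of_zero p]; congr 1; push_cast; ring),
              ← upperU_add]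
            congr 3
            push_cast
            ring
          · rw [Nat.cast_zero, mul_zero, upperU_of_zero, twG_one]
    obtain ⟨hP, hP1, hP2, hP3⟩ := hpow p
    have hsum : f hP = 0 := by
      rw [hP3]
      refine (Finset.sum_nbij' (t := Finset.univ) (fun i : ℕ => -2 * (i : ZMod p))
        (fun a : ZMod p => ((-2 : ZMod p)⁻¹ * a).val) (fun _ _ => Finset.mem_univ _)
        (fun a _ => Finset.mem_range.2 (ZMod.val_lt _)) (fun i hi => ?_) (fun a _ => ?_)
        (fun i _ => rfl)).trans (sum_twG_upperU hp (f h))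
      · show ((-2 : ZMod p)⁻¹ * (-2 * (i : ZMod p))).val = i
        rw [inv_mul_cancel_left₀ (neg_ne_zero.2 (two_ne_zero' hp)),
          ZMod.val_cast_of_lt (Finset.mem_range.1 hi)]
      · show -2 * ((((-2 : ZMod p)⁻¹ * a).val : ℕ) : ZMod p) = a
        rw [ZMod.natCast_zmod_val, mul_inv_cancel_left₀ (neg_ne_zero.2 (two_ne_zero' hp))]
    have hlhs : f (dd * s ^ p * dd⁻¹) = e + e := by
      rw [show dd * s ^ p * dd⁻¹ = (dd * s * dd⁻¹) ^ p from conj_pow.symm,
        show dd * s * dd⁻¹ = s ^ 2 * h by rw [hh]; group, hP2, two_mul, pow_add,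
        hmul _ _ (by rw [map_mul, hsp, one_mul]) hP1, hsum, add_zero, hmul _ _ hsp hsp]
    rw [hconj _ _ hsp, tw_eq, rb_lift, show diagHom p d = diagHom p (d.1, d.2) from rfl,
      twG_diag] at hlhs
    have h4 := congrFun (congrFun hlhs 0) 1
    simp [d, ← hee, -Units.val_inv_eq_inv_val, -ZMod.inv_coe_unit] at h4
    have a01 : e 0 1 = 0 := by
      have : (2 : ZMod p) * e 0 1 = 0 := by linear_combination h4
      exact (mul_eq_zero.1 this).resolve_left (two_ne_zero' hp)
    ext i j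
    fin_cases i <;> fin_cases j <;> simp [a00, a01, a10, a11]
  have hq : ∀ (q : ℕ), f ((s ^ p) ^ q) = 0 := fun q => by
    induction q with
    | zero => rw [pow_zero, hf1]
    | succ q ih => rw [pow_succ, hmul _ _ (by rw [map_pow, hsp, one_pow]) hsp, ih, he, add_zero]
  let c : GG → MM (ZMod p) := fun g =>
    D.tw (ZMod p) 1 (s ^ ((D.rb g : MM (ZMod p)) 0 1).val)
      (f ((s ^ ((D.rb g : MM (ZMod p)) 0 1).val)⁻¹ * g))
  have hc : ∀ (m : ℕ) (h : GG), D.rb h = 1 →
      c (s ^ m * h) = D.tw (ZMod p) 1 (s ^ m) (f h) := fun m h hh => by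
    have hn : ((D.rb (s ^ m * h) : MM (ZMod p)) 0 1).val = m % p := by
      rw [map_mul, hh, mul_one, hsn]
      simp [upperU, ZMod.val_natCast]
    simp only [c, hn]
    rw [show (s ^ (m % p))⁻¹ * (s ^ m * h) = (s ^ p) ^ (m / p) * h by
        conv_lhs => rw [← Nat.mod_add_div m p, pow_add, Nat.mod_add_div m p, pow_mul]
        group,
      hmul _ _ (by rw [map_pow, hsp, one_pow]) hh, hq, zero_add, tw_eq, tw_eq, hsn, hsn]
    congr 2
    rw [ZMod.natCast_mod]
  set U := Subgroup.zpowers (upperU p 1)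
  have hU : ∀ g, D.rb g ∈ U → ∃ (m : ℕ) (h : GG), D.rb h = 1 ∧ g = s ^ m * h := fun g hg => by
    obtain ⟨m, hm⟩ := mem_powers_iff_mem_zpowers.2 hg
    refine ⟨m, (s ^ m)⁻¹ * g, ?_, by rw [mul_inv_cancel_left]⟩
    rw [map_mul, map_inv, hsn, ← upperU_natPow, inv_mul_eq_one]
    exact hm
  have hcmul : ∀ g g', D.rb g ∈ U → D.rb g' ∈ U →
      c (g * g') = c g + D.tw (ZMod p) 1 g (c g') := fun g g' hg hg' => by
    obtain ⟨m, h, hh, rfl⟩ := hU g hg
    obtain ⟨m', h', hh', rfl⟩ := hU g' hg'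
    have hk : D.rb ((s ^ m')⁻¹ * h * (s ^ m')⁻¹⁻¹) = 1 := by
      simp [hh]
    rw [show s ^ m * h * (s ^ m' * h') =
        s ^ (m + m') * ((s ^ m')⁻¹ * h * (s ^ m')⁻¹⁻¹ * h') by rw [pow_add, inv_inv]; group,
      hc _ _ (by rw [map_mul, hk, hh', one_mul]), hc _ _ hh, hc _ _ hh', hmul _ _ hk hh',
      hconj _ _ hh, map_add, ← tw_mul, ← tw_mul,
      show D.tw (ZMod p) 1 (s ^ (m + m') * (s ^ m')⁻¹) = D.tw (ZMod p) 1 (s ^ m) by
        rw [pow_add, mul_inv_cancel_right],
      show D.tw (ZMod p) 1 (s ^ m * h * s ^ m') = D.tw (ZMod p) 1 (s ^ (m + m')) by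
        rw [tw_eq, tw_eq, map_mul, map_mul, hh, mul_one, pow_add, map_mul]]
  letI := Fintype.ofFinite (GL (Fin 2) (ZMod p) ⧸ U)
  let r : GL (Fin 2) (ZMod p) ⧸ U → GG := fun x => lift D x.out
  let η : GG → GL (Fin 2) (ZMod p) ⧸ U → GG := fun σ x => (r (D.rb σ • x))⁻¹ * σ * r x
  have hη : ∀ σ x, D.rb (η σ x) ∈ U := fun σ x => by
    show D.rb ((r (D.rb σ • x))⁻¹ * σ * r x) ∈ U
    rw [map_mul, map_mul, map_inv, rb_lift, rb_lift, mul_assoc, ← QuotientGroup.eq,
      QuotientGroup.out_eq']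
    conv_lhs => rw [← QuotientGroup.out_eq' x]
    rfl
  let C : GG → MM (ZMod p) := fun σ =>
    ∑ x, D.tw (ZMod p) 1 (r (D.rb σ • x)) (c (η σ x))
  have hC : ∀ σ τ, C (σ * τ) = C σ + D.tw (ZMod p) 1 σ (C τ) := fun σ τ => by
    simp only [C]
    rw [map_sum, ← Equiv.sum_comp (MulAction.toPerm (D.rb τ))
      (fun x => D.tw (ZMod p) 1 (r (D.rb σ • x)) (c (η σ x))), ← Finset.sum_add_distrib]
    refine Finset.sum_congr rfl fun x _ => ?_
    simp only [MulAction.toPerm_apply, map_mul, mul_smul]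
    rw [show η (σ * τ) x = η σ (D.rb τ • x) * η τ x by
        simp only [η, map_mul, mul_smul]
        group,
      hcmul _ _ (hη _ _) (hη _ _), map_add, ← tw_mul, ← tw_mul,
      show r (D.rb σ • D.rb τ • x) * η σ (D.rb τ • x) = σ * r (D.rb τ • x) by
        simp only [η]
        group,
      tw_mul D (ZMod p) 1 σ]
  have hCker : ∀ h, D.rb h = 1 → C h = f h := fun h hh => by
    simp only [C, η, hh, one_smul]
    rw [Finset.sum_congr rfl fun x _ => by
      rw [show (r x)⁻¹ * h * r x = s ^ 0 * ((r x)⁻¹ * h * (r x)⁻¹⁻¹) by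
          rw [pow_zero, one_mul, inv_inv],
        hc 0 _ (by simp [hh]),
        hconj _ _ hh, pow_zero, tw_one, ← tw_mul, mul_inv_cancel, tw_one],
      Finset.sum_const, Finset.card_univ, ← Nat.card_eq_fintype_card, ← Subgroup.index,
      ← Nat.cast_smul_eq_nsmul (ZMod p), index_zpowers_cast, one_smul]
  obtain ⟨F, hF, hF0⟩ := hlev
  obtain ⟨L, hL, hL1⟩ := D.level
  have hctr : ∀ g, D.rb g ∈ U → Matrix.trace (c g) = 0 := fun g hg => by
    obtain ⟨m, h, hh, rfl⟩ := hU g hg
    rw [hc m h hh]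
    exact trace_tw D (ZMod p) 1 _ (htr h hh)
  refine ⟨C, ⟨⟨F ⊔ L, inferInstance, fun g t ht => ?_⟩, fun g => ?_, hC⟩, hCker⟩
  · have ht1 : D.rb t = 1 := hL1 t ((IntermediateField.mem_fixingSubgroup_iff _ _).1
      (IntermediateField.fixingSubgroup_antitone le_sup_right ht))
    rw [hC, hCker t ht1, hF0 t (IntermediateField.fixingSubgroup_antitone le_sup_left ht) ht1,
      map_zero, add_zero]
  · show Matrix.trace (∑ x, D.tw (ZMod p) 1 (r (D.rb g • x)) (c (η g x))) = 0
    rw [Matrix.trace_sum]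
    exact Finset.sum_eq_zero fun x _ => trace_tw D (ZMod p) 1 _ (hctr _ (hη g x))

end FLTAgent.Lowering.P1.UnitBound
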