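import Fermat.Agent.Lowering.P1.UnitBound.Kummer
import Fermat.Agent.Lowering.P1.UnitBound.Extension
import Fermat.Agent.Lowering.P1.UnitBound.Arith.Target
import Fermat.Agent.Lowering.P1.TWBound.Local

/-!
# The unit bound

Finiteness of the classes unramified outside a finite set, and the lower bound for the dual
classes from the count in the units outside `S`.
-/

set_option autoImplicit false
set_option linter.unusedSectionVars false
set_option linter.style.haveILetI false

noncomputable section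

namespace FLTAgent.Lowering.P1.UnitBound

open FLTAgent.Lowering.P1.Primes

local notation "LL" => AlgebraicClosure ℚ
local notation "GG" => (AlgebraicClosure ℚ ≃ₐ[ℚ] AlgebraicClosure ℚ)
local notation "MM" => Matrix (Fin 2) (Fin 2)

variable {p : ℕ} [Fact p.Prime] (D : Datum p) (k : Type) [Field k] [Algebra (ZMod p) k]

/-- Functionals commute with the twisted adjoint action. -/
theorem map_twG (e : ℕ) (g : GL (Fin 2) (ZMod p)) (ψ : k →ₗ[ZMod p] ZMod p) (A : MM k) :
    (twG p k e g A).map ψ = twG p (ZMod p) e g (A.map ψ) := by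
  have h : ∀ (a : ZMod p) (x : k), ψ (algebraMap (ZMod p) k a * x) = a * ψ x := fun a x => by
    rw [← Algebra.smul_def, map_smul, smul_eq_mul]
  have h' : ∀ (a : ZMod p) (x : k), ψ (x * algebraMap (ZMod p) k a) = ψ x * a := fun a x => by
    rw [mul_comm, h, mul_comm]
  have hm : ∀ (g : GL (Fin 2) (ZMod p)) (i j : Fin 2),
      (Matrix.GeneralLinearGroup.map (algebraMap (ZMod p) k) g : MM k) i j =
        algebraMap (ZMod p) k ((g : MM (ZMod p)) i j) := fun g i j => rfl
  ext i j
  rw [Matrix.map_apply, twG_apply, twG_apply]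
  simp only [Matrix.smul_apply, Matrix.mul_apply, Fin.sum_univ_two, hm, smul_eq_mul, h, map_add,
    h', Matrix.map_apply, Algebra.algebraMap_self_apply,
    Matrix.GeneralLinearGroup.map_id, RingHom.id_apply]
  rfl

/-- Extension of scalars commutes with the twisted adjoint action. -/
theorem twG_map (e : ℕ) (g : GL (Fin 2) (ZMod p)) (X : MM (ZMod p)) :
    twG p k e g (X.map (algebraMap (ZMod p) k)) =
      (twG p (ZMod p) e g X).map (algebraMap (ZMod p) k) := by
  have hm : ∀ (g : GL (Fin 2) (ZMod p)) (i j : Fin 2),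
      (Matrix.GeneralLinearGroup.map (algebraMap (ZMod p) k) g : MM k) i j =
        algebraMap (ZMod p) k ((g : MM (ZMod p)) i j) := fun g i j => rfl
  ext i j
  rw [Matrix.map_apply, twG_apply, twG_apply]
  simp only [Matrix.smul_apply, Matrix.mul_apply, Fin.sum_univ_two, hm, smul_eq_mul, map_add,
    map_mul, Matrix.map_apply, Algebra.algebraMap_self_apply]
  rfl

variable [FiniteDimensional (ZMod p) k]

theorem finrank_invariants_le (H : Subgroup GG) :
    Module.finrank k ↥(D.invariants k 0 H.subtype) ≤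
      Module.finrank (ZMod p) ↥(invW (H.map D.rb)) := by
  classical
  let B := Module.finBasis (ZMod p) k
  let M := Module.finBasis (ZMod p) ↥(invW (H.map D.rb))
  let v : _ → MM k := fun i => (M i).1.1.map (algebraMap (ZMod p) k)
  suffices hle : D.invariants k 0 H.subtype ≤ Submodule.span k (Set.range v) by
    refine (Submodule.finrank_mono hle).trans ?_
    exact (finrank_range_le_card v).trans_eq (Fintype.card_fin _)
  rintro A ⟨htr, hfix⟩
  have hmem : ∀ b, ∃ w ∈ invW (H.map D.rb), w.1 = A.map (B.coord b) := fun b => by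
    refine ⟨⟨A.map (B.coord b), ?_⟩, ?_, rfl⟩
    · rw [Datum.trZero, LinearMap.mem_ker, Matrix.traceLinearMap_apply]
      have h0 : Matrix.trace A = 0 := LinearMap.mem_ker.1 htr
      rw [Matrix.trace_fin_two] at h0 ⊢
      rw [Matrix.map_apply, Matrix.map_apply, ← map_add, h0, map_zero]
    · rintro g ⟨σ, hσ, rfl⟩
      refine Subtype.ext ?_
      rw [piW_val, ← map_twG, ← tw_eq]
      have := congrFun (LinearMap.mem_ker.1 hfix) ⟨σ, hσ⟩
      rw [Datum.bdy, LinearMap.pi_apply, LinearMap.sub_apply, LinearMap.id_apply,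
        Pi.zero_apply, sub_eq_zero] at this
      rw [show D.tw k 0 σ A = A from this]
  choose w hw hwA using hmem
  have hA : A = ∑ b, B b • (A.map (B.coord b)).map (algebraMap (ZMod p) k) := by
    ext i j
    rw [Matrix.sum_apply]
    conv_lhs => rw [← B.sum_repr (A i j)]
    refine Finset.sum_congr rfl fun b _ => ?_
    simp [Algebra.smul_def, mul_comm]
  rw [hA]
  refine Submodule.sum_mem _ fun b _ => Submodule.smul_mem _ _ ?_
  rw [← hwA b]
  have e := M.sum_repr ⟨w b, hw b⟩
  have e' : (w b).1 = ∑ i, M.repr ⟨w b, hw b⟩ i • (M i).1.1 := by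
    have e2 := congrArg (fun z : ↥(invW (H.map D.rb)) => z.1.1) e
    refine e2.symm.trans ?_
    simp only [Submodule.coe_sum, Submodule.coe_smul]
  rw [e']
  have hs : (∑ i, M.repr ⟨w b, hw b⟩ i • (M i).1.1).map (algebraMap (ZMod p) k) =
      ∑ i, algebraMap (ZMod p) k (M.repr ⟨w b, hw b⟩ i) • v i := by
    ext i j
    simp [v, Matrix.sum_apply, map_sum]
    exact Finset.sum_congr rfl fun _ _ => (Algebra.smul_def _ _).symm
  rw [hs]
  exact Submodule.sum_mem _ fun i _ =>
    Submodule.smul_mem _ _ (Submodule.subset_span ⟨i, rfl⟩)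

/-- Independent families stay independent after extending the scalars. -/
theorem linearIndependent_mapAlg {ι X : Type} [Fintype ι] (v : ι → X → MM (ZMod p))
    (hv : LinearIndependent (ZMod p) v) :
    LinearIndependent k (fun i x => (v i x).map (algebraMap (ZMod p) k)) := by
  rw [Fintype.linearIndependent_iff] at hv ⊢
  intro a ha i
  refine (Module.forall_dual_apply_eq_zero_iff (ZMod p) _).1 fun ψ => hv (fun j => ψ (a j)) ?_ i
  funext x
  ext m n
  have h := congrArg ψ (congrFun (congrFun (congrFun ha x) m) n)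
  simp only [Finset.sum_apply, Matrix.sum_apply, Pi.smul_apply, Matrix.smul_apply,
    Matrix.map_apply, smul_eq_mul, Pi.zero_apply, Matrix.zero_apply, map_sum, map_zero] at h ⊢
  refine Eq.trans (Finset.sum_congr rfl fun j _ => ?_) h
  rw [mul_comm (a j), ← Algebra.smul_def, map_smul, smul_eq_mul, mul_comm]

variable {S : Finset ℕ}

/-- The classes unramified outside `S` form a finite set. -/
theorem finite_cocyclesOutside (e : ℕ) (hS : D.bad ⊆ S) [AddGroup.FG (UnitMod D S)]
    (hsplit : ∀ α : LL, α ≠ 0 → IsFixed D α →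
      (∀ l : ℕ, l.Prime → l ∉ S → ∀ V : ValuationSubring LL, V.LiesOverPrime l →
        ∃ m : ℤ, V.valuation α = V.valuation ((l : LL) ^ ((p : ℤ) * m))) →
      ∃ (u : UnitMod D S) (y : LL), IsFixed D y ∧ y ≠ 0 ∧ α = val D u * y ^ p) :
    Finite ↥(D.cocyclesOutside k e S) := by
  classical
  haveI : Module.Finite ℤ (UnitMod D S) := Module.Finite.iff_addGroup_fg.2 inferInstance
  haveI : Finite (ModP p (UnitMod D S)) := Module.finite_of_finite (ZMod p)
  haveI : Finite k := Module.finite_of_finite (ZMod p)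
  let B := Module.finBasis (ZMod p) k
  have hu : ∀ (c : ↥(D.cocyclesOutside k e S)) (q : Fin 2 × Fin 2 × _),
      ∃ u : UnitMod D S, ∀ σ : GG, D.rb σ = 1 →
        B.coord q.2.2 (c.1 σ q.1 q.2.1) = kap D u σ := fun c q => by
    obtain ⟨⟨F, hF, hc⟩, -, hmul⟩ := c.2.1
    refine exists_unit_of_char D hS hsplit (fun σ => B.coord q.2.2 (c.1 σ q.1 q.2.1)) ?_
      ⟨F, hF, fun g _ s _ hs => ?_⟩ fun l hl hlS V hV σ hσ => ?_
    · intro σ τ hσ _
      rw [hmul, MonoidHom.id_apply, tw_of_rb D k e hσ, Matrix.add_apply, map_add]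
    · show B.coord q.2.2 (c.1 (g * s) q.1 q.2.1) = _
      rw [hc g s hs]
    · show B.coord q.2.2 (c.1 σ q.1 q.2.1) = 0
      rw [c.2.2 l hl hlS V hV σ hσ, Matrix.zero_apply, map_zero]
  choose u hu using hu
  refine Finite.of_injective (fun c : ↥(D.cocyclesOutside k e S) =>
    ((fun g => c.1 (lift D g), fun q => (QuotientAddGroup.mk (u c q) : ModP p (UnitMod D S))) :
      (GL (Fin 2) (ZMod p) → MM k) × (Fin 2 × Fin 2 × _ → ModP p (UnitMod D S)))) fun c c' h => ?_
  simp only [Prod.mk.injEq] at h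
  obtain ⟨h1, h2⟩ := h
  refine Subtype.ext (funext fun σ => ?_)
  have hk : D.rb ((lift D (D.rb σ))⁻¹ * σ) = 1 := by
    rw [map_mul, map_inv, rb_lift, inv_mul_cancel]
  have hker : c.1 ((lift D (D.rb σ))⁻¹ * σ) = c'.1 ((lift D (D.rb σ))⁻¹ * σ) := by
    refine Matrix.ext fun i j => B.ext_elem fun b => ?_
    have e1 := hu c (i, j, b) _ hk
    have e2 := hu c' (i, j, b) _ hk
    have e3 := congrFun (congrArg (kapHom D) (congrFun h2 (i, j, b))) ⟨_, hk⟩
    rw [kapHom_mk, kapHom_mk, ← e1, ← e2] at e3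
    exact e3
  rw [← mul_inv_cancel_left (lift D (D.rb σ)) σ, c.2.1.2.2, c'.2.1.2.2, hker,
    congrFun h1 (D.rb σ)]

set_option maxHeartbeats 1000000 in
/-- The lower bound. -/
theorem le_finrank_cocyclesOutside (hS : D.bad ⊆ S)
    [FiniteDimensional k ↥(D.cocyclesOutside k 1 S)] [AddGroup.FG (UnitMod D S)] :
    3 + Module.finrank (ZMod p) ↥(eqHom piW (modPRep (p := p) (actU D S))) ≤
      Module.finrank k ↥(D.cocyclesOutside k 1 S) := by
  classical
  haveI : Module.Finite ℤ (UnitMod D S) := Module.Finite.iff_addGroup_fg.2 inferInstance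
  let Φ := Module.finBasis (ZMod p) ↥(eqHom piW (modPRep (p := p) (actU D S)))
  have hext : ∀ i, ∃ C ∈ D.cocycles (ZMod p) 1 (MonoidHom.id GG),
      ∀ h : ↥D.rb.ker, C h.1 = (charMat D (Φ i).1 h).1 := fun i => by
    let f : GG → MM (ZMod p) := fun σ =>
      if h : D.rb σ = 1 then (charMat D (Φ i).1 ⟨σ, h⟩).1 else 0
    have hf : ∀ σ (h : D.rb σ = 1), f σ = (charMat D (Φ i).1 ⟨σ, h⟩).1 := fun σ h => dif_pos h
    obtain ⟨F, hF, hF0⟩ := charMat_level D (Φ i).1
    obtain ⟨C, hC, hCf⟩ := exists_extension D f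
      (fun h hh => by
        rw [hf h hh]
        exact LinearMap.mem_ker.1 (charMat D (Φ i).1 ⟨h, hh⟩).2)
      (fun g h hg hh => by
        rw [hf _ (show D.rb (g * h) = 1 by rw [map_mul, hg, hh, one_mul]), hf g hg, hf h hh]
        exact congrArg Subtype.val (charMat_mul D (Φ i).1 ⟨g, hg⟩ ⟨h, hh⟩))
      (fun τ h hh => by
        have h1 : D.rb (τ * h * τ⁻¹) = 1 := by
          rw [map_mul, map_mul, hh, mul_one, map_inv, mul_inv_cancel]
        rw [hf _ h1, hf h hh]
        exact charMat_conj D (Φ i).2 τ ⟨h, hh⟩ ⟨_, h1⟩ rfl)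
      ⟨F, hF, fun s hs h1 => by rw [hf s h1, hF0 s hs h1]; rfl⟩
    exact ⟨C, hC, fun h => by rw [hCf h.1 h.2, hf h.1 h.2]⟩
  choose C hC hCker using hext
  have hCS : ∀ i, (fun σ => (C i σ).map (algebraMap (ZMod p) k)) ∈ D.cocyclesOutside k 1 S := by
    intro i
    obtain ⟨⟨F, hF, hlev⟩, htr, hmul⟩ := hC i
    refine ⟨⟨⟨F, hF, fun g s hs => by simp only; rw [hlev g s hs]⟩, fun g => ?_, fun g h => ?_⟩, ?_⟩
    · show Matrix.trace ((C i g).map (algebraMap (ZMod p) k)) = 0
      have h0 := htr g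
      rw [Matrix.trace_fin_two] at h0 ⊢
      rw [Matrix.map_apply, Matrix.map_apply, ← map_add, h0, map_zero]
    · show (C i (g * h)).map _ = _
      rw [hmul, Matrix.map_add _ (map_add _)]
      congr 1
      rw [tw_eq, tw_eq, twG_map]
    · intro l hl hlS V hV σ hσ
      have h1 := D.unramified l hl (fun h => hlS (hS h)) V hV σ hσ
      show (C i σ).map _ = 0
      rw [hCker i ⟨σ, h1⟩, charMat_eq_zero D _ _ fun a =>
        kap_inertia D a hl hlS (fun e => hlS (hS (e ▸ D.p_mem))) hV hσ h1]
      ext i j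
      simp
  let R : ↥(D.cocyclesOutside k 1 S) →ₗ[k] (↥D.rb.ker → MM k) :=
    (LinearMap.funLeft k (MM k) (Subtype.val : ↥D.rb.ker → GG)).comp
      (D.cocyclesOutside k 1 S).subtype
  have e := LinearMap.finrank_range_add_finrank_ker R
  have hcobs : D.cobs k 1 (MonoidHom.id GG) ≤ D.cocyclesOutside k 1 S := by
    rintro _ ⟨A, hA, rfl⟩
    refine ⟨cobs_le_cocycles D k ⟨A, hA, rfl⟩, fun l hl hlS V hV σ hσ => ?_⟩
    rw [Datum.bdy, LinearMap.pi_apply, LinearMap.sub_apply, LinearMap.id_apply, MonoidHom.id_apply,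
      tw_of_rb D k 1 (D.unramified l hl (fun h => hlS (hS h)) V hV σ hσ), sub_self]
  have hker : 3 ≤ Module.finrank k ↥(LinearMap.ker R) := by
    have hinv : D.invariants k 1 (MonoidHom.id GG) = ⊥ := by
      rw [eq_bot_iff]
      rintro A ⟨hA, hfix⟩
      have hg : ∀ g, twG p k 1 g A = A := fun g => by
        have := congrFun (LinearMap.mem_ker.1 hfix) (lift D g)
        rw [Datum.bdy, LinearMap.pi_apply, LinearMap.sub_apply, LinearMap.id_apply,
          MonoidHom.id_apply, Pi.zero_apply, sub_eq_zero, tw_eq, rb_lift] at this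
        exact this
      exact (Submodule.mem_bot _).2 (eq_zero_of_invariant D.p_gt 1 (LinearMap.mem_ker.1 hA)
        (hg _) (hg _))
    have h3 := TWBound.finrank_cobs_add D k 1 (MonoidHom.id GG)
    rw [hinv, finrank_bot, add_zero] at h3
    rw [← h3]
    let inc : ↥(D.cobs k 1 (MonoidHom.id GG)) →ₗ[k] ↥(LinearMap.ker R) :=
      (Submodule.inclusion hcobs).codRestrict _ fun c => by
        obtain ⟨A, -, hc⟩ := c.2
        rw [LinearMap.mem_ker]
        refine funext fun σ => ?_
        show c.1 σ.1 = 0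
        rw [← hc, Datum.bdy, LinearMap.pi_apply, LinearMap.sub_apply, LinearMap.id_apply,
          MonoidHom.id_apply, tw_of_rb D k 1 σ.2, sub_self]
    exact LinearMap.finrank_le_finrank_of_injective (f := inc) fun a b h =>
      Submodule.inclusion_injective hcobs (congrArg Subtype.val h)
  have hran : Module.finrank (ZMod p) ↥(eqHom piW (modPRep (p := p) (actU D S))) ≤
      Module.finrank k ↥(LinearMap.range R) := by
    let inj : ↥(eqHom piW (modPRep (p := p) (actU D S))) →ₗ[ZMod p] (↥D.rb.ker → MM (ZMod p)) :=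
      ((Datum.trZero (ZMod p)).subtype.compLeft ↥D.rb.ker).comp
        ((charMat D).comp (eqHom piW (modPRep (p := p) (actU D S))).subtype)
    have hinj : Function.Injective inj := fun a b h => Subtype.ext (charMat_injective D
      (funext fun σ => Subtype.ext (congrFun h σ)))
    have hind0 := linearIndependent_mapAlg k (fun i => inj (Φ i))
      (Φ.linearIndependent.map' inj (LinearMap.ker_eq_bot.2 hinj))
    let w : _ → ↥(LinearMap.range R) := fun i => ⟨R ⟨_, hCS i⟩, LinearMap.mem_range_self R _⟩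
    have hw : (fun i => (w i).1) = fun i σ => (inj (Φ i) σ).map (algebraMap (ZMod p) k) :=
      funext fun i => funext fun σ => by
        show (C i σ.1).map _ = _
        rw [hCker i σ]
        rfl
    have hind : LinearIndependent k w := by
      refine LinearIndependent.of_comp (LinearMap.range R).subtype ?_
      show LinearIndependent k fun i => (w i).1
      rw [hw]
      exact hind0
    have := hind.fintype_card_le_finrank
    rwa [Fintype.card_fin] at this
  omega

/-- The unit bound, from the arithmetic input. -/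
theorem targetUnitBound_of_arith (hA : TargetArith) : TargetUnitBound := by
  intro p _ D k _ _ _
  obtain ⟨cb, hcb, hdet, S₀, -, hS₀p, ⟨l₀, hl₀, hl₀u⟩, hmain⟩ := hA p D
  refine ⟨S₀, hS₀p, fun S h0 hbad hSp => ?_⟩
  obtain ⟨hfg, hsplit, hdata⟩ := hmain S h0 hSp
  haveI := hfg
  haveI := finite_cocyclesOutside D k 0 hbad hsplit
  haveI := finite_cocyclesOutside D k 1 hbad hsplit
  haveI : FiniteDimensional k ↥(D.cocyclesOutside k 0 S) := Module.Finite.of_finite
  haveI : FiniteDimensional k ↥(D.cocyclesOutside k 1 S) := Module.Finite.of_finite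
  refine ⟨inferInstance, inferInstance, fun V hV => ?_⟩
  obtain ⟨⟨dd⟩, ⟨sd⟩⟩ := hdata V hV
  obtain ⟨g, hg⟩ := hl₀u (V l₀) (hV l₀ (h0 hl₀))
  let π₀ : FinPl D S V := ⟨⟨l₀, h0 hl₀⟩, QuotientGroup.mk g⁻¹⟩
  have hπ₀ : upperU p 1 • π₀ = π₀ := by
    show (⟨⟨l₀, h0 hl₀⟩, upperU p 1 • (QuotientGroup.mk g⁻¹ :
      GL (Fin 2) (ZMod p) ⧸ decImage D (V l₀))⟩ : FinPl D S V) = _
    congr 1
    rw [MulAction.Quotient.smul_mk, smul_eq_mul, eq_comm, QuotientGroup.eq, inv_inv, ← mul_assoc]
    exact hg
  have h1 := le_finrank_eqHom D.p_gt hcb hdet dd sd hπ₀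
  have h2 := le_finrank_cocyclesOutside D k (S := S) hbad
  have h3 : ∑ l ∈ S, Module.finrank k
      ↥(D.invariants k 0 ((V l).decompositionSubgroup ℚ).subtype) ≤
      ∑ l : ↥S, Module.finrank (ZMod p) ↥(invW (decImage D (V l))) := by
    rw [← Finset.sum_coe_sort]
    exact Finset.sum_le_sum fun l _ => finrank_invariants_le D k _
  omega

/-- The unit bound, from cyclic reciprocity. -/
theorem targetUnitBound (hC : TargetCyclic) : TargetUnitBound :=
  targetUnitBound_of_arith (targetArith hC)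

end FLTAgent.Lowering.P1.UnitBound
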