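import Fermat.Agent.Lowering.P1.UnitBound.Torus

/-!
# Homomorphisms out of the adjoint representation

Homomorphisms of the Borel subgroup out of the trace zero matrices are the vectors of weight
`χ⁻¹` killed by `X ^ 3`. By Frobenius reciprocity they exceed the homomorphisms of the whole
group by an exact invariant.
-/

set_option autoImplicit false
set_option linter.unusedSectionVars false
set_option linter.style.haveILetI false

noncomputable section

namespace FLTAgent.Lowering.P1.UnitBound

open FLTAgent.Lowering.P1.Primes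

variable (p : ℕ) [Fact p.Prime]

/-- The trace zero matrices. -/
abbrev W : Type := ↥(Datum.trZero (ZMod p))

variable {p}

theorem trace_twG (e : ℕ) (g : GL (Fin 2) (ZMod p)) {A : Matrix (Fin 2) (Fin 2) (ZMod p)}
    (hA : A ∈ Datum.trZero (ZMod p)) : twG p (ZMod p) e g A ∈ Datum.trZero (ZMod p) := by
  rw [Datum.trZero, LinearMap.mem_ker, Matrix.traceLinearMap_apply] at hA ⊢
  rw [twG_apply, Matrix.trace_smul, Matrix.trace_mul_comm, Matrix.mul_assoc, ← Units.val_mul,
    ← map_mul, inv_mul_cancel, map_one, Units.val_one, Matrix.mul_one, hA, smul_zero]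

/-- The adjoint representation. -/
def piW : Representation (ZMod p) (GL (Fin 2) (ZMod p)) (W p) where
  toFun g := (twG p (ZMod p) 0 g).restrict fun _ h => trace_twG 0 g h
  map_one' := LinearMap.ext fun x => Subtype.ext (twG_one p (ZMod p) 0 _)
  map_mul' g h := LinearMap.ext fun x => Subtype.ext (twG_mul p (ZMod p) 0 g h _)

theorem piW_val (g : GL (Fin 2) (ZMod p)) (m : W p) :
    (piW g m).1 = twG p (ZMod p) 0 g m.1 := rfl

/-- A trace zero matrix. -/
def matW (a b c : ZMod p) : W p :=
  ⟨!![a, b; c, -a], by simp [Datum.trZero, Matrix.trace_fin_two]⟩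

theorem eq_matW (m : W p) : m = matW (m.1 0 0) (m.1 0 1) (m.1 1 0) := by
  obtain ⟨A, hA⟩ := m
  have h : A 0 0 + A 1 1 = 0 := by simpa [Datum.trZero, Matrix.trace_fin_two] using hA
  refine Subtype.ext (Matrix.ext fun i j => ?_)
  fin_cases i <;> fin_cases j <;> simp [matW]
  linear_combination h

theorem piW_diag (st : Tor p) (a b c : ZMod p) :
    piW (diagHom p st) (matW a b c) = matW a (chi p st * b) (chiInv p st * c) := by
  obtain ⟨s, t⟩ := st
  refine Subtype.ext ?_
  rw [piW_val, twG_diag, chi_apply, chiInv_apply]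
  simp [matW, -Units.val_inv_eq_inv_val, -ZMod.inv_coe_unit]

theorem opX_piW (a b c : ZMod p) : opX piW (matW a b c) = matW c (-(2 * a) - c) 0 := by
  refine Subtype.ext ?_
  show (piW (upperU p 1) (matW a b c)).1 - (matW a b c).1 = _
  rw [piW_val, twG_upperU]
  ext i j
  fin_cases i <;> fin_cases j <;> simp [matW] <;> ring

/-! ### Points of the projective line -/

variable (p) in
/-- The upper triangular matrices. -/
def borel : Subgroup (GL (Fin 2) (ZMod p)) where
  carrier := {g | (g : Matrix (Fin 2) (Fin 2) (ZMod p)) 1 0 = 0}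
  one_mem' := by simp
  mul_mem' := fun {a b} ha hb => by
    simp only [Set.mem_setOf_eq, Units.val_mul, Matrix.mul_apply, Fin.sum_univ_two] at *
    rw [ha, hb]; ring
  inv_mem' := fun {g} hg => by
    simp only [Set.mem_setOf_eq] at *
    rw [Matrix.coe_units_inv, Matrix.inv_def, Matrix.smul_apply, Matrix.adjugate_fin_two]
    simp [hg]

theorem mem_borel {g : GL (Fin 2) (ZMod p)} :
    g ∈ borel p ↔ (g : Matrix (Fin 2) (Fin 2) (ZMod p)) 1 0 = 0 := Iff.rfl

theorem upperU_mem_borel (a : ZMod p) : upperU p a ∈ borel p := by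
  simp [mem_borel, upperU]

theorem diagHom_mem_borel (st : Tor p) : diagHom p st ∈ borel p := by
  simp [mem_borel, diagHom, -Units.val_inv_eq_inv_val, -ZMod.inv_coe_unit]

variable (p) in
/-- The permutation matrix. -/
def swapU : GL (Fin 2) (ZMod p) where
  val := !![0, 1; 1, 0]
  inv := !![0, 1; 1, 0]
  val_inv := by ext i j; fin_cases i <;> fin_cases j <;> simp [Matrix.mul_apply, Fin.sum_univ_two]
  inv_val := by ext i j; fin_cases i <;> fin_cases j <;> simp [Matrix.mul_apply, Fin.sum_univ_two]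

theorem swapU_mul_self : swapU p * swapU p = 1 := by
  ext i j; fin_cases i <;> fin_cases j <;> simp [swapU, Matrix.mul_apply, Fin.sum_univ_two]

variable (p) in
/-- The points of the projective line. -/
abbrev Line : Type := GL (Fin 2) (ZMod p) ⧸ borel p

variable (p) in
/-- The point at infinity. -/
def pt0 : Line p := QuotientGroup.mk 1

variable (p) in
/-- The point zero. -/
def pt1 : Line p := QuotientGroup.mk (swapU p)

theorem smul_pt0 (g : GL (Fin 2) (ZMod p)) : g • pt0 p = QuotientGroup.mk g := by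
  rw [pt0, MulAction.Quotient.smul_mk, smul_eq_mul, mul_one]

theorem smul_pt0_eq_iff {g : GL (Fin 2) (ZMod p)} : g • pt0 p = pt0 p ↔ g ∈ borel p := by
  rw [smul_pt0, pt0, QuotientGroup.eq, mul_one, inv_mem_iff]

theorem eq_pt0_or (y : Line p) : y = pt0 p ∨ ∃ a : ZMod p, y = upperU p a • pt1 p := by
  induction y using QuotientGroup.induction_on with
  | H g =>
    rcases eq_or_ne ((g : Matrix (Fin 2) (Fin 2) (ZMod p)) 1 0) 0 with h | h
    · left
      rw [pt0, QuotientGroup.eq, mul_one, inv_mem_iff]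
      exact h
    · right
      refine ⟨(g : Matrix (Fin 2) (Fin 2) (ZMod p)) 0 0 /
        (g : Matrix (Fin 2) (Fin 2) (ZMod p)) 1 0, ?_⟩
      rw [pt1, MulAction.Quotient.smul_mk, smul_eq_mul, eq_comm, QuotientGroup.eq, mem_borel,
        mul_inv_rev]
      simp [swapU, upperU, Units.val_mul, Units.inv_mk, Matrix.mul_apply, Fin.sum_univ_two]
      field_simp
      ring

theorem upperU_pt1_ne (a : ZMod p) : upperU p a • pt1 p ≠ pt0 p := by
  rw [pt0, pt1, MulAction.Quotient.smul_mk, smul_eq_mul, ne_eq, QuotientGroup.eq, mul_one,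
    inv_mem_iff, mem_borel]
  simp [swapU, upperU, Matrix.mul_apply, Fin.sum_univ_two]

theorem upperU_pt1_injective : Function.Injective fun a : ZMod p => upperU p a • pt1 p := by
  intro a b h
  simp only [pt1, MulAction.Quotient.smul_mk, smul_eq_mul, QuotientGroup.eq, mul_inv_rev] at h
  rw [mem_borel] at h
  simp [swapU, upperU, Units.inv_mk, Matrix.mul_apply, Fin.sum_univ_two] at h
  linear_combination -h

theorem card_line [Fintype (Line p)] : (Fintype.card (Line p) : ZMod p) = 1 := by
  classical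
  have h : (Finset.univ : Finset (Line p)) =
      insert (pt0 p) (Finset.univ.image fun a : ZMod p => upperU p a • pt1 p) := by
    refine (Finset.eq_univ_iff_forall.2 fun y => ?_).symm
    rcases eq_pt0_or y with h | ⟨a, ha⟩
    · exact Finset.mem_insert.2 (Or.inl h)
    · exact Finset.mem_insert.2 (Or.inr (Finset.mem_image.2 ⟨a, Finset.mem_univ _, ha.symm⟩))
  rw [← Finset.card_univ, h, Finset.card_insert_of_notMem, Finset.card_image_of_injective _
    upperU_pt1_injective, Finset.card_univ, ZMod.card]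
  · simp
  · simp only [Finset.mem_image, Finset.mem_univ, true_and, not_exists]
    exact fun a => upperU_pt1_ne a

theorem exists_pair (z y : Line p) (hzy : y ≠ z) :
    ∃ g : GL (Fin 2) (ZMod p), g • pt0 p = z ∧ g • pt1 p = y := by
  induction z using QuotientGroup.induction_on with
  | H g₀ =>
    rcases eq_pt0_or (g₀⁻¹ • y) with h | ⟨a, ha⟩
    · exact absurd (by rw [← smul_inv_smul g₀ y, h, smul_pt0]) hzy
    · refine ⟨g₀ * upperU p a, ?_, ?_⟩
      · rw [mul_smul, smul_pt0_eq_iff.2 (upperU_mem_borel a), smul_pt0]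
      · rw [mul_smul, ← ha, smul_inv_smul]

theorem fix_pair_iff (g : GL (Fin 2) (ZMod p)) :
    g • pt0 p = pt0 p ∧ g • pt1 p = pt1 p ↔ ∃ st : Tor p, diagHom p st = g := by
  constructor
  · rintro ⟨h0, h1⟩
    rw [smul_pt0_eq_iff, mem_borel] at h0
    rw [pt1, MulAction.Quotient.smul_mk, smul_eq_mul, eq_comm, QuotientGroup.eq, mem_borel] at h1
    simp [swapU, Units.inv_mk, Matrix.mul_apply, Fin.sum_univ_two] at h1
    have hdet : (g : Matrix (Fin 2) (Fin 2) (ZMod p)).det ≠ 0 :=
      ((Matrix.isUnit_iff_isUnit_det _).1 g.isUnit).ne_zero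
    rw [Matrix.det_fin_two, h0, h1, mul_zero, sub_zero, mul_ne_zero_iff] at hdet
    refine ⟨(Units.mk0 _ hdet.1, Units.mk0 _ hdet.2), ?_⟩
    ext i j
    fin_cases i <;> fin_cases j <;> simp [diagHom, h0, h1, -Units.val_inv_eq_inv_val, -ZMod.inv_coe_unit]
  · rintro ⟨st, rfl⟩
    refine ⟨smul_pt0_eq_iff.2 (diagHom_mem_borel st), ?_⟩
    rw [pt1, MulAction.Quotient.smul_mk, smul_eq_mul, eq_comm, QuotientGroup.eq, mem_borel]
    simp [swapU, diagHom, Units.inv_mk, Matrix.mul_apply, Fin.sum_univ_two, -Units.val_inv_eq_inv_val, -ZMod.inv_coe_unit]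

theorem diagHom_injective : Function.Injective (diagHom p) := fun a b h => by
  have h' : ∀ i j, (diagHom p a : Matrix (Fin 2) (Fin 2) (ZMod p)) i j =
      (diagHom p b : Matrix (Fin 2) (Fin 2) (ZMod p)) i j := fun i j => by rw [h]
  exact Prod.ext (Units.ext (by simpa [diagHom, -Units.val_inv_eq_inv_val, -ZMod.inv_coe_unit] using h' 0 0))
    (Units.ext (by simpa [diagHom, -Units.val_inv_eq_inv_val, -ZMod.inv_coe_unit] using h' 1 1))

/-! ### The induced representation and its probe -/

variable (p) in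
/-- The induced representation. -/
abbrev Ind : Type := Line p → W p

/-- The action on the induced representation. -/
def piInd : Representation (ZMod p) (GL (Fin 2) (ZMod p)) (Ind p) where
  toFun g :=
    { toFun := fun f y => piW g (f (g⁻¹ • y))
      map_add' := fun a b => funext fun y => by simp
      map_smul' := fun c a => funext fun y => by simp }
  map_one' := LinearMap.ext fun f => funext fun y => by simp
  map_mul' g h := LinearMap.ext fun f => funext fun y => by
    show piW (g * h) _ = piW g (piW h _)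
    rw [map_mul, mul_inv_rev, mul_smul]
    rfl

theorem piInd_apply (g : GL (Fin 2) (ZMod p)) (f : Ind p) (y : Line p) :
    piInd g f y = piW g (f (g⁻¹ • y)) := rfl

/-- A vector at a point. -/
def atPt (y : Line p) : W p →ₗ[ZMod p] Ind p :=
  haveI := Classical.decEq (Line p)
  LinearMap.single (ZMod p) (fun _ : Line p => W p) y

theorem atPt_apply (y z : Line p) (m : W p) [Decidable (z = y)] :
    atPt y m z = if z = y then m else 0 := by
  split_ifs with h
  · subst h; simp [atPt]
  · simp [atPt, h]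

/-- The endomorphism. -/
def endo : Ind p →ₗ[ZMod p] Ind p :=
  atPt (pt0 p) ∘ₗ (LinearMap.proj (R := ZMod p) (φ := fun _ : Line p => W p) (pt0 p) -
    LinearMap.proj (R := ZMod p) (φ := fun _ : Line p => W p) (pt1 p))

/-- The sum over the line. -/
def total : Ind p →ₗ[ZMod p] W p :=
  haveI := Fintype.ofFinite (Line p)
  ∑ y : Line p, LinearMap.proj y

theorem total_apply [Fintype (Line p)] (f : Ind p) : total f = ∑ y, f y := by
  simp only [total, LinearMap.sum_apply, LinearMap.proj_apply]
  congr! 1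
  ext y
  simp

theorem trace_endo (f : Ind p) (z : Line p) :
    (∑ g : GL (Fin 2) (ZMod p), piInd g (endo (piInd g⁻¹ f))) z = f z - total f := by
  classical
  have key : ∀ g : GL (Fin 2) (ZMod p), piInd g (endo (piInd g⁻¹ f)) z =
      if g • pt0 p = z then f z - f (g • pt1 p) else 0 := fun g => by
    rw [piInd_apply, endo, LinearMap.comp_apply, atPt_apply]
    simp only [LinearMap.sub_apply, LinearMap.proj_apply, piInd_apply, inv_inv]
    by_cases h : g • pt0 p = z
    · rw [if_pos (by rw [← h, inv_smul_smul]), if_pos h, map_sub]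
      simp only [← Module.End.mul_apply, ← map_mul, mul_inv_cancel, map_one, Module.End.one_apply]
      rw [h]
    · rw [if_neg (fun e => h (by rw [← e, smul_inv_smul])), if_neg h, map_zero]
  rw [Finset.sum_apply, Finset.sum_congr rfl fun g _ => key g, ← Finset.sum_filter,
    Finset.sum_sub_distrib, Finset.sum_const]
  set F := Finset.univ.filter fun g : GL (Fin 2) (ZMod p) => g • pt0 p = z with hF
  have h1 : ((F.card : ℕ) : ZMod p) = 0 := by
    obtain ⟨g₀, rfl⟩ := QuotientGroup.mk_surjective z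
    have hc : F.card = Nat.card (borel p) := by
      rw [Nat.card_eq_fintype_card]
      refine Finset.card_bij' (fun g _ => (⟨g₀⁻¹ * g, ?_⟩ : borel p)) (fun b _ => g₀ * b.1)
        (fun g _ => Finset.mem_univ _) (fun b _ => ?_) (fun g _ => by simp)
        (fun b _ => Subtype.ext (by simp))
      · have := (Finset.mem_filter.1 ‹g ∈ F›).2
        rw [smul_pt0, eq_comm, QuotientGroup.eq] at this
        exact this
      · refine Finset.mem_filter.2 ⟨Finset.mem_univ _, ?_⟩
        rw [smul_pt0, eq_comm, QuotientGroup.eq, inv_mul_cancel_left]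
        exact b.2
    rw [hc, CharP.cast_eq_zero_iff (ZMod p) p]
    have ho : orderOf (⟨upperU p 1, upperU_mem_borel 1⟩ : borel p) = p :=
      orderOf_eq_prime (Subtype.ext (upperU_one_pow_p p)) fun h => by
        have h' := upperU_injective p ((congrArg Subtype.val h).trans (upperU_of_zero p).symm)
        exact one_ne_zero h'
    conv_lhs => rw [← ho]
    exact orderOf_dvd_natCard _
  rw [← Nat.cast_smul_eq_nsmul (ZMod p), h1, zero_smul, zero_sub,
    ← Finset.sum_fiberwise_of_maps_to (t := Finset.univ) (g := fun g => g • pt1 p)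
      (fun g _ => Finset.mem_univ _)]
  rw [total_apply, ← Finset.add_sum_erase _ _ (Finset.mem_univ z)]
  rw [← Finset.add_sum_erase _ _ (Finset.mem_univ z)]
  have h2 : ∀ y : Line p, ((F.filter fun g => g • pt1 p = y).sum fun g => f (g • pt1 p)) =
      ((F.filter fun g => g • pt1 p = y).card : ZMod p) • f y := fun y => by
    rw [Finset.sum_congr rfl fun g hg => by rw [(Finset.mem_filter.1 hg).2], Finset.sum_const,
      Nat.cast_smul_eq_nsmul]
  have h3 : (F.filter fun g => g • pt1 p = z) = ∅ := by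
    refine Finset.filter_eq_empty_iff.2 fun g hg e => ?_
    have h0 := (Finset.mem_filter.1 hg).2
    have : pt1 p = pt0 p := smul_left_cancel g (e.trans h0.symm)
    exact upperU_pt1_ne 0 (by rw [upperU_of_zero p, one_smul, this])
  have h4 : ∀ y ∈ Finset.univ.erase z,
      ((F.filter fun g => g • pt1 p = y).card : ZMod p) = 1 := fun y hy => by
    obtain ⟨g₁, hg0, hg1⟩ := exists_pair z y (Finset.ne_of_mem_erase hy)
    rw [← card_tor p]
    congr 1
    rw [← Finset.card_univ]
    symm
    refine Finset.card_bij (fun st _ => g₁ * diagHom p st) (fun st _ => ?_)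
      (fun a _ b _ h => diagHom_injective (mul_left_cancel h)) (fun g hg => ?_)
    · obtain ⟨d0, d1⟩ := (fix_pair_iff (diagHom p st)).2 ⟨st, rfl⟩
      simp [hF, mul_smul, d0, d1, hg0, hg1]
    · simp only [hF, Finset.mem_filter, Finset.mem_univ, true_and] at hg
      obtain ⟨st, hst⟩ := (fix_pair_iff (g₁⁻¹ * g)).1
        ⟨by rw [mul_smul, hg.1, ← hg0, inv_smul_smul], by rw [mul_smul, hg.2, ← hg1, inv_smul_smul]⟩
      exact ⟨st, Finset.mem_univ _, by rw [hst, mul_inv_cancel_left]⟩
  rw [h3, Finset.sum_empty, zero_add, Finset.sum_congr rfl fun y hy => by rw [h2 y, h4 y hy,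
    one_smul]]
  abel

variable (p) in
/-- The probe. -/
def borelProbe : Probe p (GL (Fin 2) (ZMod p)) (Ind p) where
  π := piInd
  e := endo
  idem := fun f => funext fun z => by
    haveI := Fintype.ofFinite (Line p)
    rw [trace_endo, total_apply, Finset.sum_congr rfl fun y _ => trace_endo f y,
      trace_endo, Finset.sum_sub_distrib, Finset.sum_const, Finset.card_univ,
      ← Nat.cast_smul_eq_nsmul (ZMod p), card_line, one_smul, total_apply, sub_self, sub_zero]

theorem borelProbe_tr (f : Ind p) (z : Line p) : (borelProbe p).tr f z = f z - total f := by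
  rw [Probe.tr_apply]
  exact trace_endo f z

theorem piInd_atPt (g : GL (Fin 2) (ZMod p)) (y : Line p) (m : W p) :
    piInd g (atPt y m) = atPt (g • y) (piW g m) := funext fun z => by
  classical
  rw [piInd_apply, atPt_apply, atPt_apply]
  by_cases h : z = g • y
  · rw [if_pos (by rw [h, inv_smul_smul]), if_pos h]
  · rw [if_neg (fun e => h (by rw [← e, smul_inv_smul])), if_neg h, map_zero]

theorem sum_atPt [Fintype (Line p)] (f : Ind p) : ∑ y, atPt y (f y) = f := funext fun z => by
  classical
  simp [atPt_apply]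

theorem total_atPt (y : Line p) (m : W p) : total (atPt y m) = m := by
  classical
  haveI := Fintype.ofFinite (Line p)
  simp [total_apply, atPt_apply]

theorem total_equivariant (g : GL (Fin 2) (ZMod p)) (f : Ind p) :
    total (piInd g f) = piW g (total f) := by
  haveI := Fintype.ofFinite (Line p)
  rw [total_apply, total_apply, map_sum]
  exact Fintype.sum_equiv (MulAction.toPerm g⁻¹) _ _ fun y => rfl

/-! ### Comparison with the weight vectors -/

variable {V : Type} [AddCommGroup V] [Module (ZMod p) V]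
  (ρ : Representation (ZMod p) (GL (Fin 2) (ZMod p)) V)

/-- The homomorphisms of the Borel subgroup, as vectors. -/
def borelVec : Submodule (ZMod p) V := wt ρ (chiInv p) ⊓ LinearMap.ker (opX ρ ^ 3)

theorem mem_borelVec {v : V} :
    v ∈ borelVec ρ ↔ v ∈ wt ρ (chiInv p) ∧ (opX ρ ^ 3) v = 0 := Iff.rfl

theorem intertwine_atPt {φ : Ind p →ₗ[ZMod p] V} (hφ : φ ∈ eqHom piInd ρ)
    {b : GL (Fin 2) (ZMod p)} (hb : b ∈ borel p) (m : W p) :
    ρ b (φ (atPt (pt0 p) m)) = φ (atPt (pt0 p) (piW b m)) := by
  rw [← hφ b, piInd_atPt, smul_pt0_eq_iff.2 hb]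

theorem opX_atPt {φ : Ind p →ₗ[ZMod p] V} (hφ : φ ∈ eqHom piInd ρ) (m : W p) :
    opX ρ (φ (atPt (pt0 p) m)) = φ (atPt (pt0 p) (opX piW m)) := by
  simp [opX, map_sub, intertwine_atPt ρ hφ (upperU_mem_borel 1)]

theorem borelVec_of_hom {φ : Ind p →ₗ[ZMod p] V} (hφ : φ ∈ eqHom piInd ρ) :
    φ (atPt (pt0 p) (matW 0 0 1)) ∈ borelVec ρ := by
  refine ⟨fun st => ?_, ?_⟩
  · rw [intertwine_atPt ρ hφ (diagHom_mem_borel st), piW_diag, ← map_smul, ← map_smul]
    congr 2
    refine Subtype.ext ?_
    simp [matW]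
  · rw [SetLike.mem_coe, LinearMap.mem_ker]
    simp only [pow_succ, pow_zero, one_mul, Module.End.mul_apply, opX_atPt ρ hφ, opX_piW]
    rw [show (matW (0 : ZMod p) (-(2 * 0) - 0) 0) = 0 by
      refine Subtype.ext ?_; ext i j; fin_cases i <;> fin_cases j <;> simp [matW], map_zero, map_zero]

theorem two_ne_of_p (hp : 3 < p) : (2 : ZMod p) ≠ 0 := two_ne_zero' hp

theorem hom_eq_zero (hp : 3 < p) {φ : Ind p →ₗ[ZMod p] V} (hφ : φ ∈ eqHom piInd ρ)
    (h : φ (atPt (pt0 p) (matW 0 0 1)) = 0) : φ = 0 := by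
  have h1 : φ (atPt (pt0 p) (matW 1 (-1) 0)) = 0 := by
    have := opX_atPt ρ hφ (matW (0 : ZMod p) 0 1)
    rw [h, map_zero, opX_piW, mul_zero, neg_zero, zero_sub] at this
    exact this.symm
  have h2 : φ (atPt (pt0 p) (matW 0 1 0)) = 0 := by
    have := opX_atPt ρ hφ (matW (1 : ZMod p) (-1) 0)
    rw [h1, map_zero, opX_piW, mul_one, sub_zero] at this
    rw [show matW (0 : ZMod p) (-2) 0 = (-2 : ZMod p) • matW 0 1 0 by
      refine Subtype.ext ?_; simp [matW], map_smul, map_smul] at this
    exact (smul_eq_zero.1 this.symm).resolve_left (neg_ne_zero.2 (two_ne_zero' hp))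
  have h0 : ∀ m : W p, φ (atPt (pt0 p) m) = 0 := fun m => by
    have e : m = m.1 1 0 • matW (0 : ZMod p) 0 1 + m.1 0 0 • matW (1 : ZMod p) (-1) 0 +
        (m.1 0 1 + m.1 0 0) • matW (0 : ZMod p) 1 0 := by
      conv_lhs => rw [eq_matW m]
      refine Subtype.ext ?_
      simp [matW]
    rw [e]
    simp [map_add, map_smul, h, h1, h2]
  haveI := Fintype.ofFinite (Line p)
  refine LinearMap.ext fun f => ?_
  rw [← sum_atPt f, map_sum]
  refine Finset.sum_eq_zero fun y _ => ?_
  obtain ⟨g, rfl⟩ := QuotientGroup.mk_surjective y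
  have e : atPt (QuotientGroup.mk g : Line p) (f (QuotientGroup.mk g)) =
      piInd g (atPt (pt0 p) (piW g⁻¹ (f (QuotientGroup.mk g)))) := by
    rw [piInd_atPt, smul_pt0, ← Module.End.mul_apply, ← map_mul, mul_inv_cancel, map_one,
      Module.End.one_apply]
  rw [e, hφ g, h0, map_zero]

theorem finrank_hom_le [FiniteDimensional (ZMod p) V] (hp : 3 < p) :
    Module.finrank (ZMod p) ↥(eqHom piInd ρ) ≤ Module.finrank (ZMod p) ↥(borelVec ρ) := by
  refine LinearMap.finrank_le_finrank_of_injective
    (f := { toFun := fun φ => ⟨_, borelVec_of_hom ρ φ.2⟩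
            map_add' := fun a b => rfl
            map_smul' := fun c a => rfl }) ((injective_iff_map_eq_zero _).2 fun φ h => ?_)
  exact Subtype.ext (hom_eq_zero ρ hp φ.2 (congrArg Subtype.val h))

theorem geom_two {w : V} (hw : (opX ρ ^ 2) w = 0) (n : ℕ) :
    geom ρ n w = (n : ZMod p) • w + (n.choose 2 : ZMod p) • opX ρ w := by
  have hu : ∀ i : ℕ, (ρ (upperU p 1) ^ i) w = w + (i : ZMod p) • opX ρ w := fun i => by
    have h := LinearMap.congr_fun (geom_mul_opX ρ i) w
    rw [Module.End.mul_apply, geom_apply_of_fixed ρ (by rw [← Module.End.mul_apply, ← pow_two, hw]),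
      LinearMap.sub_apply, Module.End.one_apply, map_pow] at h
    rw [h, add_sub_cancel]
  rw [geom, LinearMap.sum_apply, Finset.sum_congr rfl fun i _ => hu i, Finset.sum_add_distrib,
    ← Finset.sum_smul, Finset.sum_const, Finset.card_range, Nat.cast_smul_eq_nsmul,
    Nat.choose_two_right, ← Finset.sum_range_id, Nat.cast_sum]

/-- The map of the Borel subgroup attached to a vector. -/
def theta (v : V) : W p →ₗ[ZMod p] V where
  toFun m := m.1 1 0 • v + m.1 0 0 • (opX ρ v - (2 : ZMod p)⁻¹ • (opX ρ ^ 2) v) -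
    m.1 0 1 • (2 : ZMod p)⁻¹ • (opX ρ ^ 2) v
  map_add' a b := by simp only [Submodule.coe_add, Matrix.add_apply, add_smul]; abel
  map_smul' c a := by simp [smul_add, smul_sub, smul_smul, mul_assoc]

theorem theta_matW (v : V) (a b c : ZMod p) :
    theta ρ v (matW a b c) = c • v + a • (opX ρ v - (2 : ZMod p)⁻¹ • (opX ρ ^ 2) v) -
      b • (2 : ZMod p)⁻¹ • (opX ρ ^ 2) v := rfl

theorem theta_opX (hp : 3 < p) {v : V} (hv : (opX ρ ^ 3) v = 0) (m : W p) :
    opX ρ (theta ρ v m) = theta ρ v (opX piW m) := by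
  have h3 : opX ρ ((opX ρ ^ 2) v) = 0 := by rw [← Module.End.mul_apply, ← pow_succ', hv]
  have h2 : opX ρ (opX ρ v) = (opX ρ ^ 2) v := by rw [← Module.End.mul_apply, ← pow_two]
  rw [eq_matW m, opX_piW, theta_matW, theta_matW]
  simp only [map_add, map_sub, map_smul, h3, h2, smul_zero, sub_zero]
  have := two_ne_zero' hp
  match_scalars <;> field_simp
  ring

theorem theta_diag (hp : 3 < p) {v : V} (hv : v ∈ borelVec ρ) (st : Tor p) (m : W p) :
    ρ (diagHom p st) (theta ρ v m) = theta ρ v (piW (diagHom p st) m) := by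
  obtain ⟨hw, hv3⟩ := hv
  rw [SetLike.mem_coe, LinearMap.mem_ker] at hv3
  have h3 : opX ρ ((opX ρ ^ 2) v) = 0 := by rw [← Module.End.mul_apply, ← pow_succ', hv3]
  have hc : chiInv p st ≠ 0 := by
    intro h
    have := chi_mul_chiInv p st
    rw [h, mul_zero] at this
    exact zero_ne_one this
  have hx : chi p st = (chiInv p st)⁻¹ := eq_inv_of_mul_eq_one_left (chi_mul_chiInv p st)
  have e2 : ρ (diagHom p st) ((opX ρ ^ 2) v) = (chiInv p st)⁻¹ • (opX ρ ^ 2) v := by
    have h := opX_pow_diag ρ st 2 v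
    rw [hw st, map_smul, geom_pow_apply_of_fixed ρ h3, map_smul, ZMod.natCast_zmod_val] at h
    rw [eq_inv_smul_iff₀ hc]
    calc chiInv p st • ρ (diagHom p st) ((opX ρ ^ 2) v)
        = (chiInv p st)⁻¹ • (chiInv p st ^ 2 • ρ (diagHom p st) ((opX ρ ^ 2) v)) := by
          rw [smul_smul, pow_two (chiInv p st), inv_mul_cancel_left₀ hc]
      _ = (chiInv p st)⁻¹ • (chiInv p st • (opX ρ ^ 2) v) := by rw [h]
      _ = _ := inv_smul_smul₀ hc _
  have e1 : ρ (diagHom p st) (opX ρ v) = opX ρ v -
      (2 : ZMod p)⁻¹ • (1 - (chiInv p st)⁻¹) • (opX ρ ^ 2) v := by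
    have h := opX_pow_diag ρ st 1 v
    rw [pow_one, pow_one, hw st, map_smul,
      geom_two ρ (by rw [← Module.End.mul_apply, ← pow_succ, hv3]),
      map_add, map_smul, map_smul, ← Module.End.mul_apply (opX ρ) (opX ρ) v, ← pow_two, e2,
      ZMod.natCast_zmod_val, smul_smul] at h
    have hch : (((chiInv p st).val.choose 2 : ℕ) : ZMod p) =
        (2 : ZMod p)⁻¹ * (chiInv p st * chiInv p st - chiInv p st) := by
      have hn : ∀ n : ℕ, 2 * n.choose 2 + n = n * n := fun n => by
        induction n with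
        | zero => rfl
        | succ n ih => rw [Nat.choose_succ_succ, Nat.choose_one_right]; nlinarith
      have := congrArg (Nat.cast (R := ZMod p)) (hn (chiInv p st).val)
      push_cast at this
      rw [ZMod.natCast_zmod_val] at this
      rw [← this, add_sub_cancel_right, inv_mul_cancel_left₀ (two_ne_zero' hp)]
    rw [hch, ← sub_eq_iff_eq_add] at h
    have h' := congrArg (fun z => (chiInv p st)⁻¹ • z) h
    simp only [smul_sub, smul_smul, inv_mul_cancel₀ hc, one_smul] at h'
    rw [← h']
    congr 1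
    rw [smul_smul]
    congr 1
    have := two_ne_zero' hp
    field_simp
  rw [eq_matW m, piW_diag, theta_matW, theta_matW]
  simp only [map_add, map_sub, map_smul, hw st, e1, e2, hx]
  have := two_ne_zero' hp
  match_scalars <;> field_simp
  ring

theorem theta_borel (hp : 3 < p) {v : V} (hv : v ∈ borelVec ρ) {b : GL (Fin 2) (ZMod p)}
    (hb : b ∈ borel p) (m : W p) : ρ b (theta ρ v m) = theta ρ v (piW b m) := by
  have hu : ∀ (n : ℕ) (m : W p), ρ (upperU p 1 ^ n) (theta ρ v m) =
      theta ρ v (piW (upperU p 1 ^ n) m) := fun n => by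
    induction n with
    | zero => intro m; simp
    | succ n ih =>
      intro m
      rw [pow_succ, map_mul, map_mul, Module.End.mul_apply, Module.End.mul_apply,
        rho_u_apply ρ, theta_opX ρ hp hv.2, ← map_add, ← rho_u_apply piW, ih]
  have hdet : (b : Matrix (Fin 2) (Fin 2) (ZMod p)).det ≠ 0 :=
    ((Matrix.isUnit_iff_isUnit_det _).1 b.isUnit).ne_zero
  rw [Matrix.det_fin_two, mem_borel.1 hb, mul_zero, sub_zero, mul_ne_zero_iff] at hdet
  obtain ⟨n, hn⟩ := ZMod.natCast_zmod_surjective
    ((b : Matrix (Fin 2) (Fin 2) (ZMod p)) 0 1 / (b : Matrix (Fin 2) (Fin 2) (ZMod p)) 0 0)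
  have e : b = diagHom p (Units.mk0 _ hdet.1, Units.mk0 _ hdet.2) * upperU p 1 ^ n := by
    rw [upperU_natPow, hn]
    have := hdet.1
    ext i j
    fin_cases i <;> fin_cases j <;>
      simp [diagHom, upperU, mem_borel.1 hb, Matrix.mul_apply, Fin.sum_univ_two, -Units.val_inv_eq_inv_val, -ZMod.inv_coe_unit]
    field_simp
  rw [e, map_mul, map_mul, Module.End.mul_apply, Module.End.mul_apply, hu, theta_diag ρ hp hv]

theorem le_finrank_hom [FiniteDimensional (ZMod p) V] (hp : 3 < p) :
    Module.finrank (ZMod p) ↥(borelVec ρ) ≤ Module.finrank (ZMod p) ↥(eqHom piInd ρ) := by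
  haveI := Fintype.ofFinite (Line p)
  let ev : ↥(eqHom piInd ρ) →ₗ[ZMod p] ↥(borelVec ρ) :=
    { toFun := fun φ => ⟨_, borelVec_of_hom ρ φ.2⟩
      map_add' := fun a b => rfl
      map_smul' := fun c a => rfl }
  refine LinearMap.finrank_le_finrank_of_surjective (f := ev) ?_
  intro v
  refine ⟨⟨∑ y : Line p, ρ y.out ∘ₗ theta ρ v.1 ∘ₗ piW y.out⁻¹ ∘ₗ LinearMap.proj y,
    fun g f => ?_⟩, Subtype.ext ?_⟩
  · simp only [LinearMap.sum_apply, LinearMap.comp_apply, LinearMap.proj_apply, map_sum]
    refine (Fintype.sum_equiv (MulAction.toPerm g) _ _ fun z => ?_).symm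
    rw [MulAction.toPerm_apply, piInd_apply, inv_smul_smul]
    have hb : (g * z.out)⁻¹ * (g • z).out ∈ borel p := by
      rw [← QuotientGroup.eq, QuotientGroup.out_eq']
      conv_rhs => rw [← QuotientGroup.out_eq' z]
      rfl
    obtain ⟨b, hb', hz⟩ : ∃ b ∈ borel p, (g • z).out = g * z.out * b :=
      ⟨_, hb, by group⟩
    rw [hz, map_mul ρ, map_mul ρ, Module.End.mul_apply, Module.End.mul_apply,
      theta_borel ρ hp v.2 hb', ← Module.End.mul_apply (piW b),
      ← Module.End.mul_apply (piW b * _), ← map_mul, ← map_mul]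
    congr 4
    group
  · show (∑ y : Line p, ρ y.out ∘ₗ theta ρ v.1 ∘ₗ piW y.out⁻¹ ∘ₗ LinearMap.proj y)
      (atPt (pt0 p) (matW 0 0 1)) = v.1
    classical
    simp only [LinearMap.sum_apply, LinearMap.comp_apply, LinearMap.proj_apply, atPt_apply]
    rw [Finset.sum_eq_single (pt0 p) (fun y _ h => by simp [h]) (fun h => absurd (Finset.mem_univ _) h),
      if_pos rfl, theta_borel ρ hp v.2 (smul_pt0_eq_iff.1 (by rw [smul_pt0, QuotientGroup.out_eq'])),
      ← Module.End.mul_apply, ← map_mul, mul_inv_cancel, map_one, Module.End.one_apply, theta_matW]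
    simp

theorem finrank_hom_split [FiniteDimensional (ZMod p) V] :
    Module.finrank (ZMod p) ↥(eqHom piInd ρ) =
      (borelProbe p).dim ρ + Module.finrank (ZMod p) ↥(eqHom piW ρ) := by
  haveI := Fintype.ofFinite (Line p)
  let diag : W p →ₗ[ZMod p] Ind p := LinearMap.pi fun _ => LinearMap.id
  have hdiag : ∀ g m, piInd g (diag m) = diag (piW g m) := fun g m => rfl
  have htr : ∀ f, (borelProbe p).tr f = f - diag (total f) := fun f =>
    funext fun z => borelProbe_tr f z
  have htot : ∀ m, total (diag m) = m := fun m => by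
    rw [total_apply]
    show ∑ _y : Line p, m = m
    rw [Finset.sum_const, Finset.card_univ, ← Nat.cast_smul_eq_nsmul (ZMod p), card_line, one_smul]
  rw [Probe.dim, Probe.dimIn, ← Module.finrank_prod]
  refine LinearEquiv.finrank_eq
    { toFun := fun φ => (⟨φ.1 ∘ₗ (borelProbe p).tr, fun g f => ?_, ?_, fun _ => Submodule.mem_top⟩,
        ⟨φ.1 ∘ₗ diag, fun g m => ?_⟩)
      map_add' := fun a b => rfl
      map_smul' := fun c a => rfl
      invFun := fun q => ⟨q.1.1 + q.2.1 ∘ₗ total, fun g f => ?_⟩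
      left_inv := fun φ => Subtype.ext (LinearMap.ext fun f => ?_)
      right_inv := fun q => Prod.ext (Subtype.ext (LinearMap.ext fun f => ?_))
        (Subtype.ext (LinearMap.ext fun m => ?_)) }
  · show φ.1 ((borelProbe p).tr ((borelProbe p).π g f)) = ρ g (φ.1 ((borelProbe p).tr f))
    rw [Probe.tr_equivariant]
    exact φ.2 g _
  · refine LinearMap.ext fun f => ?_
    show φ.1 ((borelProbe p).tr ((borelProbe p).tr f)) = _
    rw [Probe.tr_tr]
    rfl
  · show φ.1 (diag (piW g m)) = ρ g (φ.1 (diag m))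
    rw [← hdiag]
    exact φ.2 g _
  · show q.1.1 (piInd g f) + q.2.1 (total (piInd g f)) = ρ g (q.1.1 f + q.2.1 (total f))
    rw [total_equivariant, map_add, ← q.2.2 g, ← q.1.2.1 g f]
    rfl
  · show φ.1 ((borelProbe p).tr f) + φ.1 (diag (total f)) = φ.1 f
    rw [htr, map_sub, sub_add_cancel]
  · show q.1.1 ((borelProbe p).tr f) + q.2.1 (total ((borelProbe p).tr f)) = q.1.1 f
    rw [htr f, map_sub (total (p := p)), htot, sub_self, map_zero, add_zero, ← htr f]
    exact LinearMap.congr_fun q.1.2.2.1 f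
  · show q.1.1 (diag m) + q.2.1 (total (diag m)) = q.2.1 m
    have : q.1.1 (diag m) = 0 := by
      rw [← LinearMap.congr_fun q.1.2.2.1 (diag m), LinearMap.comp_apply, htr, htot, sub_self,
        map_zero]
    rw [this, zero_add, htot]

/-- Frobenius reciprocity. -/
theorem finrank_borelVec [FiniteDimensional (ZMod p) V] (hp : 3 < p) :
    Module.finrank (ZMod p) ↥(borelVec ρ) =
      (borelProbe p).dim ρ + Module.finrank (ZMod p) ↥(eqHom piW ρ) := by
  rw [← finrank_hom_split]
  exact le_antisymm (le_finrank_hom ρ hp) (finrank_hom_le ρ hp)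

/-- The invariant vanishes where the action is commutative. -/
theorem dimIn_borelProbe_eq_zero (hp : 3 < p) (U : Submodule (ZMod p) V)
    (hU : ∀ g h, ∀ v ∈ U, ρ (g * h) v = ρ (h * g) v) : (borelProbe p).dimIn ρ U = 0 := by
  have h : (borelProbe p).within ρ U = ⊥ := by
    rw [eq_bot_iff]
    rintro φ ⟨hφ, -, hval⟩
    set a : Tor p := (Units.mk0 2 (two_ne_zero' hp), 1)
    set v := φ (atPt (pt0 p) (matW 0 0 1))
    have hvw := (borelVec_of_hom ρ hφ).1
    have e1 : ρ (diagHom p a) v = chiInv p a • v := hvw a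
    have e2 : ρ (diagHom p (1, a.1)) v = chiInv p (1, a.1) • v := hvw _
    have hconj : diagHom p (1, a.1) = swapU p * diagHom p a * swapU p := by
      ext i j
      fin_cases i <;> fin_cases j <;>
        simp [a, swapU, diagHom, Matrix.mul_apply, Fin.sum_univ_two, -Units.val_inv_eq_inv_val, -ZMod.inv_coe_unit]
    rw [hconj, mul_assoc, hU _ _ _ (hval _), mul_assoc, swapU_mul_self, mul_one, e1] at e2
    have hne : chiInv p a ≠ chiInv p (1, a.1) := by
      rw [chiInv_apply, chiInv_apply]
      simp only [a, Units.val_one, one_mul, inv_one, mul_one, Units.val_inv_eq_inv_val,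
        Units.val_mk0]
      intro h
      have h4 : (2 : ZMod p) * 2 = 1 := by
        nth_rewrite 1 [← h]
        exact inv_mul_cancel₀ (two_ne_zero' hp)
      have h30 : ((3 : ℕ) : ZMod p) = 0 := by push_cast; linear_combination h4
      rw [CharP.cast_eq_zero_iff (ZMod p) p] at h30
      exact absurd (Nat.le_of_dvd (by norm_num) h30) (by omega)
    have hv0 : v = 0 := by
      by_contra hv0
      exact hne (smul_left_injective (ZMod p) hv0 e2)
    exact hom_eq_zero ρ hp hφ hv0
  rw [Probe.dimIn, h, finrank_bot]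

end FLTAgent.Lowering.P1.UnitBound
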