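import Fermat.Agent.Lowering.P1.UnitBound.Units
import Fermat.Agent.Lowering.P1.Brauer.Global
import Fermat.Agent.Mazur.Value

/-!
# Kummer theory for the units outside `S`

Characters of the kernel of the residual representation which are unramified outside `S` are
Kummer characters of units outside `S`. An equivariant map out of the trace zero matrices into
the units modulo `p` gives an equivariant matrix valued character.
-/

set_option autoImplicit false
set_option linter.unusedSectionVars false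
set_option linter.style.haveILetI false

noncomputable section

open scoped Pointwise

namespace FLTAgent.Lowering.P1.UnitBound

open FLTAgent.Lowering.P1.Primes

local notation "LL" => AlgebraicClosure ℚ
local notation "GG" => (AlgebraicClosure ℚ ≃ₐ[ℚ] AlgebraicClosure ℚ)

variable (p : ℕ) [Fact p.Prime]

theorem exists_zetaP : ∃ ζ : LL, IsPrimitiveRoot ζ p := by
  haveI : NeZero (p : LL) := ⟨Nat.cast_ne_zero.2 (Fact.out : p.Prime).ne_zero⟩
  exact HasEnoughRootsOfUnity.exists_primitiveRoot LL p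

/-- A primitive `p`-th root of unity. -/
def zetaP : LL := (exists_zetaP p).choose

theorem zetaP_spec : IsPrimitiveRoot (zetaP p) p := (exists_zetaP p).choose_spec

theorem zetaP_ne : zetaP p ≠ 0 := (zetaP_spec p).ne_zero (Fact.out : p.Prime).ne_zero

variable {p}

theorem zetaP_pow_eq {a b : ZMod p} (h : zetaP p ^ a.val = zetaP p ^ b.val) : a = b :=
  ZMod.val_injective p ((zetaP_spec p).pow_inj (ZMod.val_lt _) (ZMod.val_lt _) h)

variable (D : Datum p) {S : Finset ℕ}

theorem apply_zeta {σ : GG} (h : D.rb σ = 1) {z : LL} (hz : z ^ p = 1) : σ z = z := by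
  rw [D.det_cyclo _ _ hz, h, Units.val_one, Matrix.det_one, ZMod.val_one, pow_one]

theorem unit_val_ne (a : UnitMod D S) : val D a ≠ 0 := ((Additive.toMul a : ↥(sUnits D S)).1).ne_zero

/-- A root of a unit. -/
def root (a : UnitMod D S) : LL :=
  (IsAlgClosed.exists_pow_nat_eq (val D a) (Fact.out : p.Prime).pos).choose

theorem root_pow (a : UnitMod D S) : root D a ^ p = val D a :=
  (IsAlgClosed.exists_pow_nat_eq (val D a) (Fact.out : p.Prime).pos).choose_spec

theorem root_ne (a : UnitMod D S) : root D a ≠ 0 := fun h =>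
  unit_val_ne D a (by rw [← root_pow, h, zero_pow (Fact.out : p.Prime).ne_zero])

/-- The exponent of a multiple of the root. -/
def kapVal (a : UnitMod D S) (x : LL) : ZMod p :=
  haveI := Classical.propDecidable (∃ i : ZMod p, x = zetaP p ^ i.val * root D a)
  if h : ∃ i : ZMod p, x = zetaP p ^ i.val * root D a then h.choose else 0

/-- The Kummer character. -/
def kap (a : UnitMod D S) (σ : GG) : ZMod p := kapVal D a (σ (root D a))

theorem exists_apply_root (a : UnitMod D S) {σ : GG} (h : D.rb σ = 1) {r : LL}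
    (hr : r ^ p = val D a) : ∃ i : ZMod p, σ r = zetaP p ^ i.val * r := by
  have hr0 : r ≠ 0 := fun e => unit_val_ne D a (by
    rw [← hr, e, zero_pow (Fact.out : p.Prime).ne_zero])
  have h1 : (σ r / r) ^ p = 1 := by
    rw [div_pow, ← map_pow, hr,
      show σ (val D a) = val D a from (Additive.toMul a : ↥(sUnits D S)).2.1 σ h]
    exact div_self (unit_val_ne D a)
  obtain ⟨i, hi, e⟩ := (zetaP_spec p).eq_pow_of_pow_eq_one h1
  exact ⟨(i : ZMod p), by rw [ZMod.val_cast_of_lt hi, e, div_mul_cancel₀ _ hr0]⟩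

theorem apply_root (a : UnitMod D S) {σ : GG} (h : D.rb σ = 1) {r : LL} (hr : r ^ p = val D a) :
    σ r = zetaP p ^ (kap D a σ).val * r := by
  have hex := exists_apply_root D a h (root_pow D a)
  have hs : σ (root D a) = zetaP p ^ (kap D a σ).val * root D a := by
    rw [kap, kapVal, dif_pos hex]
    exact hex.choose_spec
  have h1 : (r / root D a) ^ p = 1 := by
    rw [div_pow, hr, root_pow, div_self (unit_val_ne D a)]
  have e : r = r / root D a * root D a := (div_mul_cancel₀ _ (root_ne D a)).symm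
  rw [e, map_mul, hs, apply_zeta D h h1]
  ring

theorem kap_eq (a : UnitMod D S) {σ : GG} (h : D.rb σ = 1) {r : LL} (hr : r ^ p = val D a)
    {i : ZMod p} (hi : σ r = zetaP p ^ i.val * r) : kap D a σ = i := by
  have hr0 : r ≠ 0 := fun e => unit_val_ne D a (by
    rw [← hr, e, zero_pow (Fact.out : p.Prime).ne_zero])
  rw [apply_root D a h hr] at hi
  exact zetaP_pow_eq (mul_right_cancel₀ hr0 hi)

theorem kap_of_fix (a : UnitMod D S) (σ : GG) {s : GG} (hs : s (root D a) = root D a) :
    kap D a (σ * s) = kap D a σ := by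
  simp only [kap, AlgEquiv.mul_apply, hs]

theorem kap_add (a b : UnitMod D S) {σ : GG} (h : D.rb σ = 1) :
    kap D (a + b) σ = kap D a σ + kap D b σ := by
  refine kap_eq D (a + b) h (r := root D a * root D b) ?_ ?_
  · rw [mul_pow, root_pow, root_pow]
    rfl
  · rw [map_mul, apply_root D a h (root_pow D a), apply_root D b h (root_pow D b),
      Brauer.zeta_pow_val_add (zetaP_spec p)]
    ring

theorem kap_mul (a : UnitMod D S) {σ τ : GG} (h : D.rb σ = 1) (h' : D.rb τ = 1) :
    kap D a (σ * τ) = kap D a σ + kap D a τ := by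
  refine kap_eq D a (by rw [map_mul, h, h', one_mul]) (root_pow D a) ?_
  rw [AlgEquiv.mul_apply, apply_root D a h' (root_pow D a), map_mul, map_pow,
    apply_root D a h (root_pow D a), apply_zeta D h (zetaP_spec p).pow_eq_one,
    Brauer.zeta_pow_val_add (zetaP_spec p)]
  ring

theorem kap_conj (a : UnitMod D S) (τ : GG) {σ : GG} (h : D.rb σ = 1) :
    kap D (actU D S (D.rb τ) a) (τ * σ * τ⁻¹) = D.om τ * kap D a σ := by
  refine kap_eq D _ (by rw [map_mul, map_mul, h, mul_one, map_inv, mul_inv_cancel])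
    (r := τ (root D a)) (by rw [← map_pow, root_pow, val_actU]) ?_
  rw [AlgEquiv.mul_apply, AlgEquiv.mul_apply,
    show (τ⁻¹ : GG) (τ (root D a)) = root D a from τ.symm_apply_apply _,
    apply_root D a h (root_pow D a), map_mul, map_pow,
    D.det_cyclo τ _ (zetaP_spec p).pow_eq_one, ← pow_mul]
  congr 1
  rw [show (D.om τ * kap D a σ).val = (D.om τ).val * (kap D a σ).val % p from ZMod.val_mul _ _,
    ← pow_eq_pow_mod _ (zetaP_spec p).pow_eq_one]
  rfl

theorem root_valuation_eq_one (a : UnitMod D S) {l : ℕ} (hl : l.Prime) (hlS : l ∉ S)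
    {V : ValuationSubring LL} (hV : V.LiesOverPrime l) : V.valuation (root D a) = 1 := by
  have h : V.valuation (root D a) ^ p = 1 := by
    rw [← map_pow, root_pow]
    exact (Additive.toMul a : ↥(sUnits D S)).2.2 l hl hlS V hV
  exact (pow_eq_one_iff.1 h).resolve_right (Fact.out : p.Prime).ne_zero

theorem eq_zero_of_valuation_sub_lt {l : ℕ} (hl : l.Prime) (hlp : l ≠ p)
    {V : ValuationSubring LL} (hV : V.LiesOverPrime l) {i : ZMod p}
    (h : V.valuation (zetaP p ^ i.val - 1) < 1) : i = 0 := by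
  by_contra hi
  have hpr : p.Prime := Fact.out
  set z := zetaP p ^ i.val
  have hz : IsPrimitiveRoot z p :=
    (zetaP_spec p).pow_of_coprime _ (((Nat.Prime.coprime_iff_not_dvd hpr).2 fun hd =>
      hi (by rw [← ZMod.natCast_zmod_val i, (CharP.cast_eq_zero_iff (ZMod p) p _).2 hd])).symm)
  have hsum : (p : LL) = ∑ j ∈ Finset.range p, (1 - z ^ j) := by
    rw [Finset.sum_sub_distrib, hz.geom_sum_eq_zero hpr.one_lt, sub_zero, Finset.sum_const,
      Finset.card_range, nsmul_eq_mul, mul_one]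
  have hint : ∀ j, V.valuation (∑ i' ∈ Finset.range j, z ^ i') ≤ 1 := fun j =>
    Valuation.map_sum_le _ fun i' _ => by
      rw [map_pow]
      have hz1 : V.valuation z = 1 := (pow_eq_one_iff.1 (by
        rw [← map_pow, hz.pow_eq_one, map_one])).resolve_right hpr.ne_zero
      rw [hz1, one_pow]
  have hlt : V.valuation (p : LL) < 1 := by
    rw [hsum]
    refine Valuation.map_sum_lt _ one_ne_zero fun j _ => ?_
    rw [← neg_sub, Valuation.map_neg, ← geom_sum_mul, map_mul]
    exact (mul_le_of_le_one_left' (hint j)).trans_lt h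
  rw [Brauer.valuation_natCast_eq_one hl hV (fun hd =>
    hlp ((Nat.prime_dvd_prime_iff_eq hl hpr).1 hd))] at hlt
  exact lt_irrefl _ hlt

theorem kap_inertia (a : UnitMod D S) {l : ℕ} (hl : l.Prime) (hlS : l ∉ S) (hlp : l ≠ p)
    {V : ValuationSubring LL} (hV : V.LiesOverPrime l) {σ : GG}
    (hσ : σ ∈ V.inertiaSubgroupIn ℚ) (h : D.rb σ = 1) : kap D a σ = 0 := by
  refine eq_zero_of_valuation_sub_lt hl hlp hV ?_
  have h1 := root_valuation_eq_one D a hl hlS hV
  have h2 := V.mem_nonunits_iff.1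
    (((Places.mem_inertia_iff V).1 hσ).2 (root D a) ((V.valuation_le_one_iff _).1 h1.le))
  rw [apply_root D a h (root_pow D a), ← sub_one_mul, map_mul, h1, mul_one] at h2
  exact h2

theorem exists_nsmul_of_kap (a : UnitMod D S) (h : ∀ σ : GG, D.rb σ = 1 → kap D a σ = 0) :
    ∃ y : UnitMod D S, p • y = a := by
  have hfix : IsFixed D (root D a) := fun σ hσ => by
    rw [apply_root D a hσ (root_pow D a), h σ hσ, ZMod.val_zero, pow_zero, one_mul]
  refine ⟨Additive.ofMul ⟨Units.mk0 _ (root_ne D a),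
    hfix, fun l hl hlS V hV => root_valuation_eq_one D a hl hlS hV⟩, ?_⟩
  apply val_injective'
  rw [units_val_nsmul]
  exact root_pow D a

/-- The Kummer map modulo `p`. -/
def kapHom : ModP p (UnitMod D S) →ₗ[ZMod p] (↥D.rb.ker → ZMod p) :=
  let κ₀ : UnitMod D S →+ (↥D.rb.ker → ZMod p) :=
    AddMonoidHom.mk' (fun a σ => kap D a σ.1) fun a b => funext fun σ => kap_add D a b σ.2
  AddMonoidHom.toZModLinearMap p (QuotientAddGroup.lift _ κ₀ (by
    rintro _ ⟨y, rfl⟩
    show κ₀ (p • y) = 0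
    rw [map_nsmul, ← Nat.cast_smul_eq_nsmul (ZMod p), CharP.cast_eq_zero, zero_smul]))

theorem kapHom_mk (a : UnitMod D S) (σ : ↥D.rb.ker) :
    kapHom D (QuotientAddGroup.mk a) σ = kap D a σ.1 := rfl

theorem kapHom_injective : Function.Injective (kapHom D (S := S)) := by
  refine (injective_iff_map_eq_zero _).2 fun v hv => ?_
  induction v using QuotientAddGroup.induction_on with
  | H a =>
    obtain ⟨y, hy⟩ := exists_nsmul_of_kap D a fun σ hσ => congrFun hv ⟨σ, hσ⟩
    exact mk_eq_zero_iff.2 ⟨y, hy⟩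

/-- Every character unramified outside `S` comes from a unit outside `S`. -/
theorem exists_unit_of_char (hS : D.bad ⊆ S)
    (hsplit : ∀ α : LL, α ≠ 0 → IsFixed D α →
      (∀ l : ℕ, l.Prime → l ∉ S → ∀ V : ValuationSubring LL, V.LiesOverPrime l →
        ∃ m : ℤ, V.valuation α = V.valuation ((l : LL) ^ ((p : ℤ) * m))) →
      ∃ (u : UnitMod D S) (y : LL), IsFixed D y ∧ y ≠ 0 ∧ α = val D u * y ^ p)
    (f : GG → ZMod p) (hf : ∀ σ τ, D.rb σ = 1 → D.rb τ = 1 → f (σ * τ) = f σ + f τ)
    (hlev : Brauer.LevOn D.rb.ker f)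
    (hun : ∀ l : ℕ, l.Prime → l ∉ S → ∀ V : ValuationSubring LL, V.LiesOverPrime l →
      ∀ σ ∈ V.inertiaSubgroupIn ℚ, f σ = 0) :
    ∃ u : UnitMod D S, ∀ σ : GG, D.rb σ = 1 → f σ = kap D u σ := by
  obtain ⟨α, hα0, hα, hαp⟩ := Brauer.exists_kummer (H := D.rb.ker) (zetaP_spec p)
    (fun σ hσ => apply_zeta D hσ (zetaP_spec p).pow_eq_one) (fun σ hσ τ hτ => hf σ τ hσ hτ) hlev
  obtain ⟨u, y, hy, hy0, hu⟩ := hsplit (α ^ p) (pow_ne_zero _ hα0) (fun σ hσ => hαp σ hσ)
    fun l hl hlS V hV => by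
      obtain ⟨i, hi⟩ := Mazur.exists_zpow_valuation V hl hV hα0 fun σ hσ => by
        rw [hα σ (D.unramified l hl (fun h => hlS (hS h)) V hV σ hσ),
          hun l hl hlS V hV σ hσ, ZMod.val_zero, pow_zero, one_mul]
      exact ⟨i, by rw [map_pow, hi, map_zpow₀, ← zpow_natCast, ← zpow_mul, mul_comm]⟩
  refine ⟨u, fun σ hσ => (kap_eq D u hσ (r := α / y) ?_ ?_).symm⟩
  · rw [div_pow, hu, mul_div_cancel_right₀ _ (pow_ne_zero _ hy0)]
  · rw [map_div₀, hα σ hσ, hy σ hσ, mul_div_assoc]

/-! ### Matrix valued characters -/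

variable (p) in
/-- The matrix of a functional for the trace pairing. -/
def toW : (W p →ₗ[ZMod p] ZMod p) →ₗ[ZMod p] W p where
  toFun L := matW ((2 : ZMod p)⁻¹ * L (matW 1 0 0)) (L (matW 0 0 1)) (L (matW 0 1 0))
  map_add' a b := by
    refine Subtype.ext ?_
    ext i j
    fin_cases i <;> fin_cases j <;> simp [matW, mul_add]
    ring
  map_smul' c a := by
    refine Subtype.ext ?_
    ext i j
    fin_cases i <;> fin_cases j <;> simp [matW] <;> ring

theorem trace_toW (hp : 3 < p) (L : W p →ₗ[ZMod p] ZMod p) (m : W p) :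
    Matrix.trace ((toW p L).1 * m.1) = L m := by
  have h2 := two_ne_zero' hp
  obtain ⟨a, b, c, rfl⟩ : ∃ a b c, m = matW a b c := ⟨_, _, _, eq_matW m⟩
  have e : matW a b c = a • matW (1 : ZMod p) 0 0 + b • matW (0 : ZMod p) 1 0 +
      c • matW (0 : ZMod p) 0 1 := by
    refine Subtype.ext ?_
    ext i j
    fin_cases i <;> fin_cases j <;> simp [matW]
  conv_rhs => rw [e, map_add, map_add, map_smul, map_smul, map_smul]
  simp [toW, matW, Matrix.trace_fin_two, Matrix.mul_apply, Fin.sum_univ_two]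
  field_simp
  ring

/-- The matrix valued character of a homomorphism. -/
def charMat : (W p →ₗ[ZMod p] ModP p (UnitMod D S)) →ₗ[ZMod p] (↥D.rb.ker → W p) where
  toFun φ σ := toW p (LinearMap.proj σ ∘ₗ kapHom D ∘ₗ φ)
  map_add' a b := funext fun σ => by simp [LinearMap.comp_add]
  map_smul' c a := funext fun σ => by simp [LinearMap.comp_smul]

theorem trace_charMat (φ : W p →ₗ[ZMod p] ModP p (UnitMod D S)) (σ : ↥D.rb.ker) (m : W p) :
    Matrix.trace ((charMat D φ σ).1 * m.1) = kapHom D (φ m) σ :=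
  trace_toW D.p_gt _ m

theorem charMat_injective : Function.Injective (charMat D (S := S)) := by
  refine (injective_iff_map_eq_zero _).2 fun φ hφ => LinearMap.ext fun m =>
    kapHom_injective D ?_
  rw [LinearMap.zero_apply, map_zero]
  funext σ
  rw [← trace_charMat, hφ]
  simp

theorem kap_one (a : UnitMod D S) : kap D a 1 = 0 := by
  refine kap_eq D a (map_one _) (root_pow D a) ?_
  rw [AlgEquiv.one_apply, ZMod.val_zero, pow_zero, one_mul]

theorem charMat_mul (φ : W p →ₗ[ZMod p] ModP p (UnitMod D S)) (σ τ : ↥D.rb.ker) :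
    charMat D φ (σ * τ) = charMat D φ σ + charMat D φ τ := by
  refine sub_eq_zero.1 (eq_zero_of_trace D.p_gt fun m => ?_)
  rw [Submodule.coe_sub, Submodule.coe_add, Matrix.sub_mul, Matrix.add_mul, Matrix.trace_sub,
    Matrix.trace_add, trace_charMat, trace_charMat, trace_charMat, sub_eq_zero]
  induction φ m using QuotientAddGroup.induction_on with
  | H a => exact kap_mul D a σ.2 τ.2

theorem charMat_conj {φ : W p →ₗ[ZMod p] ModP p (UnitMod D S)}
    (hφ : φ ∈ eqHom piW (modPRep (p := p) (actU D S))) (τ : GG) (σ : ↥D.rb.ker)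
    (σ' : ↥D.rb.ker) (hσ' : (σ' : GG) = τ * σ * τ⁻¹) :
    (charMat D φ σ').1 = D.tw (ZMod p) 1 τ (charMat D φ σ).1 := by
  have h0 : Matrix.trace (D.tw (ZMod p) 1 τ (charMat D φ σ).1) = 0 :=
    trace_tw D (ZMod p) 1 τ (by
      have := (charMat D φ σ).2
      exact LinearMap.mem_ker.1 this)
  have key := eq_zero_of_trace D.p_gt
    (m := charMat D φ σ' - ⟨_, show D.tw (ZMod p) 1 τ (charMat D φ σ).1 ∈
      Datum.trZero (ZMod p) from h0⟩) fun w => by
    obtain ⟨m, rfl⟩ : ∃ m, piW (D.rb τ) m = w := ⟨piW (D.rb τ)⁻¹ w, by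
      rw [← Module.End.mul_apply, ← map_mul, mul_inv_cancel, map_one, Module.End.one_apply]⟩
    rw [Submodule.coe_sub, Matrix.sub_mul, Matrix.trace_sub, trace_charMat, hφ, sub_eq_zero]
    show _ = Matrix.trace (D.tw (ZMod p) 1 τ (charMat D φ σ).1 * D.tw (ZMod p) 0 τ m.1)
    rw [Matrix.trace_mul_comm, trace_tw_mul, Matrix.trace_mul_comm, trace_charMat]
    induction φ m using QuotientAddGroup.induction_on with
    | H a =>
      rw [modPRep_mk, kapHom_mk, kapHom_mk, hσ', kap_conj D a τ σ.2]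
      rfl
  exact congrArg Subtype.val (sub_eq_zero.1 key)

theorem charMat_eq_zero (φ : W p →ₗ[ZMod p] ModP p (UnitMod D S)) (σ : ↥D.rb.ker)
    (h : ∀ a : UnitMod D S, kap D a σ.1 = 0) : charMat D φ σ = 0 := by
  refine eq_zero_of_trace D.p_gt fun m => ?_
  rw [trace_charMat]
  induction φ m using QuotientAddGroup.induction_on with
  | H a => exact h a

/-- The character is constant near the identity. -/
theorem charMat_level (φ : W p →ₗ[ZMod p] ModP p (UnitMod D S)) :
    ∃ F : IntermediateField ℚ LL, FiniteDimensional ℚ F ∧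
      ∀ σ : GG, σ ∈ F.fixingSubgroup → ∀ h : D.rb σ = 1, charMat D φ ⟨σ, h⟩ = 0 := by
  obtain ⟨a₀, ha₀⟩ := QuotientAddGroup.mk_surjective (φ (matW 1 0 0))
  obtain ⟨a₁, ha₁⟩ := QuotientAddGroup.mk_surjective (φ (matW 0 1 0))
  obtain ⟨a₂, ha₂⟩ := QuotientAddGroup.mk_surjective (φ (matW 0 0 1))
  refine ⟨IntermediateField.adjoin ℚ {root D a₀, root D a₁, root D a₂},
    IntermediateField.finiteDimensional_adjoin fun x _ => Brauer.integral_coe x,
    fun σ hσ h => ?_⟩
  rw [IntermediateField.mem_fixingSubgroup_iff] at hσ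
  have hk : ∀ a ∈ ({a₀, a₁, a₂} : Set (UnitMod D S)), kap D a σ = 0 := fun a ha => by
    have hx : σ (root D a) = root D a := hσ _ (IntermediateField.subset_adjoin _ _ (by
      rcases ha with rfl | rfl | rfl <;> simp))
    rw [← one_mul σ, kap_of_fix D a 1 hx, kap_one]
  have h0 : kapHom D (φ (matW 1 0 0)) ⟨σ, h⟩ = 0 := by
    rw [← ha₀, kapHom_mk]; exact hk _ (by simp)
  have h1 : kapHom D (φ (matW 0 1 0)) ⟨σ, h⟩ = 0 := by
    rw [← ha₁, kapHom_mk]; exact hk _ (by simp)
  have h2 : kapHom D (φ (matW 0 0 1)) ⟨σ, h⟩ = 0 := by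
    rw [← ha₂, kapHom_mk]; exact hk _ (by simp)
  refine Subtype.ext ?_
  show (matW ((2 : ZMod p)⁻¹ * kapHom D (φ (matW 1 0 0)) ⟨σ, h⟩)
    (kapHom D (φ (matW 0 0 1)) ⟨σ, h⟩) (kapHom D (φ (matW 0 1 0)) ⟨σ, h⟩)).1 = 0
  rw [h0, h1, h2]
  ext i j
  fin_cases i <;> fin_cases j <;> simp [matW]

end FLTAgent.Lowering.P1.UnitBound
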