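import Mathlib

/-!
# Exact invariants of representations modulo `p`

Homomorphisms out of a representation through the trace of an endomorphism form an exact functor.
So their dimension on a lattice modulo `p` does not depend on the lattice.
-/

set_option autoImplicit false
set_option linter.unusedSectionVars false
set_option linter.style.haveILetI false

noncomputable section

namespace FLTAgent.Lowering.P1.UnitBound

variable {p : ℕ} [Fact p.Prime] {Γ : Type} [Group Γ] [Fintype Γ]
  {P : Type} [AddCommGroup P] [Module (ZMod p) P] [Module.Finite (ZMod p) P]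
  {V : Type} [AddCommGroup V] [Module (ZMod p) V]
  {V' : Type} [AddCommGroup V'] [Module (ZMod p) V']

/-- Equivariant linear maps. -/
def eqHom (π : Representation (ZMod p) Γ P) (ρ : Representation (ZMod p) Γ V) :
    Submodule (ZMod p) (P →ₗ[ZMod p] V) where
  carrier := {φ | ∀ g x, φ (π g x) = ρ g (φ x)}
  zero_mem' := fun g x => by simp
  add_mem' := fun {a b} ha hb g x => by simp [ha g x, hb g x]
  smul_mem' := fun c a ha g x => by simp [ha g x]

theorem mem_eqHom {π : Representation (ZMod p) Γ P} {ρ : Representation (ZMod p) Γ V}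
    {φ : P →ₗ[ZMod p] V} : φ ∈ eqHom π ρ ↔ ∀ g x, φ (π g x) = ρ g (φ x) :=
  Iff.rfl

/-- A representation with an endomorphism whose trace is idempotent. -/
structure Probe (p : ℕ) [Fact p.Prime] (Γ : Type) [Group Γ] [Fintype Γ] (P : Type)
    [AddCommGroup P] [Module (ZMod p) P] where
  π : Representation (ZMod p) Γ P
  e : P →ₗ[ZMod p] P
  idem : ∀ x, (∑ g : Γ, π g (e (π g⁻¹ (∑ h : Γ, π h (e (π h⁻¹ x)))))) =
    ∑ h : Γ, π h (e (π h⁻¹ x))

namespace Probe

variable (E : Probe p Γ P)

/-- The trace of the endomorphism. -/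
def tr : P →ₗ[ZMod p] P := ∑ g : Γ, E.π g ∘ₗ E.e ∘ₗ E.π g⁻¹

theorem tr_apply (x : P) : E.tr x = ∑ g : Γ, E.π g (E.e (E.π g⁻¹ x)) := by
  simp [tr]

theorem tr_tr (x : P) : E.tr (E.tr x) = E.tr x := by
  simp only [tr_apply]
  exact E.idem x

theorem tr_equivariant (g : Γ) (x : P) : E.tr (E.π g x) = E.π g (E.tr x) := by
  rw [tr_apply, tr_apply, map_sum]
  refine (Fintype.sum_equiv (Equiv.mulLeft g) _ _ fun h => ?_).symm
  simp only [Equiv.coe_mulLeft, map_mul, mul_inv_rev, Module.End.mul_apply]
  rw [← Module.End.mul_apply (E.π g⁻¹) (E.π g) x, ← map_mul, inv_mul_cancel, map_one,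
    Module.End.one_apply]

/-- The probe inside a subspace. -/
def within (ρ : Representation (ZMod p) Γ V) (U : Submodule (ZMod p) V) :
    Submodule (ZMod p) (P →ₗ[ZMod p] V) where
  carrier := {φ | φ ∈ eqHom E.π ρ ∧ φ ∘ₗ E.tr = φ ∧ ∀ x, φ x ∈ U}
  zero_mem' := ⟨zero_mem _, LinearMap.zero_comp _, fun _ => U.zero_mem⟩
  add_mem' := fun {a b} ha hb => ⟨add_mem ha.1 hb.1, by rw [LinearMap.add_comp, ha.2.1, hb.2.1],
    fun x => U.add_mem (ha.2.2 x) (hb.2.2 x)⟩
  smul_mem' := fun c a ha => ⟨Submodule.smul_mem _ c ha.1, by rw [LinearMap.smul_comp, ha.2.1],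
    fun x => U.smul_mem c (ha.2.2 x)⟩

/-- The invariant. -/
def dimIn (ρ : Representation (ZMod p) Γ V) (U : Submodule (ZMod p) V) : ℕ :=
  Module.finrank (ZMod p) ↥(E.within ρ U)

/-- The invariant of the whole space. -/
def dim (ρ : Representation (ZMod p) Γ V) : ℕ := E.dimIn ρ ⊤

/-- Exactness. -/
theorem dim_ker_add_range [FiniteDimensional (ZMod p) V] (ρ : Representation (ZMod p) Γ V)
    (ρ' : Representation (ZMod p) Γ V') (a : V →ₗ[ZMod p] V') (ha : ∀ g v, a (ρ g v) = ρ' g (a v)) :
    E.dim ρ = E.dimIn ρ (LinearMap.ker a) + E.dimIn ρ' (LinearMap.range a) := by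
  let F : ↥(E.within ρ ⊤) →ₗ[ZMod p] ↥(E.within ρ' (LinearMap.range a)) :=
    ((LinearMap.llcomp (ZMod p) P V V' a).comp (E.within ρ ⊤).subtype).codRestrict _ fun φ =>
      ⟨fun g x => by
          show a (φ.1 (E.π g x)) = ρ' g (a (φ.1 x))
          rw [φ.2.1 g x, ha],
        by show (a ∘ₗ φ.1) ∘ₗ E.tr = _; rw [LinearMap.comp_assoc, φ.2.2.1]; rfl,
        fun x => ⟨φ.1 x, rfl⟩⟩
  have hsurj : Function.Surjective F := fun φ => by
    obtain ⟨θ, hθ⟩ := Module.projective_lifting_property (a.rangeRestrict)
      (φ.1.codRestrict (LinearMap.range a) φ.2.2.2) a.surjective_rangeRestrict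
    have hθ' : ∀ x, a (θ x) = φ.1 x := fun x =>
      congrArg Subtype.val (LinearMap.congr_fun hθ x)
    let ψ₀ : P →ₗ[ZMod p] V := ∑ g : Γ, ρ g ∘ₗ θ ∘ₗ E.e ∘ₗ E.π g⁻¹
    have hψ₀ : ∀ g x, ψ₀ (E.π g x) = ρ g (ψ₀ x) := fun g x => by
      simp only [ψ₀, LinearMap.sum_apply, LinearMap.comp_apply, map_sum]
      refine (Fintype.sum_equiv (Equiv.mulLeft g) _ _ fun h => ?_).symm
      simp only [Equiv.coe_mulLeft, map_mul, mul_inv_rev, Module.End.mul_apply]
      rw [← Module.End.mul_apply (E.π g⁻¹) (E.π g) x, ← map_mul, inv_mul_cancel, map_one,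
        Module.End.one_apply]
    refine ⟨⟨ψ₀ ∘ₗ E.tr, fun g x => ?_, ?_, fun _ => Submodule.mem_top⟩, Subtype.ext ?_⟩
    · show ψ₀ (E.tr (E.π g x)) = ρ g (ψ₀ (E.tr x))
      rw [tr_equivariant, hψ₀]
    · refine LinearMap.ext fun x => ?_
      show ψ₀ (E.tr (E.tr x)) = ψ₀ (E.tr x)
      rw [tr_tr]
    · refine LinearMap.ext fun x => ?_
      show a (ψ₀ (E.tr x)) = φ.1 x
      have h1 : ∀ y, a (ψ₀ y) = φ.1 (E.tr y) := fun y => by
        simp only [ψ₀, LinearMap.sum_apply, LinearMap.comp_apply, map_sum, ha, hθ', tr_apply]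
        exact Finset.sum_congr rfl fun g _ => (φ.2.1 g _).symm
      rw [h1, tr_tr]
      exact LinearMap.congr_fun φ.2.2.1 x
  have hker : LinearMap.ker F = (E.within ρ (LinearMap.ker a)).comap (E.within ρ ⊤).subtype := by
    ext φ
    rw [LinearMap.mem_ker, Submodule.mem_comap]
    constructor
    · intro h
      exact ⟨φ.2.1, φ.2.2.1, fun x => LinearMap.mem_ker.2
        (LinearMap.congr_fun (congrArg Subtype.val h) x)⟩
    · intro h
      exact Subtype.ext (LinearMap.ext fun x => LinearMap.mem_ker.1 (h.2.2 x))
  have h := LinearMap.finrank_range_add_finrank_ker F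
  rw [LinearMap.range_eq_top.2 hsurj, finrank_top, hker] at h
  have hle : E.within ρ (LinearMap.ker a) ≤ E.within ρ ⊤ := fun φ hφ =>
    ⟨hφ.1, hφ.2.1, fun _ => Submodule.mem_top⟩
  rw [LinearEquiv.finrank_eq (Submodule.comapSubtypeEquivOfLe hle)] at h
  simp only [dim, dimIn]
  omega

theorem dimIn_bot (ρ : Representation (ZMod p) Γ V) : E.dimIn ρ ⊥ = 0 := by
  have h : E.within ρ ⊥ = ⊥ := by
    rw [eq_bot_iff]
    exact fun φ hφ => LinearMap.ext fun x => by simpa using hφ.2.2 x
  rw [dimIn, h, finrank_bot]

/-- Isomorphism invariance. -/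
theorem dim_eq_of_bijective [FiniteDimensional (ZMod p) V] (ρ : Representation (ZMod p) Γ V)
    (ρ' : Representation (ZMod p) Γ V') (a : V →ₗ[ZMod p] V') (ha : ∀ g v, a (ρ g v) = ρ' g (a v))
    (hb : Function.Bijective a) : E.dim ρ = E.dim ρ' := by
  rw [E.dim_ker_add_range ρ ρ' a ha, LinearMap.ker_eq_bot.2 hb.1,
    LinearMap.range_eq_top.2 hb.2, dimIn_bot, zero_add]
  rfl

/-- Two maps in a cycle, exact at both places. -/
theorem dim_eq_of_cycle [FiniteDimensional (ZMod p) V] [FiniteDimensional (ZMod p) V']
    (ρ : Representation (ZMod p) Γ V) (ρ' : Representation (ZMod p) Γ V') (a : V →ₗ[ZMod p] V')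
    (ha : ∀ g v, a (ρ g v) = ρ' g (a v)) (b : V' →ₗ[ZMod p] V)
    (hb : ∀ g v, b (ρ' g v) = ρ g (b v)) (h₁ : LinearMap.ker a = LinearMap.range b)
    (h₂ : LinearMap.ker b = LinearMap.range a) : E.dim ρ = E.dim ρ' := by
  rw [E.dim_ker_add_range ρ ρ' a ha, E.dim_ker_add_range ρ' ρ b hb, h₁, h₂, add_comm]

end Probe

/-! ### Lattices modulo `p` -/

section Lattice

variable {M : Type} [AddCommGroup M]

/-- A group modulo `p`. -/
abbrev ModP (p : ℕ) (M : Type) [AddCommGroup M] : Type :=
  M ⧸ (nsmulAddMonoidHom p : M →+ M).range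

instance moduleModP : Module (ZMod p) (ModP p M) :=
  AddCommGroup.zmodModule fun x => by
    induction x using QuotientAddGroup.induction_on with
    | H m =>
      rw [← QuotientAddGroup.mk_nsmul]
      exact (QuotientAddGroup.eq_zero_iff _).2 ⟨m, rfl⟩

theorem mk_eq_zero_iff {m : M} : (QuotientAddGroup.mk m : ModP p M) = 0 ↔ ∃ y, p • y = m :=
  QuotientAddGroup.eq_zero_iff m

/-- The map modulo `p` of a map. -/
def modPMap {M' : Type} [AddCommGroup M'] (f : M →+ M') : ModP p M →ₗ[ZMod p] ModP p M' :=
  AddMonoidHom.toZModLinearMap p (QuotientAddGroup.map _ _ f (by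
    rintro _ ⟨y, rfl⟩
    exact ⟨f y, (map_nsmul f p y).symm⟩))

theorem modPMap_mk {M' : Type} [AddCommGroup M'] (f : M →+ M') (m : M) :
    modPMap (p := p) f (QuotientAddGroup.mk m) = QuotientAddGroup.mk (f m) := rfl

/-- An action by automorphisms gives a representation modulo `p`. -/
def modPRep (α : Γ →* AddMonoid.End M) : Representation (ZMod p) Γ (ModP p M) where
  toFun g := modPMap (α g)
  map_one' := LinearMap.ext fun x => by
    induction x using QuotientAddGroup.induction_on with
    | H m => show (QuotientAddGroup.mk (α 1 m) : ModP p M) = _; rw [map_one]; rfl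
  map_mul' g h := LinearMap.ext fun x => by
    induction x using QuotientAddGroup.induction_on with
    | H m => show (QuotientAddGroup.mk (α (g * h) m) : ModP p M) = _; rw [map_mul]; rfl

theorem modPRep_mk (α : Γ →* AddMonoid.End M) (g : Γ) (m : M) :
    modPRep (p := p) α g (QuotientAddGroup.mk m) = QuotientAddGroup.mk (α g m) := rfl

theorem modP_intertwine {M' : Type} [AddCommGroup M'] (α : Γ →* AddMonoid.End M)
    (α' : Γ →* AddMonoid.End M') (f : M →+ M') (hf : ∀ g m, f (α g m) = α' g (f m)) (g : Γ)
    (v : ModP p M) : modPMap f (modPRep α g v) = modPRep α' g (modPMap f v) := by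
  induction v using QuotientAddGroup.induction_on with
  | H m => rw [modPRep_mk, modPMap_mk, modPMap_mk, modPRep_mk, hf]

instance finite_modP [Module.Finite ℤ M] : Module.Finite (ZMod p) (ModP p M) := by
  haveI : Module.Finite ℤ (ModP p M) := Module.Finite.of_surjective
    (QuotientAddGroup.mk' (nsmulAddMonoidHom p : M →+ M).range).toIntLinearMap
    (QuotientAddGroup.mk'_surjective _)
  exact Module.Finite.of_restrictScalars_finite ℤ (ZMod p) _

theorem finite_subgroup [Module.Finite ℤ M] (N : AddSubgroup M) : Module.Finite ℤ N :=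
  Module.Finite.of_injective N.subtype.toIntLinearMap Subtype.val_injective

/-- A stable sublattice of finite index has the same invariant. -/
theorem Probe.dim_modP_of_index (E : Probe p Γ P) :
    ∀ (n : ℕ) (M : Type) [AddCommGroup M] [Module.Finite ℤ M] [IsAddTorsionFree M]
      (α : Γ →* AddMonoid.End M) (N : AddSubgroup M) (hN : ∀ g, ∀ m ∈ N, α g m ∈ N),
      N.index = n → n ≠ 0 →
      ∀ (β : Γ →* AddMonoid.End N), (∀ g (m : N), (β g m : M) = α g m) →
        E.dim (modPRep (p := p) β) = E.dim (modPRep (p := p) α) := by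
  intro n
  induction n using Nat.strong_induction_on with
  | _ n ih =>
    intro M _ _ _ α N hN hidx hn β hβ
    haveI : Module.Finite ℤ N := finite_subgroup N
    set N₁ : AddSubgroup M := N ⊔ (nsmulAddMonoidHom p : M →+ M).range
    have hN₁ : ∀ g, ∀ m ∈ N₁, α g m ∈ N₁ := by
      intro g m hm
      obtain ⟨a, ha, _, ⟨b, rfl⟩, rfl⟩ := AddSubgroup.mem_sup.1 hm
      rw [map_add]
      exact add_mem (le_sup_left (α := AddSubgroup M) (hN g a ha))
        (le_sup_right (α := AddSubgroup M) ⟨α g b, (map_nsmul (α g) p b).symm⟩)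
    by_cases htop : N₁ = ⊤
    · refine E.dim_eq_of_bijective _ _ (modPMap N.subtype)
        (modP_intertwine β α N.subtype fun g m => hβ g m) ⟨?_, ?_⟩
      · refine (injective_iff_map_eq_zero _).2 fun x hx => ?_
        induction x using QuotientAddGroup.induction_on with
        | H a =>
          rw [modPMap_mk, mk_eq_zero_iff] at hx
          obtain ⟨y, hy⟩ := hx
          have hc : n.Coprime p := by
            rw [Nat.coprime_comm, (Fact.out : p.Prime).coprime_iff_not_dvd]
            intro hd
            haveI : N.FiniteIndex := ⟨by rwa [hidx]⟩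
            haveI : Finite (M ⧸ N) := AddSubgroup.finite_quotient_of_finiteIndex
            classical
            obtain ⟨z, hz⟩ := exists_prime_addOrderOf_dvd_card' p (G := M ⧸ N) (by rwa [← AddSubgroup.index, hidx])
            obtain ⟨z, rfl⟩ := QuotientAddGroup.mk_surjective z
            have hsurj : Function.Surjective fun w : M ⧸ N => p • w := fun w => by
              induction w using QuotientAddGroup.induction_on with
              | H m =>
                obtain ⟨a, ha, _, ⟨b, rfl⟩, rfl⟩ :=
                  AddSubgroup.mem_sup.1 (htop.symm ▸ AddSubgroup.mem_top m : m ∈ N₁)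
                refine ⟨QuotientAddGroup.mk b, ?_⟩
                rw [QuotientAddGroup.mk_add, (QuotientAddGroup.eq_zero_iff a).2 ha, zero_add]
                rfl
            have h0 := (Finite.injective_iff_surjective.2 hsurj) (a₁ := QuotientAddGroup.mk z) (a₂ := 0)
              (by simp [← hz, addOrderOf_nsmul_eq_zero])
            rw [h0, addOrderOf_zero] at hz
            exact (Fact.out : p.Prime).ne_one hz.symm
          obtain ⟨s, t, hst⟩ : ∃ s t : ℤ, (n : ℤ) * s + (p : ℤ) * t = 1 :=
            ⟨_, _, (Nat.gcd_eq_gcd_ab n p).symm.trans (by rw [hc.gcd_eq_one]; rfl)⟩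
          have hny : (n : ℕ) • y ∈ N := by rw [← hidx]; exact N.nsmul_index_mem y
          refine mk_eq_zero_iff.2 ⟨s • (⟨_, hny⟩ : N) + t • a, Subtype.ext ?_⟩
          show p • (s • (n • y) + t • (a : M)) = (a : M)
          have hy' : p • y = (a : M) := hy
          calc p • (s • (n • y) + t • (a : M))
              = ((n : ℤ) * s + (p : ℤ) * t) • (a : M) := by rw [← hy']; module
            _ = (a : M) := by rw [hst, one_smul]
      · intro x
        induction x using QuotientAddGroup.induction_on with
        | H m =>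
          obtain ⟨a, ha, _, ⟨b, rfl⟩, rfl⟩ :=
            AddSubgroup.mem_sup.1 (htop.symm ▸ AddSubgroup.mem_top m : m ∈ N₁)
          refine ⟨QuotientAddGroup.mk ⟨a, ha⟩, ?_⟩
          rw [modPMap_mk, QuotientAddGroup.mk_add,
            (mk_eq_zero_iff (m := nsmulAddMonoidHom p b)).2 ⟨b, rfl⟩, add_zero]
          rfl
    · haveI : N.FiniteIndex := ⟨by rwa [hidx]⟩
      haveI : N₁.FiniteIndex := AddSubgroup.finiteIndex_of_le le_sup_left
      haveI : Module.Finite ℤ N₁ := finite_subgroup N₁
      haveI : Module.Finite ℤ (N.addSubgroupOf N₁) := finite_subgroup _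
      let α₁ : Γ →* AddMonoid.End N₁ :=
        { toFun := fun g => ((α g : M →+ M).comp N₁.subtype).codRestrict N₁ fun m => hN₁ g m m.2
          map_one' := AddMonoidHom.ext fun m => Subtype.ext (by
            show α 1 (m : M) = _
            rw [map_one]; rfl)
          map_mul' := fun g h => AddMonoidHom.ext fun m => Subtype.ext (by
            show α (g * h) (m : M) = _
            rw [map_mul]; rfl) }
      have hlt : (N.addSubgroupOf N₁).index < n := by
        have h := AddSubgroup.relIndex_mul_index (le_sup_left : N ≤ N₁)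
        rw [AddSubgroup.relIndex, hidx] at h
        have h1 : 2 ≤ N₁.index := by
          have h2 := AddSubgroup.index_ne_zero_of_finite (H := N₁)
          have h3 : N₁.index ≠ 1 := fun e => htop (AddSubgroup.index_eq_one.1 e)
          have h4 := (inferInstance : N₁.FiniteIndex).index_ne_zero
          omega
        have h5 : (N.addSubgroupOf N₁).index ≠ 0 := fun e => hn (by rw [← h, e, zero_mul])
        rw [← h]
        exact lt_mul_of_one_lt_right (Nat.pos_of_ne_zero h5) h1
      let inc : N →+ N.addSubgroupOf N₁ :=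
        (AddSubgroup.addSubgroupOfEquivOfLe (le_sup_left : N ≤ N₁)).symm.toAddMonoidHom
      let β' : Γ →* AddMonoid.End (N.addSubgroupOf N₁) :=
        { toFun := fun g => ((α₁ g : N₁ →+ N₁).comp (N.addSubgroupOf N₁).subtype).codRestrict
            (N.addSubgroupOf N₁) fun m => hN g _ m.2
          map_one' := AddMonoidHom.ext fun m => Subtype.ext (Subtype.ext (by
            show α 1 ((m : N₁) : M) = _
            rw [map_one]; rfl))
          map_mul' := fun g h => AddMonoidHom.ext fun m => Subtype.ext (Subtype.ext (by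
            show α (g * h) ((m : N₁) : M) = _
            rw [map_mul]; rfl)) }
      have h5 : (N.addSubgroupOf N₁).index ≠ 0 := fun e => hn (by
        have h := AddSubgroup.relIndex_mul_index (le_sup_left : N ≤ N₁)
        rw [AddSubgroup.relIndex, hidx, e, zero_mul] at h
        exact h.symm)
      have e1 : E.dim (modPRep (p := p) β') = E.dim (modPRep (p := p) α₁) :=
        ih _ hlt N₁ α₁ (N.addSubgroupOf N₁) (fun g m hm => hN g _ hm) rfl h5 β' fun g m => rfl
      have e2 : E.dim (modPRep (p := p) β) = E.dim (modPRep (p := p) β') := by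
        refine E.dim_eq_of_bijective _ _ (modPMap inc)
          (modP_intertwine β β' inc fun g m => Subtype.ext (Subtype.ext (hβ g m))) ?_
        have he := (AddSubgroup.addSubgroupOfEquivOfLe (le_sup_left : N ≤ N₁)).symm
        refine Function.bijective_iff_has_inverse.2 ⟨modPMap
          (AddSubgroup.addSubgroupOfEquivOfLe (le_sup_left : N ≤ N₁)).toAddMonoidHom, ?_, ?_⟩ <;>
        · intro x
          induction x using QuotientAddGroup.induction_on with
          | H m => simp [inc, modPMap_mk]
      let down : M →+ N₁ := ((nsmulAddMonoidHom p : M →+ M)).codRestrict N₁ fun m =>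
        le_sup_right (α := AddSubgroup M) ⟨m, rfl⟩
      have e3 : E.dim (modPRep (p := p) α₁) = E.dim (modPRep (p := p) α) := by
        refine E.dim_eq_of_cycle _ _ (modPMap N₁.subtype)
          (modP_intertwine α₁ α N₁.subtype fun g m => rfl) (modPMap down)
          (modP_intertwine α α₁ down fun g m => Subtype.ext (map_nsmul (α g) p m).symm) ?_ ?_
        · ext x
          induction x using QuotientAddGroup.induction_on with
          | H a =>
            rw [LinearMap.mem_ker, modPMap_mk, mk_eq_zero_iff]
            constructor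
            · rintro ⟨y, hy⟩
              exact ⟨QuotientAddGroup.mk y, congrArg QuotientAddGroup.mk (Subtype.ext hy)⟩
            · rintro ⟨y, hy⟩
              induction y using QuotientAddGroup.induction_on with
              | H b =>
                rw [modPMap_mk, QuotientAddGroup.eq] at hy
                obtain ⟨z, hz⟩ := hy
                refine ⟨b + z, ?_⟩
                have h := congrArg Subtype.val hz
                change p • (z : M) = -(p • b) + (a : M) at h
                show p • (b + (z : M)) = (a : M)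
                rw [nsmul_add, h, add_neg_cancel_left]
        · ext x
          induction x using QuotientAddGroup.induction_on with
          | H m =>
            rw [LinearMap.mem_ker, modPMap_mk, mk_eq_zero_iff]
            constructor
            · rintro ⟨y, hy⟩
              have h : p • (y : M) = p • m := congrArg Subtype.val hy
              exact ⟨QuotientAddGroup.mk y, congrArg QuotientAddGroup.mk
                (nsmul_right_injective (Fact.out : p.Prime).ne_zero h)⟩
            · rintro ⟨y, hy⟩
              induction y using QuotientAddGroup.induction_on with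
              | H b =>
                rw [modPMap_mk, QuotientAddGroup.eq] at hy
                obtain ⟨z, hz⟩ := hy
                change p • z = -(b : M) + m at hz
                refine ⟨b + ⟨p • z, le_sup_right (α := AddSubgroup M) ⟨z, rfl⟩⟩, Subtype.ext ?_⟩
                show p • ((b : M) + p • z) = p • m
                rw [hz, add_neg_cancel_left]
      rw [e2, e1, e3]

end Lattice

end FLTAgent.Lowering.P1.UnitBound
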