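import Fermat.Agent.Lowering.P1.UnitBound.Probe
import Fermat.Agent.Lowering.P1.Primes.Finite

/-!
# Weights of the diagonal torus and powers of a unipotent element

For a representation of `GL₂(𝔽_p)` modulo `p` let `X` be the unipotent element minus one. It
shifts weights by `χ`, so elements of the image of `X ^ (p - 1)` have preimages of the weight
`χ⁻¹` under `X` and under `X ^ 2`.
-/

set_option autoImplicit false
set_option linter.unusedSectionVars false
set_option linter.style.haveILetI false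

noncomputable section

namespace FLTAgent.Lowering.P1.UnitBound

open FLTAgent.Lowering.P1.Primes

variable (p : ℕ) [Fact p.Prime]

/-- The torus. -/
abbrev Tor : Type := (ZMod p)ˣ × (ZMod p)ˣ

/-- The weight `s / t`. -/
def chi : Tor p →* ZMod p :=
  (Units.coeHom (ZMod p)).comp
    (MonoidHom.fst (ZMod p)ˣ (ZMod p)ˣ * (MonoidHom.snd (ZMod p)ˣ (ZMod p)ˣ)⁻¹)

/-- The weight `t / s`. -/
def chiInv : Tor p →* ZMod p :=
  (Units.coeHom (ZMod p)).comp
    (MonoidHom.snd (ZMod p)ˣ (ZMod p)ˣ * (MonoidHom.fst (ZMod p)ˣ (ZMod p)ˣ)⁻¹)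

theorem chi_apply (st : Tor p) :
    chi p st = (st.1 : ZMod p) * ((st.2⁻¹ : (ZMod p)ˣ) : ZMod p) :=
  Units.val_mul st.1 st.2⁻¹

theorem chiInv_apply (st : Tor p) :
    chiInv p st = (st.2 : ZMod p) * ((st.1⁻¹ : (ZMod p)ˣ) : ZMod p) :=
  Units.val_mul st.2 st.1⁻¹

theorem chiInv_eq (st : Tor p) : chiInv p st = chi p st⁻¹ := by
  rw [chi_apply, chiInv_apply, Prod.fst_inv, Prod.snd_inv, inv_inv, mul_comm]

theorem chi_mul_chiInv (st : Tor p) : chi p st * chiInv p st = 1 := by
  rw [chiInv_eq, ← map_mul, mul_inv_cancel, map_one]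

theorem weight_mul_inv (w : Tor p →* ZMod p) (st : Tor p) : w st * w st⁻¹ = 1 := by
  rw [← map_mul, mul_inv_cancel, map_one]

theorem card_tor : (Fintype.card (Tor p) : ZMod p) = 1 := by
  rw [Fintype.card_prod, ZMod.card_units, Nat.cast_mul,
    Nat.cast_sub (Fact.out : p.Prime).one_le, CharP.cast_eq_zero, Nat.cast_one]
  ring

theorem upperU_of_zero : upperU p 0 = 1 := by
  ext i j
  fin_cases i <;> fin_cases j <;> simp [upperU]

theorem upperU_natPow (n : ℕ) : upperU p 1 ^ n = upperU p (n : ZMod p) := by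
  induction n with
  | zero => rw [pow_zero, Nat.cast_zero, upperU_of_zero]
  | succ n ih => rw [pow_succ, ih, Nat.cast_succ, upperU_add]

theorem upperU_one_pow_p : upperU p 1 ^ p = 1 := by
  rw [upperU_natPow, CharP.cast_eq_zero, upperU_of_zero]

theorem u_mul_diag (st : Tor p) :
    upperU p 1 * diagHom p st = diagHom p st * upperU p 1 ^ (chiInv p st).val := by
  obtain ⟨s, t⟩ := st
  rw [upperU_natPow, ZMod.natCast_zmod_val, diag_conj,
    show (s : ZMod p) * chiInv p (s, t) * ((t⁻¹ : (ZMod p)ˣ) : ZMod p) =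
      chi p (s, t) * chiInv p (s, t) by rw [chi_apply]; ring,
    chi_mul_chiInv]

variable {p}
variable {V : Type} [AddCommGroup V] [Module (ZMod p) V]
  (ρ : Representation (ZMod p) (GL (Fin 2) (ZMod p)) V)

/-- The vectors of a weight. -/
def wt (w : Tor p → ZMod p) : Submodule (ZMod p) V where
  carrier := {v | ∀ st : Tor p, ρ (diagHom p st) v = w st • v}
  zero_mem' := fun st => by simp
  add_mem' := fun {a b} ha hb st => by simp [ha st, hb st]
  smul_mem' := fun c a ha st => by simp [ha st, smul_comm c]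

theorem mem_wt {w : Tor p → ZMod p} {v : V} :
    v ∈ wt ρ w ↔ ∀ st : Tor p, ρ (diagHom p st) v = w st • v :=
  Iff.rfl

/-- The action of the unipotent element minus one. -/
def opX : Module.End (ZMod p) V := ρ (upperU p 1) - 1

/-- The geometric sum. -/
def geom (n : ℕ) : Module.End (ZMod p) V := ∑ i ∈ Finset.range n, ρ (upperU p 1) ^ i

theorem geom_mul_opX (n : ℕ) : geom ρ n * opX ρ = ρ (upperU p 1 ^ n) - 1 := by
  rw [map_pow]
  exact geom_sum_mul _ n

theorem commute_opX_geom (n : ℕ) : Commute (opX ρ) (geom ρ n) :=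
  Commute.sum_right _ _ _ fun i _ =>
    ((Commute.refl (ρ (upperU p 1))).sub_left (Commute.one_left _)).pow_right i

theorem rho_u_apply (v : V) : ρ (upperU p 1) v = opX ρ v + v := by
  simp [opX]

theorem geom_apply_of_fixed {v : V} (hv : opX ρ v = 0) (n : ℕ) :
    geom ρ n v = (n : ZMod p) • v := by
  have hi : ∀ i : ℕ, (ρ (upperU p 1) ^ i) v = v := fun i => by
    induction i with
    | zero => rfl
    | succ i ih =>
      rw [pow_succ, Module.End.mul_apply, rho_u_apply ρ v, hv, zero_add, ih]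
  rw [geom, LinearMap.sum_apply, Finset.sum_congr rfl fun i _ => hi i, Finset.sum_const,
    Finset.card_range, Nat.cast_smul_eq_nsmul]

theorem opX_pow_diag (st : Tor p) (k : ℕ) (v : V) :
    (opX ρ ^ k) (ρ (diagHom p st) v) =
      ρ (diagHom p st) ((geom ρ (chiInv p st).val ^ k) ((opX ρ ^ k) v)) := by
  have h : SemiconjBy (ρ (diagHom p st)) (geom ρ (chiInv p st).val * opX ρ) (opX ρ) := by
    show _ * _ = _ * _
    rw [geom_mul_opX, mul_sub, mul_one, opX, sub_mul, one_mul, ← map_mul, ← map_mul, u_mul_diag]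
  have h' := (h.pow_right k).eq
  rw [(commute_opX_geom ρ (chiInv p st).val).symm.mul_pow] at h'
  exact (LinearMap.congr_fun h' v).symm

theorem geom_pow_apply_of_fixed {v : V} (hv : opX ρ v = 0) (n k : ℕ) :
    (geom ρ n ^ k) v = (n : ZMod p) ^ k • v := by
  induction k with
  | zero => simp
  | succ k ih => rw [pow_succ', Module.End.mul_apply, ih, map_smul, geom_apply_of_fixed ρ hv,
      smul_smul, pow_succ]

/-- The projection on the vectors of a weight. -/
def avg (w : Tor p →* ZMod p) (v : V) : V :=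
  ∑ st : Tor p, w st⁻¹ • ρ (diagHom p st) v

theorem avg_mem (w : Tor p →* ZMod p) (v : V) : avg ρ w v ∈ wt ρ w := by
  intro st
  rw [avg, map_sum, Finset.smul_sum]
  refine Fintype.sum_equiv (Equiv.mulLeft st) _ _ fun s => ?_
  rw [Equiv.coe_mulLeft, map_smul, ← Module.End.mul_apply, ← map_mul, ← map_mul, smul_smul,
    mul_inv_rev, map_mul w, mul_left_comm, weight_mul_inv, mul_one]

theorem avg_of_mem (w : Tor p →* ZMod p) {v : V} (hv : v ∈ wt ρ w) : avg ρ w v = v := by
  rw [avg]
  simp only [hv _, smul_smul]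
  rw [Finset.sum_congr rfl fun st _ => by rw [mul_comm, weight_mul_inv, one_smul],
    Finset.sum_const, Finset.card_univ, ← Nat.cast_smul_eq_nsmul (ZMod p), card_tor, one_smul]

/-- Preimages of weight `χ⁻¹`. -/
theorem exists_preimage (k : ℕ) {a b : V} (hab : (opX ρ ^ k) b = a) (ha : opX ρ a = 0)

    (hwt : ∀ st : Tor p, (chi p st * chiInv p st ^ k) • ρ (diagHom p st) a = a) :
    ∃ v ∈ wt ρ (chiInv p), (opX ρ ^ (k + 1)) v = 0 ∧ (opX ρ ^ k) v = a := by
  have h0 : (opX ρ ^ (k + 1)) b = 0 := by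
    rw [pow_succ', Module.End.mul_apply, hab, ha]
  refine ⟨avg ρ (chiInv p) b, avg_mem ρ _ b, ?_, ?_⟩
  · simp only [avg, map_sum, map_smul, opX_pow_diag, h0, map_zero, smul_zero, Finset.sum_const_zero]
  · simp only [avg, map_sum, map_smul, opX_pow_diag, hab, geom_pow_apply_of_fixed ρ ha, smul_smul,
      ZMod.natCast_zmod_val]
    rw [Finset.sum_congr rfl fun st _ => by
      rw [show chiInv p st⁻¹ = chi p st by rw [chiInv_eq, inv_inv], hwt st],
      Finset.sum_const, Finset.card_univ, ← Nat.cast_smul_eq_nsmul (ZMod p), card_tor, one_smul]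

theorem geom_eq_opX_pow : geom ρ p = opX ρ ^ (p - 1) := by
  have h : (∑ i ∈ Finset.range p, (Polynomial.X : Polynomial (ZMod p)) ^ i) =
      (Polynomial.X - 1) ^ (p - 1) := by
    refine mul_right_cancel₀ (b := Polynomial.X - 1) ?_ ?_
    · rw [← Polynomial.C_1]
      exact Polynomial.X_sub_C_ne_zero 1
    · rw [geom_sum_mul, ← pow_succ, Nat.sub_add_cancel (Fact.out : p.Prime).one_le,
        sub_pow_char, one_pow]
  have h' := congrArg (Polynomial.aeval (ρ (upperU p 1))) h
  simpa [geom, opX] using h'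

theorem opX_pow_p : opX ρ ^ p = 0 := by
  have h : opX ρ ^ p = geom ρ p * opX ρ := by
    rw [geom_eq_opX_pow, ← pow_succ, Nat.sub_add_cancel (Fact.out : p.Prime).one_le]
  rw [h, geom_mul_opX, upperU_one_pow_p, map_one, sub_self]

theorem sum_weight (w : Tor p →* ZMod p) (y : ZMod p) :
    (∑ g : Tor p, w g • (w g⁻¹ • y)) = y := by
  rw [Finset.sum_congr rfl fun g _ => by rw [smul_smul, weight_mul_inv, one_smul],
    Finset.sum_const, Finset.card_univ, nsmul_eq_mul, card_tor, one_mul]

/-- The probe of a weight. -/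
def wtProbe (w : Tor p →* ZMod p) : Probe p (Tor p) (ZMod p) where
  π :=
    { toFun := fun st => w st • (1 : Module.End (ZMod p) (ZMod p))
      map_one' := by rw [map_one, one_smul]
      map_mul' := fun a b => LinearMap.ext fun x => by simp [mul_assoc, mul_left_comm] }
  e := LinearMap.id
  idem := fun x => by
    show (∑ g : Tor p, w g • (w g⁻¹ • (∑ h : Tor p, w h • (w h⁻¹ • x)))) =
      ∑ h : Tor p, w h • (w h⁻¹ • x)
    rw [sum_weight, sum_weight]

theorem wtProbe_tr (w : Tor p →* ZMod p) (x : ZMod p) : (wtProbe w).tr x = x := by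
  rw [Probe.tr_apply]
  exact sum_weight w x

/-- The vectors of a weight in a representation of the torus. -/
def wtT {V' : Type} [AddCommGroup V'] [Module (ZMod p) V']
    (ρT : Representation (ZMod p) (Tor p) V') (w : Tor p → ZMod p) : Submodule (ZMod p) V' where
  carrier := {v | ∀ st : Tor p, ρT st v = w st • v}
  zero_mem' := fun st => by simp
  add_mem' := fun {a b} ha hb st => by simp [ha st, hb st]
  smul_mem' := fun c a ha st => by simp [ha st, smul_comm c]

theorem dimIn_wtProbe {V' : Type} [AddCommGroup V'] [Module (ZMod p) V']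
    (ρT : Representation (ZMod p) (Tor p) V') (w : Tor p →* ZMod p)
    (U : Submodule (ZMod p) V') :
    (wtProbe w).dimIn ρT U = Module.finrank (ZMod p) ↥(wtT ρT w ⊓ U) := by
  have hφ : ∀ φ ∈ (wtProbe w).within ρT U, φ 1 ∈ wtT ρT w ⊓ U := fun φ hφ =>
    ⟨fun st => by
      have h := hφ.1 st 1
      rw [← map_smul]
      exact h.symm.trans (by simp [wtProbe]), hφ.2.2 1⟩
  refine LinearEquiv.finrank_eq
    { toFun := fun φ => ⟨φ.1 1, hφ φ.1 φ.2⟩
      map_add' := fun a b => rfl
      map_smul' := fun c a => rfl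
      invFun := fun v => ⟨LinearMap.toSpanSingleton (ZMod p) V' v.1,
        fun st x => by
          simp [wtProbe, v.2.1 st, smul_smul, mul_comm],
        LinearMap.ext fun x => by rw [LinearMap.comp_apply, wtProbe_tr],
        fun x => U.smul_mem x v.2.2⟩
      left_inv := fun φ => Subtype.ext (LinearMap.ext_ring (by simp))
      right_inv := fun v => Subtype.ext (by simp) }

end FLTAgent.Lowering.P1.UnitBound
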