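import Fermat.Agent.Lowering.P1.UnitBound.Setup
import Fermat.Agent.Lowering.P1.UnitBound.Perm

/-!
# Homomorphisms of the adjoint representation into the units modulo `p`

The units outside `S` are compared with the permutation module of the places by the equivariant
unit theorem, and their norm defect by the local symbols.
-/

set_option autoImplicit false
set_option linter.unusedSectionVars false
set_option linter.style.haveILetI false

noncomputable section

namespace FLTAgent.Lowering.P1.UnitBound

open FLTAgent.Lowering.P1.Primes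

/-! ### A lattice and its image -/

section Index

variable {p : ℕ} [Fact p.Prime] {Γ : Type} [Group Γ] [Fintype Γ] {P : Type} [AddCommGroup P]
  [Module (ZMod p) P] [Module.Finite (ZMod p) P]

theorem Probe.dim_of_cofinite_iff (E : Probe p Γ P) {X M : Type} [AddCommGroup X] [AddCommGroup M]
    [Module.Finite ℤ X] [Module.Finite ℤ M] [IsAddTorsionFree M] (αX : Γ →* AddMonoid.End X)
    (αM : Γ →* AddMonoid.End M) (φ : X →+ M) (hφ : ∀ g x, φ (αX g x) = αM g (φ x))
    (hfin : ∀ m : M, ∃ n : ℕ, n ≠ 0 ∧ n • m ∈ φ.range) :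
    ∃ K : Submodule (ZMod p) (ModP p X),
      (∀ v, v ∈ K ↔ ∃ x : X, φ x = 0 ∧ (QuotientAddGroup.mk x : ModP p X) = v) ∧
      E.dim (modPRep (p := p) αX) =
        E.dimIn (modPRep (p := p) αX) K + E.dim (modPRep (p := p) αM) := by
  have hst : ∀ g, ∀ m ∈ φ.range, αM g m ∈ φ.range := by
    rintro g _ ⟨x, rfl⟩
    exact ⟨αX g x, hφ g x⟩
  let β : Γ →* AddMonoid.End φ.range :=
    { toFun := fun g => ((αM g : M →+ M).comp φ.range.subtype).codRestrict φ.range
        fun m => hst g m m.2
      map_one' := AddMonoidHom.ext fun m => Subtype.ext (by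
        show αM 1 (m : M) = _
        rw [map_one]; rfl)
      map_mul' := fun g h => AddMonoidHom.ext fun m => Subtype.ext (by
        show αM (g * h) (m : M) = _
        rw [map_mul]; rfl) }
  haveI : Module.Finite ℤ φ.range := finite_subgroup _
  haveI : Module.Finite ℤ (M ⧸ φ.range) := Module.Finite.of_surjective
    (QuotientAddGroup.mk' φ.range).toIntLinearMap (QuotientAddGroup.mk'_surjective _)
  haveI : AddGroup.FG (M ⧸ φ.range) := Module.Finite.iff_addGroup_fg.1 inferInstance
  haveI : Finite (M ⧸ φ.range) := AddCommGroup.finite_of_fg_torsion _ fun q => by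
    induction q using QuotientAddGroup.induction_on with
    | H m =>
      obtain ⟨n, hn, hm⟩ := hfin m
      exact isOfFinAddOrder_iff_nsmul_eq_zero.2 ⟨n, Nat.pos_of_ne_zero hn, by
        rw [← QuotientAddGroup.mk_nsmul]; exact (QuotientAddGroup.eq_zero_iff _).2 hm⟩
  have hidx : φ.range.index ≠ 0 := AddSubgroup.index_ne_zero_of_finite
  refine ⟨LinearMap.ker (modPMap φ.rangeRestrict), fun v => ⟨fun hv => ?_, ?_⟩, ?_⟩
  · induction v using QuotientAddGroup.induction_on with
    | H x =>
      rw [LinearMap.mem_ker, modPMap_mk, mk_eq_zero_iff] at hv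
      obtain ⟨⟨_, y, rfl⟩, hy⟩ := hv
      have h : p • φ y = φ x := congrArg Subtype.val hy
      refine ⟨x - p • y, by rw [map_sub, map_nsmul, h, sub_self], ?_⟩
      rw [QuotientAddGroup.mk_sub, (mk_eq_zero_iff (m := p • y)).2 ⟨y, rfl⟩, sub_zero]
  · rintro ⟨x, hx, rfl⟩
    rw [LinearMap.mem_ker, modPMap_mk, show φ.rangeRestrict x = 0 from Subtype.ext hx]
    rfl
  · rw [E.dim_ker_add_range _ (modPRep (p := p) β) (modPMap φ.rangeRestrict)
      (modP_intertwine αX β φ.rangeRestrict fun g x => Subtype.ext (hφ g x)),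
      ← E.dim_modP_of_index _ M αM φ.range hst rfl hidx β fun g m => rfl]
    congr 1
    rw [LinearMap.range_eq_top.2]
    · rfl
    · intro v
      induction v using QuotientAddGroup.induction_on with
      | H m =>
        obtain ⟨x, hx⟩ := φ.rangeRestrict_surjective m
        exact ⟨QuotientAddGroup.mk x, by rw [modPMap_mk, hx]⟩

theorem Probe.dim_of_cofinite (E : Probe p Γ P) {X M : Type} [AddCommGroup X] [AddCommGroup M]
    [Module.Finite ℤ X] [Module.Finite ℤ M] [IsAddTorsionFree M] (αX : Γ →* AddMonoid.End X)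
    (αM : Γ →* AddMonoid.End M) (φ : X →+ M) (hφ : ∀ g x, φ (αX g x) = αM g (φ x))
    (hfin : ∀ m : M, ∃ n : ℕ, n ≠ 0 ∧ n • m ∈ φ.range) :
    ∃ K : Submodule (ZMod p) (ModP p X),
      (∀ v ∈ K, ∃ x : X, φ x = 0 ∧ (QuotientAddGroup.mk x : ModP p X) = v) ∧
      E.dim (modPRep (p := p) αX) =
        E.dimIn (modPRep (p := p) αX) K + E.dim (modPRep (p := p) αM) := by
  obtain ⟨K, hK, h⟩ := E.dim_of_cofinite_iff αX αM φ hφ hfin
  exact ⟨K, fun v hv => (hK v).1 hv, h⟩

variable {M : Type} [AddCommGroup M]

/-- An action on the quotient by the torsion. -/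
def actFree (α : Γ →* AddMonoid.End M) : Γ →* AddMonoid.End (M ⧸ AddCommGroup.torsion M) where
  toFun g := QuotientAddGroup.map _ _ (α g : M →+ M) fun _ hm =>
    (α g : M →+ M).isOfFinAddOrder hm
  map_one' := AddMonoidHom.ext fun q => by
    induction q using QuotientAddGroup.induction_on with
    | H m => show (QuotientAddGroup.mk (α 1 m) : M ⧸ AddCommGroup.torsion M) = _; rw [map_one]; rfl
  map_mul' g h := AddMonoidHom.ext fun q => by
    induction q using QuotientAddGroup.induction_on with
    | H m =>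
      show (QuotientAddGroup.mk (α (g * h) m) : M ⧸ AddCommGroup.torsion M) = _
      rw [map_mul]; rfl

theorem Probe.dim_of_free (E : Probe p Γ P) [Module.Finite ℤ M] (α : Γ →* AddMonoid.End M) :
    ∃ K : Submodule (ZMod p) (ModP p M),
      (∀ v ∈ K, ∃ x : M, IsOfFinAddOrder x ∧ (QuotientAddGroup.mk x : ModP p M) = v) ∧
      E.dim (modPRep (p := p) α) =
        E.dimIn (modPRep (p := p) α) K + E.dim (modPRep (p := p) (actFree α)) := by
  haveI : Module.Finite ℤ (M ⧸ AddCommGroup.torsion M) := Module.Finite.of_surjective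
    (QuotientAddGroup.mk' (AddCommGroup.torsion M)).toIntLinearMap
    (QuotientAddGroup.mk'_surjective _)
  obtain ⟨K, hK, h⟩ := E.dim_of_cofinite α (actFree α)
    (QuotientAddGroup.mk' (AddCommGroup.torsion M)) (fun g x => rfl) fun q => by
      obtain ⟨m, rfl⟩ := QuotientAddGroup.mk'_surjective _ q
      exact ⟨1, one_ne_zero, m, by rw [one_smul]⟩
  exact ⟨K, fun v hv => by
    obtain ⟨x, hx, e⟩ := hK v hv
    exact ⟨x, (QuotientAddGroup.eq_zero_iff x).1 hx, e⟩, h⟩

end Index

/-! ### The permutation lattice -/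

section PermLattice

variable {p : ℕ} [Fact p.Prime] {Z : Type} [MulAction (GL (Fin 2) (ZMod p)) Z]

variable (Z) in
/-- The action on integer valued functions. -/
def permZ : GL (Fin 2) (ZMod p) →* AddMonoid.End (Z → ℤ) where
  toFun g :=
    { toFun := fun f z => f (g⁻¹ • z)
      map_zero' := rfl
      map_add' := fun a b => rfl }
  map_one' := AddMonoidHom.ext fun f => funext fun z => by
    show f ((1 : GL (Fin 2) (ZMod p))⁻¹ • z) = f z
    rw [inv_one, one_smul]
  map_mul' g h := AddMonoidHom.ext fun f => funext fun z => by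
    show f ((g * h)⁻¹ • z) = f (h⁻¹ • g⁻¹ • z)
    rw [mul_inv_rev, mul_smul]

theorem permZ_apply (g : GL (Fin 2) (ZMod p)) (f : Z → ℤ) (z : Z) :
    permZ Z g f z = f (g⁻¹ • z) := rfl

variable (Z) in
/-- Reduction modulo `p`. -/
def redHom : (Z → ℤ) →+ (Z → ZMod p) where
  toFun f z := (f z : ZMod p)
  map_zero' := funext fun z => by simp
  map_add' a b := funext fun z => by simp

/-- Reduction modulo `p` on the quotient. -/
def redP {N : Type} [AddCommGroup N] (ι : N →+ (Z → ℤ)) :
    ModP p N →ₗ[ZMod p] (Z → ZMod p) :=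
  AddMonoidHom.toZModLinearMap p (QuotientAddGroup.lift _ ((redHom Z).comp ι) (by
    rintro _ ⟨y, rfl⟩
    refine funext fun z => ?_
    show ((ι (p • y) z : ℤ) : ZMod p) = 0
    rw [map_nsmul, Pi.smul_apply, nsmul_eq_mul, Int.cast_mul, Int.cast_natCast,
      CharP.cast_eq_zero, zero_mul]))

theorem redP_mk {N : Type} [AddCommGroup N] (ι : N →+ (Z → ℤ)) (x : N) :
    redP (p := p) ι (QuotientAddGroup.mk x) = fun z => ((ι x z : ℤ) : ZMod p) := rfl

theorem dim_perm [Fintype Z] {Γ : Type} [Group Γ] [Fintype Γ] {P : Type} [AddCommGroup P]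
    [Module (ZMod p) P] [Module.Finite (ZMod p) P] (E : Probe p Γ P)
    (i : Γ →* GL (Fin 2) (ZMod p)) :
    E.dim (modPRep (p := p) ((permZ Z).comp i)) = E.dim ((permRep p Z).comp i) := by
  refine E.dim_eq_of_bijective _ _ (redP (AddMonoidHom.id _)) (fun g v => ?_) ⟨?_, ?_⟩
  · induction v using QuotientAddGroup.induction_on with
    | H f => rw [modPRep_mk, redP_mk, redP_mk]; rfl
  · refine (injective_iff_map_eq_zero _).2 fun v hv => ?_
    induction v using QuotientAddGroup.induction_on with
    | H f =>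
      have h : ∀ z, (p : ℤ) ∣ f z := fun z =>
        (ZMod.intCast_zmod_eq_zero_iff_dvd _ _).1 (congrFun hv z)
      choose q hq using h
      exact mk_eq_zero_iff.2 ⟨q, funext fun z => by
        rw [Pi.smul_apply, hq z, nsmul_eq_mul]⟩
  · intro f
    exact ⟨QuotientAddGroup.mk fun z => ((f z).val : ℤ), funext fun z => by
      simp [redP_mk]⟩

variable (Z) (p) in
/-- The invariant integer valued functions. -/
def fixZ : AddSubgroup (Z → ℤ) where
  carrier := {f | ∀ z, f ((upperU p 1)⁻¹ • z) = f z}
  zero_mem' := fun _ => rfl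
  add_mem' := fun {a b} ha hb z => by simp [ha z, hb z]
  neg_mem' := fun {a} ha z => by simp [ha z]

theorem permZ_mem_fixZ (st : Tor p) {f : Z → ℤ} (hf : f ∈ fixZ p Z) :
    permZ Z (diagHom p st) f ∈ fixZ p Z := by
  have hn : ∀ (n : ℕ) (z : Z), f ((upperU p 1 ^ n)⁻¹ • z) = f z := fun n => by
    induction n with
    | zero => intro z; rw [pow_zero, inv_one, one_smul]
    | succ n ih => intro z; rw [pow_succ, mul_inv_rev, mul_smul, hf, ih]
  intro z
  rw [permZ_apply, permZ_apply, ← mul_smul, ← mul_inv_rev, u_mul_diag, mul_inv_rev, mul_smul, hn]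

/-- The torus on the invariant functions. -/
def fixZAct : Tor p →* AddMonoid.End (fixZ p Z) where
  toFun st := ((permZ Z (diagHom p st) : (Z → ℤ) →+ (Z → ℤ)).comp (fixZ p Z).subtype).codRestrict
    (fixZ p Z) fun f => permZ_mem_fixZ st f.2
  map_one' := AddMonoidHom.ext fun f => Subtype.ext (by
    show permZ Z (diagHom p 1) (f : Z → ℤ) = _
    rw [map_one, map_one]; rfl)
  map_mul' a b := AddMonoidHom.ext fun f => Subtype.ext (by
    show permZ Z (diagHom p (a * b)) (f : Z → ℤ) = _
    rw [map_mul, map_mul]; rfl)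

theorem dim_fixZ [Fintype Z] (w : Tor p →* ZMod p) :
    (wtProbe w).dim (modPRep (p := p) (fixZAct (Z := Z))) =
      Module.finrank (ZMod p) ↥(wt (permRep p Z) w ⊓ LinearMap.ker (opX (permRep p Z))) := by
  haveI : Module.Finite ℤ (fixZ p Z) := finite_subgroup _
  rw [(wtProbe w).dim_ker_add_range _ ((permRep p Z).comp (diagHom p))
    (redP (fixZ p Z).subtype) (fun g v => by
      induction v using QuotientAddGroup.induction_on with
      | H f => rw [modPRep_mk, redP_mk, redP_mk]; rfl),
    LinearMap.ker_eq_bot.2, Probe.dimIn_bot, zero_add, dimIn_wtProbe]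
  · have hr : LinearMap.range (redP (p := p) (fixZ p Z).subtype) =
        LinearMap.ker (opX (permRep p Z)) := by
      ext f
      rw [LinearMap.mem_ker]
      constructor
      · rintro ⟨v, rfl⟩
        induction v using QuotientAddGroup.induction_on with
        | H g =>
          funext z
          rw [redP_mk, opX_permRep_apply, Pi.zero_apply, sub_eq_zero]
          exact congrArg Int.cast (g.2 z)
      · intro hf
        refine ⟨QuotientAddGroup.mk ⟨fun z => ((f z).val : ℤ), fun z => ?_⟩, funext fun z => by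
          simp [redP_mk]⟩
        have h := congrFun hf z
        rw [opX_permRep_apply, Pi.zero_apply, sub_eq_zero] at h
        show (((f _).val : ℕ) : ℤ) = _
        rw [h]
    rw [hr]
    rfl
  · refine (injective_iff_map_eq_zero _).2 fun v hv => ?_
    induction v using QuotientAddGroup.induction_on with
    | H f =>
      have h : ∀ z, (p : ℤ) ∣ f.1 z := fun z =>
        (ZMod.intCast_zmod_eq_zero_iff_dvd _ _).1 (congrFun hv z)
      choose q hq using h
      refine mk_eq_zero_iff.2 ⟨⟨q, fun z => ?_⟩, Subtype.ext (funext fun z => by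
        show p • q z = f.1 z
        rw [hq z, nsmul_eq_mul])⟩
      refine mul_left_cancel₀ (Int.natCast_ne_zero.2 (Fact.out : p.Prime).ne_zero) ?_
      rw [← hq, ← hq, f.2 z]

end PermLattice

/-! ### The units -/

local notation "LL" => AlgebraicClosure ℚ
local notation "GG" => (AlgebraicClosure ℚ ≃ₐ[ℚ] AlgebraicClosure ℚ)

variable {p : ℕ} [Fact p.Prime] (D : Datum p) (S : Finset ℕ)

theorem end_mul_apply {M : Type} [AddCommGroup M] (f g : AddMonoid.End M) (x : M) :
    (f * g) x = f (g x) := rfl

theorem units_val_nsmul (n : ℕ) (a : UnitMod D S) : val D (n • a) = val D a ^ n := by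
  simp [val]

theorem val_injective' : Function.Injective (val D (S := S)) := fun a b h =>
  Additive.toMul.injective (Subtype.ext (Units.ext h))

theorem val_zero' : val D (0 : UnitMod D S) = 1 := rfl

/-- The torsion carries an abelian action. -/
theorem actU_comm_of_torsion (g h : GL (Fin 2) (ZMod p)) {x : UnitMod D S}
    (hx : IsOfFinAddOrder x) : actU D S (g * h) x = actU D S (h * g) x := by
  obtain ⟨n, hn, hx⟩ := isOfFinAddOrder_iff_nsmul_eq_zero.1 hx
  set ζ := val D x
  have hζ : ζ ^ n = 1 := by rw [← units_val_nsmul, hx, val_zero']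
  haveI : NeZero (orderOf ζ) :=
    ⟨(isOfFinOrder_iff_pow_eq_one.2 ⟨n, hn, hζ⟩).orderOf_pos.ne'⟩
  have hex : ∀ σ : GG, ∃ a : ℕ, σ ζ = ζ ^ a := fun σ => by
    obtain ⟨a, -, ha⟩ := (IsPrimitiveRoot.orderOf ζ).eq_pow_of_pow_eq_one (ξ := σ ζ)
      (by rw [← map_pow, pow_orderOf_eq_one, map_one])
    exact ⟨a, ha.symm⟩
  obtain ⟨a, ha⟩ := hex (lift D g)
  obtain ⟨b, hb⟩ := hex (lift D h)
  apply val_injective'
  have e : ∀ u v : GL (Fin 2) (ZMod p),
      val D (actU D S (u * v) x) = lift D u (lift D v ζ) := fun u v => by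
    rw [← AlgEquiv.mul_apply]
    exact (Additive.toMul x).2.1.apply_eq (by rw [map_mul, rb_lift, rb_lift, rb_lift])
  rw [e, e, hb, map_pow, ha, map_pow, hb, ← pow_mul, ← pow_mul, mul_comm]

/-- The action on the elements killed by `p`. -/
theorem actU_of_pTorsion (g : GL (Fin 2) (ZMod p)) {z : UnitMod D S} (hz : p • z = 0) :
    actU D S g z = (Matrix.det (g : Matrix (Fin 2) (Fin 2) (ZMod p))).val • z := by
  apply val_injective'
  rw [units_val_nsmul, show actU D S g z = actU D S (D.rb (lift D g)) z by rw [rb_lift], val_actU,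
    D.det_cyclo _ _ (by rw [← units_val_nsmul, hz, val_zero']), rb_lift]

theorem eq_zero_of_two_nsmul {M : Type} [AddCommGroup M] {z : M} (hz : p • z = 0) {a b : ℕ}
    (hab : a • z = b • z) (h : (a : ZMod p) ≠ (b : ZMod p)) : z = 0 := by
  rcases (Nat.dvd_prime (Fact.out : p.Prime)).1 (addOrderOf_dvd_of_nsmul_eq_zero hz) with e | e
  · exact AddMonoid.addOrderOf_eq_one_iff.1 e
  · rw [nsmul_eq_nsmul_iff_modEq, e] at hab
    exact absurd ((ZMod.natCast_eq_natCast_iff _ _ _).2 hab) h

/-- The units fixed by the unipotent element. -/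
def fixU : AddSubgroup (UnitMod D S) where
  carrier := {b | actU D S (upperU p 1) b = b}
  zero_mem' := map_zero _
  add_mem' := fun {a b} ha hb => by
    show actU D S (upperU p 1) (a + b) = a + b
    rw [map_add, ha, hb]
  neg_mem' := fun {a} ha => by
    show actU D S (upperU p 1) (-a) = -a
    rw [map_neg, ha]

theorem actU_mem_fixU (st : Tor p) {b : UnitMod D S} (hb : b ∈ fixU D S) :
    actU D S (diagHom p st) b ∈ fixU D S := by
  show actU D S (upperU p 1) (actU D S (diagHom p st) b) = _
  rw [← end_mul_apply, ← map_mul, u_mul_diag, map_mul, map_pow]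
  show actU D S (diagHom p st) ((actU D S (upperU p 1) ^ _) b) = _
  congr 1
  induction (chiInv p st).val with
  | zero => rfl
  | succ n ih =>
    rw [pow_succ]
    show (actU D S (upperU p 1) ^ n) (actU D S (upperU p 1) b) = b
    rw [hb, ih]

/-- The torus on these units. -/
def fixUAct : Tor p →* AddMonoid.End (fixU D S) where
  toFun st := ((actU D S (diagHom p st) : UnitMod D S →+ UnitMod D S).comp
    (fixU D S).subtype).codRestrict (fixU D S) fun b => actU_mem_fixU D S st b.2
  map_one' := AddMonoidHom.ext fun b => Subtype.ext (by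
    show actU D S (diagHom p 1) (b : UnitMod D S) = _
    rw [map_one, map_one]; rfl)
  map_mul' a b := AddMonoidHom.ext fun c => Subtype.ext (by
    show actU D S (diagHom p (a * b)) (c : UnitMod D S) = _
    rw [map_mul, map_mul]; rfl)

/-- The map of the fixed units modulo `p` into all units modulo `p`. -/
def incU : ModP p (fixU D S) →ₗ[ZMod p] ModP p (UnitMod D S) := modPMap (fixU D S).subtype

/-- The only new `p`-th powers have the weight of the square of the second entry. -/
theorem incU_injOn (w : Tor p → ZMod p) (st : Tor p) (h : w st ≠ (st.2 : ZMod p) * st.2)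
    {v : ModP p (fixU D S)} (hv : v ∈ wtT (modPRep (p := p) (fixUAct D S)) w)
    (h0 : incU D S v = 0) : v = 0 := by
  induction v using QuotientAddGroup.induction_on with
  | H b =>
    obtain ⟨y, hy⟩ := mk_eq_zero_iff.1 h0
    change p • y = (b : UnitMod D S) at hy
    set U : UnitMod D S →+ UnitMod D S := actU D S (upperU p 1)
    set T : UnitMod D S →+ UnitMod D S := actU D S (diagHom p st)
    set z := U y - y with hzdef
    have hz : p • z = 0 := by
      rw [hzdef, nsmul_sub, ← map_nsmul, hy]
      exact sub_eq_zero.2 b.2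
    have hUz : ∀ x : UnitMod D S, p • x = 0 → U x = x := fun x hx => by
      show actU D S (upperU p 1) x = x
      rw [actU_of_pTorsion D S _ hx, det_upperU, ZMod.val_one, one_smul]
    have hw : modPRep (p := p) (fixUAct D S) st (QuotientAddGroup.mk b) =
        w st • (QuotientAddGroup.mk b : ModP p (fixU D S)) := hv st
    rw [modPRep_mk, ← ZMod.natCast_zmod_val (w st), Nat.cast_smul_eq_nsmul,
      ← QuotientAddGroup.mk_nsmul, ← sub_eq_zero, ← QuotientAddGroup.mk_sub, mk_eq_zero_iff] at hw
    obtain ⟨c, hc⟩ := hw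
    have hc' : p • (c : UnitMod D S) = T b - (w st).val • (b : UnitMod D S) :=
      congrArg Subtype.val hc
    set r := T y - (w st).val • y - (c : UnitMod D S) with hr
    have hpr : p • r = 0 := by
      rw [hr, nsmul_sub, nsmul_sub, ← map_nsmul, hy, nsmul_left_comm, hy, hc', sub_self]
    have hUn : ∀ n : ℕ, actU D S (upperU p 1 ^ n) y = y + n • z := fun n => by
      induction n with
      | zero => rw [pow_zero, map_one, zero_smul, add_zero]; rfl
      | succ n ih =>
        rw [pow_succ', map_mul, end_mul_apply, ih]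
        show U (y + n • z) = _
        rw [map_add, map_nsmul, hUz z hz, succ_nsmul, hzdef]
        abel
    have e1 : U (T y) - T y =
        ((chiInv p st).val * (((st.1 : ZMod p) * st.2)).val) • z := by
      show actU D S (upperU p 1) (actU D S (diagHom p st) y) - _ = _
      rw [← end_mul_apply, ← map_mul, u_mul_diag, map_mul,
        end_mul_apply, hUn, map_add, map_nsmul, actU_of_pTorsion D S _ hz,
        show diagHom p st = diagHom p (st.1, st.2) from rfl, det_diag, mul_nsmul']
      show T y + _ - T y = _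
      rw [add_sub_cancel_left]
    have e2 : U (T y) - T y = (w st).val • z := by
      have hT : T y = r + (w st).val • y + (c : UnitMod D S) := by rw [hr]; abel
      have hUc : U (c : UnitMod D S) = c := c.2
      rw [hT, map_add, map_add, map_nsmul, hUz r hpr, hUc, hzdef, nsmul_sub]
      abel
    have hz0 : z = 0 := by
      refine eq_zero_of_two_nsmul hz (e2.symm.trans e1) ?_
      rw [ZMod.natCast_zmod_val, Nat.cast_mul, ZMod.natCast_zmod_val, ZMod.natCast_zmod_val,
        chiInv_apply, show (st.2 : ZMod p) * ((st.1⁻¹ : (ZMod p)ˣ) : ZMod p) *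
          ((st.1 : ZMod p) * st.2) = (st.2 : ZMod p) * st.2 *
            (((st.1⁻¹ : (ZMod p)ˣ) : ZMod p) * (st.1 : ZMod p)) by ring,
        Units.inv_mul, mul_one]
      exact h
    have hyf : y ∈ fixU D S := sub_eq_zero.1 hz0
    exact mk_eq_zero_iff.2 ⟨⟨y, hyf⟩, Subtype.ext hy⟩

variable {D S} {cb : GL (Fin 2) (ZMod p)} {V : ℕ → ValuationSubring LL}

theorem normU_apply (a : UnitMod D S) :
    normU D S a = ∑ i ∈ Finset.range p, actU D S (upperU p 1 ^ i) a := by
  rw [normU]
  exact map_sum ((AddMonoidHom.eval :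
    UnitMod D S →+ (UnitMod D S →+ UnitMod D S) →+ UnitMod D S) a) _ _

theorem mk_normU (a : UnitMod D S) :
    (QuotientAddGroup.mk (normU D S a) : ModP p (UnitMod D S)) =
      geom (modPRep (p := p) (actU D S)) p (QuotientAddGroup.mk a) := by
  rw [normU_apply, QuotientAddGroup.mk_sum, geom, LinearMap.sum_apply]
  refine Finset.sum_congr rfl fun i _ => ?_
  rw [← map_pow, modPRep_mk]

set_option maxHeartbeats 1000000 in
/-- The invariant functions lose at most the constant at infinity in the units. -/
theorem wt_inv_le [Fintype (Pl D cb S V)] [Module.Finite ℤ (UnitMod D S)]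
    (dd : DirichletData D cb S V) (w : Tor p →* ZMod p) :
    Module.finrank (ZMod p)
        ↥(wt (permRep p (Pl D cb S V)) w ⊓ LinearMap.ker (opX (permRep p (Pl D cb S V)))) ≤
      (if ∀ st, w st = 1 then 1 else 0) +
        Module.finrank (ZMod p) ↥(wtT (modPRep (p := p) (fixUAct D S)) w) := by
  classical
  haveI : Module.Finite ℤ (fixU D S) := finite_subgroup _
  haveI : Module.Finite ℤ (fixZ p (Pl D cb S V)) := finite_subgroup _
  haveI : Module.Finite ℤ (fixU D S ⧸ AddCommGroup.torsion (fixU D S)) :=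
    Module.Finite.of_surjective (QuotientAddGroup.mk' _).toIntLinearMap
      (QuotientAddGroup.mk'_surjective _)
  let φ₀ : fixZ p (Pl D cb S V) →+ fixU D S :=
    (dd.Φ.comp (fixZ p _).subtype).codRestrict (fixU D S) fun f => by
      show actU D S (upperU p 1) (dd.Φ f.1) = dd.Φ f.1
      rw [← dd.equivariant]
      exact congrArg dd.Φ (funext f.2)
  let φ : fixZ p (Pl D cb S V) →+ (fixU D S ⧸ AddCommGroup.torsion (fixU D S)) :=
    (QuotientAddGroup.mk' _).comp φ₀
  obtain ⟨K, hK, hKd⟩ := (wtProbe w).dim_of_cofinite (fixZAct (Z := Pl D cb S V))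
    (actFree (fixUAct D S)) φ (fun st f => by
      show QuotientAddGroup.mk _ = QuotientAddGroup.mk _
      refine congrArg QuotientAddGroup.mk (Subtype.ext ?_)
      exact dd.equivariant (diagHom p st) f.1) (fun m => by
      obtain ⟨y, rfl⟩ := QuotientAddGroup.mk_surjective m
      obtain ⟨n, hn, f, hf⟩ := dd.exists_nsmul y.1
      set g : Pl D cb S V → ℤ := ∑ i ∈ Finset.range p, permZ _ (upperU p 1 ^ i) f with hg
      have hgfix : g ∈ fixZ p (Pl D cb S V) := fun z => by
        have hh : ∀ i, permZ (Pl D cb S V) (upperU p 1) (permZ _ (upperU p 1 ^ i) f) =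
            permZ _ (upperU p 1 ^ (i + 1)) f := fun i => by
          rw [pow_succ', map_mul]; rfl
        have hu : permZ (Pl D cb S V) (upperU p 1) g = g := by
          rw [hg, map_sum, Finset.sum_congr rfl fun i _ => hh i]
          have e1 := Finset.sum_range_succ' (fun i => permZ (Pl D cb S V) (upperU p 1 ^ i) f) p
          have e2 := Finset.sum_range_succ (fun i => permZ (Pl D cb S V) (upperU p 1 ^ i) f) p
          rw [e1, upperU_one_pow_p, pow_zero] at e2
          exact add_right_cancel e2
        exact congrFun hu z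
      refine ⟨p * n, mul_ne_zero (Fact.out : p.Prime).ne_zero hn, ⟨g, hgfix⟩, ?_⟩
      show QuotientAddGroup.mk (φ₀ ⟨g, hgfix⟩) = _
      rw [← QuotientAddGroup.mk_nsmul]
      refine congrArg QuotientAddGroup.mk (Subtype.ext ?_)
      show dd.Φ g = ((p * n) • y).1
      have hi : ∀ i : ℕ, dd.Φ (permZ _ (upperU p 1 ^ i) f) = n • (y : UnitMod D S) := fun i => by
        induction i with
        | zero => rw [pow_zero, map_one]; exact hf
        | succ i ih =>
          rw [pow_succ', map_mul, end_mul_apply]
          rw [show dd.Φ (permZ _ (upperU p 1) (permZ _ (upperU p 1 ^ i) f)) =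
              actU D S (upperU p 1) (dd.Φ (permZ _ (upperU p 1 ^ i) f)) from
              dd.equivariant (upperU p 1) (permZ (Pl D cb S V) (upperU p 1 ^ i) f),
            ih, map_nsmul, y.2]
      rw [hg, map_sum, Finset.sum_congr rfl fun i _ => hi i, Finset.sum_const, Finset.card_range,
        ← mul_nsmul']
      rfl)
  obtain ⟨K', -, hKd'⟩ := (wtProbe w).dim_of_free (fixUAct D S)
  have hKle : (wtProbe w).dimIn (modPRep (p := p) (fixZAct (Z := Pl D cb S V))) K ≤
      if ∀ st, w st = 1 then 1 else 0 := by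
    rw [dimIn_wtProbe]
    let onesInf : fixZ p (Pl D cb S V) :=
      ⟨Sum.elim (fun _ => 1) (fun _ => 0), fun z => by cases z <;> rfl⟩
    have hspan : ∀ v ∈ K, v ∈ Submodule.span (ZMod p)
        {(QuotientAddGroup.mk onesInf : ModP p (fixZ p (Pl D cb S V)))} := fun v hv => by
      obtain ⟨x, hx, rfl⟩ := hK v hv
      have hx' : IsOfFinAddOrder (φ₀ x) := (QuotientAddGroup.eq_zero_iff _).1 hx
      obtain ⟨a, ha⟩ := (dd.torsion_iff x.1).1 ((fixU D S).subtype.isOfFinAddOrder hx')
      have : x = a • onesInf := Subtype.ext (by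
        rw [ha]
        funext z
        cases z <;> simp [onesInf])
      rw [this, QuotientAddGroup.mk_zsmul, ← Int.cast_smul_eq_zsmul (ZMod p)]
      exact Submodule.smul_mem _ _ (Submodule.mem_span_singleton_self _)
    by_cases h : ∀ st, w st = 1
    · rw [if_pos h]
      refine (Submodule.finrank_mono (fun v hv => hspan v (Submodule.mem_inf.1 hv).2)).trans ?_
      exact (finrank_span_le_card _).trans (by simp)
    · rw [if_neg h, Nat.le_zero, Submodule.finrank_eq_zero, eq_bot_iff]
      rintro v ⟨hv, hvK⟩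
      obtain ⟨c, rfl⟩ := Submodule.mem_span_singleton.1 (hspan v hvK)
      push Not at h
      obtain ⟨st, hst⟩ := h
      have e := hv st
      have hfix : modPRep (p := p) (fixZAct (Z := Pl D cb S V)) st (QuotientAddGroup.mk onesInf) =
          QuotientAddGroup.mk onesInf := by
        rw [modPRep_mk]
        refine congrArg QuotientAddGroup.mk (Subtype.ext (funext fun z => ?_))
        cases z <;> rfl
      rw [map_smul, hfix] at e
      have e' : (1 - w st) • (c • (QuotientAddGroup.mk onesInf : ModP p (fixZ p (Pl D cb S V)))) =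
          0 := by rw [sub_smul, one_smul, ← e, sub_self]
      exact (Submodule.mem_bot _).2 ((smul_eq_zero.1 e').resolve_left (sub_ne_zero.2 hst.symm))
  have hY : Module.finrank (ZMod p) ↥(wtT (modPRep (p := p) (fixUAct D S)) w) =
      (wtProbe w).dim (modPRep (p := p) (fixUAct D S)) := by
    rw [Probe.dim, dimIn_wtProbe, inf_top_eq]
  rw [hY, hKd', ← dim_fixZ, hKd]
  omega

/-- The symbols of a fixed unit, as a function on the finite places. -/
def symbol (sd : SymbolData D S V) : ModP p (fixU D S) →ₗ[ZMod p] (FinPl D S V → ZMod p) :=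
  haveI := Classical.decEq (FinPl D S V)
  let θ₀ : fixU D S →+ (FinPl D S V → ZMod p) :=
    AddMonoidHom.mk' (fun b π => if upperU p 1 • π = π then sd.θ b π else 0) fun a b =>
      funext fun π => by
        simp only [Pi.add_apply]
        split_ifs with h
        · exact sd.θ_add a b a.2 b.2 π h
        · simp
  AddMonoidHom.toZModLinearMap p (QuotientAddGroup.lift _ θ₀ (by
    rintro _ ⟨y, rfl⟩
    show θ₀ (p • y) = 0
    rw [map_nsmul, ← Nat.cast_smul_eq_nsmul (ZMod p), CharP.cast_eq_zero, zero_smul]))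

theorem symbol_mk (sd : SymbolData D S V) (b : fixU D S) (π : FinPl D S V)
    [Decidable (upperU p 1 • π = π)] :
    symbol sd (QuotientAddGroup.mk b) π = if upperU p 1 • π = π then sd.θ b π else 0 := by
  show @ite _ _ (Classical.decEq (FinPl D S V) _ _) (sd.θ b π) 0 = _
  congr

theorem symbol_onFix (sd : SymbolData D S V) (v : ModP p (fixU D S)) :
    symbol sd v ∈ onFix p (FinPl D S V) := fun π hπ => by
  classical
  induction v using QuotientAddGroup.induction_on with
  | H b => rw [symbol_mk, if_neg hπ]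

theorem symbol_twist (sd : SymbolData D S V) (st : Tor p) (v : ModP p (fixU D S))
    (π : FinPl D S V) :
    symbol sd (modPRep (p := p) (fixUAct D S) st v) (diagHom p st • π) =
      chi p st * symbol sd v π := by
  classical
  induction v using QuotientAddGroup.induction_on with
  | H b =>
    rw [modPRep_mk, symbol_mk, symbol_mk]
    by_cases h : upperU p 1 • π = π
    · rw [if_pos h, if_pos (diag_fix.2 h), chi_apply]
      exact sd.θ_diag st.1 st.2 b b.2 π h
    · rw [if_neg h, if_neg (fun e => h (diag_fix.1 e)), mul_zero]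

theorem symbol_weight (sd : SymbolData D S V) (w w' : Tor p → ZMod p)
    (hw : ∀ st, w' st * chi p st = w st) {v : ModP p (fixU D S)}
    (hv : v ∈ wtT (modPRep (p := p) (fixUAct D S)) w) :
    symbol sd v ∈ wt (permRep p (FinPl D S V)) w' := fun st => funext fun π => by
  have h := symbol_twist sd st v ((diagHom p st)⁻¹ • π)
  rw [hv st, map_smul, smul_inv_smul, Pi.smul_apply, smul_eq_mul, ← hw st] at h
  rw [permRep_apply, Pi.smul_apply, smul_eq_mul]
  refine mul_left_cancel₀ (left_ne_zero_of_mul_eq_one (chi_mul_chiInv p st)) ?_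
  rw [← h]
  ring

theorem symbol_sum [Fintype (FinPl D S V)] (sd : SymbolData D S V) (v : ModP p (fixU D S)) :
    ∑ π, symbol sd v π = 0 := by
  classical
  induction v using QuotientAddGroup.induction_on with
  | H b =>
    simp only [symbol_mk]
    rw [← Finset.sum_filter]
    exact sd.θ_sum b b.2 _ fun π => by simp

theorem incU_mem_norm (sd : SymbolData D S V) {v : ModP p (fixU D S)} (h : symbol sd v = 0) :
    incU D S v ∈ LinearMap.range (opX (modPRep (p := p) (actU D S)) ^ (p - 1)) := by
  classical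
  induction v using QuotientAddGroup.induction_on with
  | H b =>
    obtain ⟨c, hc⟩ := sd.θ_norm b b.2 fun π hπ => by
      have := congrFun h π
      rwa [symbol_mk, if_pos hπ] at this
    exact ⟨QuotientAddGroup.mk c, by rw [← geom_eq_opX_pow, ← mk_normU, hc]; rfl⟩

theorem incU_mem_ker (v : ModP p (fixU D S)) :
    opX (modPRep (p := p) (actU D S)) (incU D S v) = 0 := by
  induction v using QuotientAddGroup.induction_on with
  | H b =>
    rw [opX, LinearMap.sub_apply, Module.End.one_apply, incU, modPMap_mk, modPRep_mk, sub_eq_zero]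
    exact congrArg QuotientAddGroup.mk b.2

theorem incU_mem_wt {w : Tor p → ZMod p} {v : ModP p (fixU D S)}
    (hv : v ∈ wtT (modPRep (p := p) (fixUAct D S)) w) :
    incU D S v ∈ wt (modPRep (p := p) (actU D S)) w := fun st => by
  rw [← map_smul, ← hv st]
  induction v using QuotientAddGroup.induction_on with
  | H b => rfl

/-- The fixed points among the finite places, seen among all places. -/
theorem onFix_fin_le [Fintype (Pl D cb S V)] [Fintype (FinPl D S V)] (w : Tor p → ZMod p) :
    Module.finrank (ZMod p) ↥(wt (permRep p (FinPl D S V)) w ⊓ onFix p (FinPl D S V)) ≤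
      Module.finrank (ZMod p) ↥(wt (permRep p (Pl D cb S V)) w ⊓ onFix p (Pl D cb S V)) := by
  let F : ↥(wt (permRep p (FinPl D S V)) w ⊓ onFix p (FinPl D S V)) →ₗ[ZMod p]
      ↥(wt (permRep p (Pl D cb S V)) w ⊓ onFix p (Pl D cb S V)) :=
    { toFun := fun f => ⟨Sum.elim (fun _ => 0) f.1, ⟨fun st => funext fun z => by
          rcases z with z | z
          · show (0 : ZMod p) = w st * 0
            rw [mul_zero]
          · exact congrFun (f.2.1 st) z,
        fun z hz => by
          rcases z with z | z
          · rfl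
          · exact f.2.2 z fun e => hz (congrArg Sum.inr e)⟩⟩
      map_add' := fun a b => Subtype.ext (funext fun z => by cases z <;> simp)
      map_smul' := fun c a => Subtype.ext (funext fun z => by cases z <;> simp) }
  refine LinearMap.finrank_le_finrank_of_injective (f := F) fun a b h => Subtype.ext ?_
  funext z
  exact congrFun (congrArg Subtype.val h) (Sum.inr z)

/-- The homomorphisms of the Borel subgroup: units against places. -/
theorem borelVec_perm_le [Fintype (Pl D cb S V)] [Fintype (FinPl D S V)]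
    [Module.Finite ℤ (UnitMod D S)] (hp : 3 < p) (dd : DirichletData D cb S V)
    (sd : SymbolData D S V) {π₀ : FinPl D S V} (h₀ : upperU p 1 • π₀ = π₀) :
    Module.finrank (ZMod p) ↥(borelVec (permRep p (Pl D cb S V))) ≤
      Module.finrank (ZMod p) ↥(borelVec (modPRep (p := p) (actU D S))) := by
  haveI : Module.Finite ℤ (fixU D S) := finite_subgroup _
  have h2 := two_ne_zero' hp
  let a : Tor p := (1, Units.mk0 2 h2)
  let a' : Tor p := (Units.mk0 2 h2, 1)
  have h3 : (3 : ZMod p) ≠ 0 := fun h => by
    have h30 : ((3 : ℕ) : ZMod p) = 0 := by exact_mod_cast h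
    rw [CharP.cast_eq_zero_iff (ZMod p) p] at h30
    exact absurd (Nat.le_of_dvd (by norm_num) h30) (by omega)
  have hm : chiInv p a ≠ (a.2 : ZMod p) * a.2 := by
    rw [chiInv_apply]
    simp only [a, Units.val_mk0, inv_one, Units.val_one, mul_one]
    intro h
    exact h2 (by linear_combination -h)
  have h1 : (1 : Tor p →* ZMod p) a ≠ (a.2 : ZMod p) * a.2 := by
    simp only [a, Units.val_mk0, MonoidHom.one_apply]
    intro h
    exact h3 (by linear_combination -h)
  have hc : chi p a' ≠ (a'.2 : ZMod p) * a'.2 := by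
    rw [chi_apply]
    simp only [a', Units.val_mk0, inv_one, Units.val_one, mul_one]
    intro h
    exact one_ne_zero (α := ZMod p) (by linear_combination h)
  have hne : ¬ ∀ st, chiInv p st = 1 := fun h => by
    have := h a
    rw [chiInv_apply] at this
    simp only [a, Units.val_mk0, inv_one, Units.val_one, mul_one] at this
    exact one_ne_zero (α := ZMod p) (by linear_combination this)
  have hne' : ¬ ∀ st, chi p st = 1 := fun h => hne fun st => by rw [chiInv_eq, h]
  have hinj : ∀ (w : Tor p → ZMod p) (st : Tor p), w st ≠ (st.2 : ZMod p) * st.2 →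
      ∀ N : Submodule (ZMod p) (ModP p (fixU D S)), N ≤ wtT (modPRep (p := p) (fixUAct D S)) w →
      ∀ T : Submodule (ZMod p) (ModP p (UnitMod D S)), (∀ v ∈ N, incU D S v ∈ T) →
        Module.finrank (ZMod p) N ≤ Module.finrank (ZMod p) T := fun w st hst N hN T hT => by
    have h := finrank_le_ker_add (incU D S) N T hT
    have h0 : N ⊓ LinearMap.ker (incU D S) = ⊥ :=
      eq_bot_iff.2 fun v hv => incU_injOn D S w st hst (hN hv.1) hv.2
    rw [h0, finrank_bot, zero_add] at h
    exact h
  have km := wt_inv_le dd (chiInv p)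
  have k1 := wt_inv_le dd (1 : Tor p →* ZMod p)
  have kc := wt_inv_le dd (chi p)
  rw [if_neg hne, zero_add] at km
  rw [if_neg hne', zero_add] at kc
  rw [if_pos (fun st => MonoidHom.one_apply st)] at k1
  have um := hinj _ a hm _ le_rfl
    (wt (modPRep (p := p) (actU D S)) (chiInv p) ⊓ LinearMap.ker (opX _))
    fun v hv => ⟨incU_mem_wt hv, incU_mem_ker v⟩
  have split : ∀ (w : Tor p → ZMod p) (st : Tor p), w st ≠ (st.2 : ZMod p) * st.2 →
      ∀ T : Submodule (ZMod p) (FinPl D S V → ZMod p),
        (∀ v ∈ wtT (modPRep (p := p) (fixUAct D S)) w, symbol sd v ∈ T) →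
      Module.finrank (ZMod p) ↥(wtT (modPRep (p := p) (fixUAct D S)) w) ≤
        Module.finrank (ZMod p) ↥(wt (modPRep (p := p) (actU D S)) w ⊓
          LinearMap.range (opX (modPRep (p := p) (actU D S)) ^ (p - 1))) +
        Module.finrank (ZMod p) T := fun w st hst T hT => by
    refine (finrank_le_ker_add (symbol sd) _ T hT).trans (Nat.add_le_add_right ?_ _)
    exact hinj w st hst _ inf_le_left _ fun v hv => ⟨incU_mem_wt hv.1, incU_mem_norm sd hv.2⟩
  have u1 := split 1 a h1 (wt (permRep p (FinPl D S V)) (chiInv p) ⊓ onFix p _) fun v hv =>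
    ⟨symbol_weight sd 1 (chiInv p) (fun st => by
      rw [mul_comm, chi_mul_chiInv, Pi.one_apply]) hv, symbol_onFix sd v⟩
  have uc := split (chi p) a' hc
    (wt (permRep p (FinPl D S V)) 1 ⊓ onFix p _ ⊓
      LinearMap.ker (∑ π, LinearMap.proj π : (FinPl D S V → ZMod p) →ₗ[ZMod p] ZMod p))
    fun v hv => ⟨⟨symbol_weight sd (chi p) 1 (fun st => by rw [Pi.one_apply, one_mul]) hv,
      symbol_onFix sd v⟩, by
        rw [SetLike.mem_coe, LinearMap.mem_ker, LinearMap.sum_apply]
        exact symbol_sum sd v⟩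
  have us := onFix_sum_lt (p := p) h₀
  have fm := onFix_fin_le (cb := cb) (D := D) (S := S) (V := V) (chiInv p)
  have f1 := onFix_fin_le (cb := cb) (D := D) (S := S) (V := V) (1 : Tor p → ZMod p)
  have sw := onFix_swap (p := p) (Z := Pl D cb S V)
  have s1 := finrank_inv_split (p := p) (Z := Pl D cb S V) (1 : Tor p → ZMod p)
  have sc := finrank_inv_split (p := p) (Z := Pl D cb S V) (chi p)
  have ub := finrank_borelVec_perm_le (p := p) (Z := Pl D cb S V)
  have lb := le_borelVec (modPRep (p := p) (actU D S)) hp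
  have hone : ((1 : Tor p →* ZMod p) : Tor p → ZMod p) = (1 : Tor p → ZMod p) := rfl
  rw [hone] at k1
  omega

/-- The matrices fixed by a subgroup. -/
def invW (H : Subgroup (GL (Fin 2) (ZMod p))) : Submodule (ZMod p) (W p) where
  carrier := {m | ∀ g ∈ H, piW g m = m}
  zero_mem' := fun g _ => map_zero _
  add_mem' := fun {a b} ha hb g hg => by rw [map_add, ha g hg, hb g hg]
  smul_mem' := fun c a ha g hg => by rw [map_smul, ha g hg]

/-- The count. -/
theorem le_finrank_eqHom [AddGroup.FG (UnitMod D S)] (hp : 3 < p) (hcb : cb * cb = 1)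
    (hdet : Matrix.det (cb : Matrix (Fin 2) (Fin 2) (ZMod p)) = -1)
    (dd : DirichletData D cb S V) (sd : SymbolData D S V)
    {π₀ : FinPl D S V} (h₀ : upperU p 1 • π₀ = π₀) :
    1 + ∑ l : ↥S, Module.finrank (ZMod p) ↥(invW (decImage D (V l))) ≤
      Module.finrank (ZMod p) ↥(eqHom piW (modPRep (p := p) (actU D S))) := by
  classical
  haveI : Module.Finite ℤ (UnitMod D S) := Module.Finite.iff_addGroup_fg.2 inferInstance
  haveI := Fintype.ofFinite (InfPl cb)
  haveI := Fintype.ofFinite (FinPl D S V)
  haveI : Module.Finite ℤ (UnitMod D S ⧸ AddCommGroup.torsion (UnitMod D S)) :=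
    Module.Finite.of_surjective (QuotientAddGroup.mk' _).toIntLinearMap
      (QuotientAddGroup.mk'_surjective _)
  have hbor := borelVec_perm_le hp dd sd h₀
  rw [finrank_borelVec _ hp, finrank_borelVec _ hp] at hbor
  obtain ⟨K, hK, hKd⟩ := (borelProbe p).dim_of_free (actU D S)
  obtain ⟨K', hK', hKd'⟩ := (borelProbe p).dim_of_cofinite (permZ (Pl D cb S V)) (actFree (actU D S))
    ((QuotientAddGroup.mk' _).comp dd.Φ)
    (fun g f => congrArg QuotientAddGroup.mk (dd.equivariant g f))
    fun m => by
      obtain ⟨y, rfl⟩ := QuotientAddGroup.mk_surjective m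
      obtain ⟨n, hn, f, hf⟩ := dd.exists_nsmul y
      exact ⟨n, hn, f, (congrArg QuotientAddGroup.mk hf).trans (map_nsmul (QuotientAddGroup.mk' _) n y)⟩
  have z1 : (borelProbe p).dimIn (modPRep (p := p) (actU D S)) K = 0 :=
    dimIn_borelProbe_eq_zero _ hp K fun g h v hv => by
      obtain ⟨x, hx, rfl⟩ := hK v hv
      rw [modPRep_mk, modPRep_mk, actU_comm_of_torsion D S g h hx]
  have z2 : (borelProbe p).dimIn (modPRep (p := p) (permZ (Pl D cb S V))) K' = 0 :=
    dimIn_borelProbe_eq_zero _ hp K' fun g h v hv => by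
      obtain ⟨x, hx, rfl⟩ := hK' v hv
      obtain ⟨a, rfl⟩ := (dd.torsion_iff x).1 ((QuotientAddGroup.eq_zero_iff _).1 hx)
      rw [modPRep_mk, modPRep_mk]
      refine congrArg QuotientAddGroup.mk (funext fun z => ?_)
      cases z <;> rfl
  have hq : (borelProbe p).dim (permRep p (Pl D cb S V)) = (borelProbe p).dim (modPRep (p := p) (actU D S)) := by
    have e := dim_perm (Z := Pl D cb S V) (borelProbe p) (MonoidHom.id _)
    simp only [MonoidHom.comp_id] at e
    rw [← e, hKd, hKd', z1, z2]
  let z₀ : Option ↥S → Pl D cb S V := fun o => o.elim (Sum.inl (QuotientGroup.mk 1))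
    fun l => Sum.inr ⟨l, QuotientGroup.mk 1⟩
  have hfix := sum_fixed_le (Z := Pl D cb S V) hp z₀ (by
    rintro (_ | i) (_ | j) g hg
    · rfl
    · cases hg
    · cases hg
    · exact congrArg some (congrArg Sigma.fst (Sum.inr.inj hg)))
  rw [Fintype.sum_option] at hfix
  have hstab : ∀ (H : Subgroup (GL (Fin 2) (ZMod p))) (g : GL (Fin 2) (ZMod p)),
      g • (QuotientGroup.mk 1 : GL (Fin 2) (ZMod p) ⧸ H) = QuotientGroup.mk 1 → g ∈ H := by
    intro H g hg
    rwa [MulAction.Quotient.smul_mk, smul_eq_mul, mul_one, QuotientGroup.eq, mul_one,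
      inv_mem_iff] at hg
  have hfin : ∀ l : ↥S, invW (decImage D (V l)) ≤ fixedW (p := p) (z₀ (some l)) :=
    fun l m hm g hg => hm g (hstab _ g (eq_of_heq (Sigma.mk.inj_iff.1 (Sum.inr.inj hg)).2))
  have hinf : 1 ≤ Module.finrank (ZMod p) ↥(fixedW (p := p) (z₀ none)) := by
    have htr : Matrix.trace (cb : Matrix (Fin 2) (Fin 2) (ZMod p)) = 0 := by
      set A := (cb : Matrix (Fin 2) (Fin 2) (ZMod p))
      have hA : A * A = 1 := by rw [← Units.val_mul, hcb, Units.val_one]
      have e00 := congrFun (congrFun hA 0) 0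
      have e11 := congrFun (congrFun hA 1) 1
      simp only [Matrix.mul_apply, Fin.sum_univ_two, Matrix.one_apply_eq] at e00 e11
      rw [Matrix.det_fin_two] at hdet
      rw [Matrix.trace_fin_two]
      exact (pow_eq_zero_iff two_ne_zero).1 (by linear_combination e00 + e11 + 2 * hdet)
    let C : W p := ⟨cb, by rw [Datum.trZero, LinearMap.mem_ker]; exact htr⟩
    refine Submodule.one_le_finrank_iff.2 fun h => ?_
    have hC : C ∈ fixedW (p := p) (z₀ none) := fun g hg => by
      have hgm : g ∈ Subgroup.zpowers cb := hstab _ g (Sum.inl.inj hg)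
      obtain ⟨i, rfl⟩ := Subgroup.mem_zpowers_iff.1 hgm
      refine Subtype.ext ?_
      show twG p (ZMod p) 0 (cb ^ i) (cb : Matrix (Fin 2) (Fin 2) (ZMod p)) = _
      have hmap : ∀ h : GL (Fin 2) (ZMod p),
          (Matrix.GeneralLinearGroup.map (algebraMap (ZMod p) (ZMod p)) h :
            Matrix (Fin 2) (Fin 2) (ZMod p)) = h := fun h => rfl
      rw [twG_apply, pow_zero, map_one, one_smul, hmap, hmap, ← Units.val_mul, ← Units.val_mul]
      congr 1

      rw [← mul_assoc, ← (Commute.self_zpow cb i).eq, mul_inv_cancel_right]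
    rw [h, Submodule.mem_bot] at hC
    exact cb.ne_zero (congrArg Subtype.val hC)
  have := Finset.sum_le_sum (s := Finset.univ) fun l _ => Submodule.finrank_mono (hfin l)
  omega

end FLTAgent.Lowering.P1.UnitBound
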